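import Mathlib
import Fermat.Agent.S05.KernelRedX
import Fermat.Agent.S05.SameRed

/-!
# The reduction homomorphism of a Weierstrass curve with good reduction (general Weierstrass form)

`K` a field, `A` a valuation subring of `K` with residue field `κ`, `W` a Weierstrass curve over `K`
and `Wr` a Weierstrass curve over `κ` which is *the reduction of* `W` (`IsRedOf`: both come from one
Weierstrass curve over `A`).  If `Wr.Δ ≠ 0` (good reduction) the map

`red : W(K) → Wr(κ)`,  `O ↦ O`, `(x, y) ↦ (x mod m, y mod m)` if `x ∈ A`, `(x, y) ↦ O` otherwise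

is a group homomorphism (`redHom`), with kernel `{O} ∪ {x ∉ A}` (`red_eq_zero_iff`), compatible
with ring homomorphisms preserving `A` (`red_map`).  No completeness, no discreteness, all residue
characteristics.  Inputs: `S05.KernelRedX` (the kernel is a subgroup) and `S05.SameRed` (two points
with the same reduction differ by a point of the kernel).
-/

set_option autoImplicit false

namespace Fermat.Agent.GE.RedHom

open WeierstrassCurve WeierstrassCurve.Affine

variable {K : Type*} [Field K] (A : ValuationSubring K)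

/-- `Wr` is the reduction of `W`: both are base changes of one Weierstrass curve over `A`. -/
def IsRedOf (W : WeierstrassCurve K) (Wr : WeierstrassCurve (IsLocalRing.ResidueField A)) : Prop :=
  ∃ M : WeierstrassCurve A, M.map (algebraMap A K) = W ∧ M.map (IsLocalRing.residue A) = Wr

variable (Wr : WeierstrassCurve (IsLocalRing.ResidueField A))

open Classical in
/-- reduction of a pair of coordinates -/
noncomputable def redXY (x y : K) : Wr.toAffine.Point :=
  if hx : x ∈ A then
    if hy : y ∈ A then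
      if hn : Wr.toAffine.Nonsingular (IsLocalRing.residue A ⟨x, hx⟩) (IsLocalRing.residue A ⟨y, hy⟩)
      then Point.some _ _ hn else 0
    else 0
  else 0

/-- the reduction map on points -/
noncomputable def red {W : WeierstrassCurve K} : W.toAffine.Point → Wr.toAffine.Point
  | .zero => 0
  | .some x y _ => redXY A Wr x y

variable {A Wr}
variable {W : WeierstrassCurve K}

@[simp] theorem red_zero : red A Wr (0 : W.toAffine.Point) = 0 := rfl

theorem red_some {x y : K} (h : W.toAffine.Nonsingular x y) :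
    red A Wr (Point.some x y h) = redXY A Wr x y := rfl

theorem redXY_coe (X Y : A)
    (hn : Wr.toAffine.Nonsingular (IsLocalRing.residue A X) (IsLocalRing.residue A Y)) :
    redXY A Wr (X : K) (Y : K) = Point.some _ _ hn := by
  unfold redXY
  rw [dif_pos X.2, dif_pos Y.2, dif_pos (by simpa using hn)]

theorem redXY_of_notMem {x y : K} (hx : x ∉ A) : redXY A Wr x y = 0 := by
  unfold redXY
  rw [dif_neg hx]


theorem some_congr {F : Type*} [CommRing F] {V : Affine F} {x x' y y' : F} (hx : x = x') (hy : y = y')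
    (h : V.Nonsingular x y) (h' : V.Nonsingular x' y') : Point.some x y h = Point.some x' y' h' := by
  subst hx; subst hy; rfl

section Model

/-- the base change to `K` of a model over `A` -/
abbrev mK (M : WeierstrassCurve A) : WeierstrassCurve K := M.map (algebraMap A K)

/-- the reduction of a model over `A` -/
abbrev mR (M : WeierstrassCurve A) : WeierstrassCurve (IsLocalRing.ResidueField A) :=
  M.map (IsLocalRing.residue A)

variable (M : WeierstrassCurve A)


theorem coe_eq_algebraMap (X : A) : (X : K) = algebraMap A K X := rfl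

theorem integralCoeffs_map : Fermat.Agent.S05.IntegralCoeffs A (mK M) :=
  ⟨(M.a₁).2, (M.a₂).2, (M.a₃).2, (M.a₄).2, (M.a₆).2⟩

theorem integralB_map [DecidableEq K] : Fermat.Agent.S05.KR.IntegralB A (mK M).toAffine :=
  Fermat.Agent.S05.KR.integralB_of_a A _ (M.a₁).2 (M.a₂).2 (M.a₃).2 (M.a₄).2 (M.a₆).2

/-- an integral `x`-coordinate forces an integral `y`-coordinate -/
theorem y_mem_of_x_mem {x y : K} (h : (mK M).toAffine.Equation x y) (hx : x ∈ A) : y ∈ A :=
  Fermat.Agent.S05.KR.y_mem_of_x_mem (W := (mK M).toAffine) (M.a₁).2 (M.a₂).2 (M.a₃).2 (M.a₄).2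
    (M.a₆).2 h hx

/-- the equation descends to the model over `A` -/
theorem equation_model {X Y : A} (h : (mK M).toAffine.Equation (X : K) (Y : K)) :
    M.toAffine.Equation X Y := by
  have hinj : Function.Injective (algebraMap A K) := Subtype.val_injective
  exact (Affine.map_equation (W := M.toAffine) hinj X Y).1 h

theorem equation_res {X Y : A} (h : (mK M).toAffine.Equation (X : K) (Y : K)) :
    (mR M).toAffine.Equation (IsLocalRing.residue A X) (IsLocalRing.residue A Y) :=
  Affine.Equation.map (IsLocalRing.residue A) (equation_model M h)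

theorem nonsingular_res (hΔ : (mR M).Δ ≠ 0) {X Y : A} (h : (mK M).toAffine.Equation (X : K) (Y : K)) :
    (mR M).toAffine.Nonsingular (IsLocalRing.residue A X) (IsLocalRing.residue A Y) :=
  (Affine.equation_iff_nonsingular_of_Δ_ne_zero (W := (mR M).toAffine) hΔ).1 (equation_res M h)

theorem red_some_coe (hΔ : (mR M).Δ ≠ 0) {X Y : A} (h : (mK M).toAffine.Nonsingular (X : K) (Y : K)) :
    red A (mR M) (Point.some _ _ h) = Point.some _ _ (nonsingular_res M hΔ h.1) := by
  rw [red_some, redXY_coe]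

theorem red_some_of_notMem {x y : K} (h : (mK M).toAffine.Nonsingular x y) (hx : x ∉ A) :
    red A (mR M) (Point.some _ _ h) = 0 := by
  rw [red_some, redXY_of_notMem hx]

/-- the reduction of an affine point vanishes iff its `x`-coordinate is not integral -/
theorem red_some_eq_zero_iff (hΔ : (mR M).Δ ≠ 0) {x y : K} (h : (mK M).toAffine.Nonsingular x y) :
    red A (mR M) (Point.some _ _ h) = 0 ↔ x ∉ A := by
  constructor
  · intro h0 hx
    have hy : y ∈ A := y_mem_of_x_mem M h.1 hx
    have := red_some_coe M hΔ (X := ⟨x, hx⟩) (Y := ⟨y, hy⟩) h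
    rw [this] at h0
    exact Point.some_ne_zero _ h0
  · exact red_some_of_notMem M h


theorem coe_mem_nonunits_iff (Z : A) : (Z : K) ∈ A.nonunits ↔ IsLocalRing.residue A Z = 0 := by
  rw [ValuationSubring.mem_nonunits_iff_exists_mem_maximalIdeal, IsLocalRing.residue_eq_zero_iff]
  constructor
  · rintro ⟨_, h⟩; exact h
  · intro h; exact ⟨Z.2, h⟩

theorem isUnit_of_residue_ne_zero {Z : A} (h : IsLocalRing.residue A Z ≠ 0) : IsUnit Z := by
  by_contra hu
  exact h ((IsLocalRing.residue_eq_zero_iff Z).2 ((IsLocalRing.mem_maximalIdeal Z).2 hu))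

theorem coe_unit_inv (u : Aˣ) : (((u⁻¹ : Aˣ) : A) : K) = ((u : A) : K)⁻¹ := by
  have h := congrArg (algebraMap A K) (Units.inv_mul u)
  rw [map_mul, map_one] at h
  exact eq_inv_of_mul_eq_one_left h

theorem residue_unit_inv (u : Aˣ) :
    IsLocalRing.residue A ((u⁻¹ : Aˣ) : A) = (IsLocalRing.residue A (u : A))⁻¹ := by
  have h : IsLocalRing.residue A ((u⁻¹ : Aˣ) : A) * IsLocalRing.residue A (u : A) = 1 := by
    rw [← map_mul, Units.inv_mul, map_one]
  exact eq_inv_of_mul_eq_one_left h

variable [DecidableEq K] [DecidableEq (IsLocalRing.ResidueField A)]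

/-- **Addition through an integral slope.** If the slope of the line through two integral points is
the image of `L ∈ A`, whose reduction is the slope of the line through the two reduced points, and
neither pair is a pair of opposite points, then reduction commutes with this addition. -/
theorem red_add_of_slope (hΔ : (mR M).Δ ≠ 0) {X₁ Y₁ X₂ Y₂ L : A}
    (h₁ : (mK M).toAffine.Nonsingular (X₁ : K) (Y₁ : K))
    (h₂ : (mK M).toAffine.Nonsingular (X₂ : K) (Y₂ : K))
    (hnK : ¬((X₁ : K) = X₂ ∧ (Y₁ : K) = (mK M).toAffine.negY X₂ Y₂))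
    (hL : (L : K) = (mK M).toAffine.slope (X₁ : K) X₂ Y₁ Y₂)
    (hnR : ¬(IsLocalRing.residue A X₁ = IsLocalRing.residue A X₂ ∧
      IsLocalRing.residue A Y₁ =
        (mR M).toAffine.negY (IsLocalRing.residue A X₂) (IsLocalRing.residue A Y₂)))
    (hLR : IsLocalRing.residue A L = (mR M).toAffine.slope (IsLocalRing.residue A X₁)
      (IsLocalRing.residue A X₂) (IsLocalRing.residue A Y₁) (IsLocalRing.residue A Y₂)) :
    red A (mR M) (Point.some _ _ h₁ + Point.some _ _ h₂) =
      red A (mR M) (Point.some _ _ h₁) + red A (mR M) (Point.some _ _ h₂) := by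
  rw [red_some_coe M hΔ h₁, red_some_coe M hΔ h₂, Point.add_some hnK, Point.add_some hnR]
  have eX : (mK M).toAffine.addX (X₁ : K) X₂ ((mK M).toAffine.slope (X₁ : K) X₂ Y₁ Y₂) =
      ((M.toAffine.addX X₁ X₂ L : A) : K) := by
    rw [← hL]
    exact Affine.map_addX (W' := M.toAffine) (algebraMap A K) X₁ X₂ L
  have eY : (mK M).toAffine.addY (X₁ : K) X₂ Y₁ ((mK M).toAffine.slope (X₁ : K) X₂ Y₁ Y₂) =
      ((M.toAffine.addY X₁ X₂ Y₁ L : A) : K) := by
    rw [← hL]
    exact Affine.map_addY (W' := M.toAffine) (algebraMap A K) X₁ Y₁ X₂ L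
  have hsum : (mK M).toAffine.Nonsingular ((M.toAffine.addX X₁ X₂ L : A) : K)
      ((M.toAffine.addY X₁ X₂ Y₁ L : A) : K) := by
    rw [← eX, ← eY]
    exact Affine.nonsingular_add h₁ h₂ hnK
  have e1 : Point.some _ _ (Affine.nonsingular_add h₁ h₂ hnK) = Point.some _ _ hsum :=
    some_congr eX eY _ _
  rw [e1, red_some_coe M hΔ hsum]
  apply some_congr
  · rw [← hLR]
    exact (Affine.map_addX (W' := M.toAffine) (IsLocalRing.residue A) X₁ X₂ L).symm
  · rw [← hLR]
    exact (Affine.map_addY (W' := M.toAffine) (IsLocalRing.residue A) X₁ Y₁ X₂ L).symm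


/-- Case A1: the reduced `x`-coordinates differ. -/
theorem red_add_of_X_ne (hΔ : (mR M).Δ ≠ 0) {X₁ Y₁ X₂ Y₂ : A}
    (h₁ : (mK M).toAffine.Nonsingular (X₁ : K) (Y₁ : K))
    (h₂ : (mK M).toAffine.Nonsingular (X₂ : K) (Y₂ : K))
    (hX : IsLocalRing.residue A X₁ ≠ IsLocalRing.residue A X₂) :
    red A (mR M) (Point.some _ _ h₁ + Point.some _ _ h₂) =
      red A (mR M) (Point.some _ _ h₁) + red A (mR M) (Point.some _ _ h₂) := by
  have hD : IsLocalRing.residue A (X₁ - X₂) ≠ 0 := by
    rw [map_sub]; exact sub_ne_zero.2 hX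
  obtain ⟨u, hu⟩ := isUnit_of_residue_ne_zero hD
  have hxK : (X₁ : K) ≠ X₂ := fun h => hX (by rw [Subtype.ext h])
  refine red_add_of_slope M hΔ (L := (Y₁ - Y₂) * ((u⁻¹ : Aˣ) : A)) h₁ h₂ (fun h => hxK h.1) ?_
    (fun h => hX h.1) ?_
  · rw [Affine.slope_of_X_ne hxK]
    push_cast
    rw [coe_unit_inv, hu]
    push_cast
    rw [div_eq_mul_inv]
  · rw [Affine.slope_of_X_ne hX, map_mul, residue_unit_inv, hu, map_sub, map_sub, div_eq_mul_inv]


/-- Case A2b: same reduced `x`-coordinate, and the reduced points are not opposite. -/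
theorem red_add_of_Y_ne (hΔ : (mR M).Δ ≠ 0) {X₁ Y₁ X₂ Y₂ : A}
    (h₁ : (mK M).toAffine.Nonsingular (X₁ : K) (Y₁ : K))
    (h₂ : (mK M).toAffine.Nonsingular (X₂ : K) (Y₂ : K))
    (hX : IsLocalRing.residue A X₁ = IsLocalRing.residue A X₂)
    (hY : IsLocalRing.residue A Y₁ ≠
      (mR M).toAffine.negY (IsLocalRing.residue A X₂) (IsLocalRing.residue A Y₂)) :
    red A (mR M) (Point.some _ _ h₁ + Point.some _ _ h₂) =
      red A (mR M) (Point.some _ _ h₁) + red A (mR M) (Point.some _ _ h₂) := by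
  -- the denominator
  have hD : IsLocalRing.residue A (Y₁ - M.toAffine.negY X₂ Y₂) ≠ 0 := by
    rw [map_sub, ← Affine.map_negY]; exact sub_ne_zero.2 hY
  obtain ⟨u, hu⟩ := isUnit_of_residue_ne_zero hD
  have hDK : (Y₁ : K) - (mK M).toAffine.negY X₂ Y₂ = ((u : A) : K) := by
    rw [hu]
    have := (Affine.map_negY (W' := M.toAffine) (algebraMap A K) X₂ Y₂)
    rw [show ((X₂ : A) : K) = algebraMap A K X₂ from rfl, show ((Y₂ : A) : K) = algebraMap A K Y₂ from rfl,
      this]
    rfl
  have hu0 : ((u : A) : K) ≠ 0 := by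
    intro h0
    have : (u : A) = 0 := Subtype.ext h0
    exact u.ne_zero this
  have hyK : (Y₁ : K) ≠ (mK M).toAffine.negY X₂ Y₂ := fun h => hu0 (by rw [← hDK, h, sub_self])
  -- the numerator
  set Num : A := X₁ ^ 2 + X₁ * X₂ + X₂ ^ 2 + M.a₂ * (X₁ + X₂) + M.a₄ - M.a₁ * Y₁ with hNum
  have e₁ := (Affine.equation_iff (W := (mK M).toAffine) (X₁ : K) Y₁).1 h₁.1
  have e₂ := (Affine.equation_iff (W := (mK M).toAffine) (X₂ : K) Y₂).1 h₂.1
  have r₁ := (Affine.equation_iff (W := (mR M).toAffine) _ _).1 (equation_res M h₁.1)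
  have r₂ := (Affine.equation_iff (W := (mR M).toAffine) _ _).1 (equation_res M h₂.1)
  refine red_add_of_slope M hΔ (L := Num * ((u⁻¹ : Aˣ) : A)) h₁ h₂ (fun h => hyK h.2) ?_
    (fun h => hY h.2) ?_
  · -- slope over `K`
    have hNK : ((Num : A) : K) = (X₁ : K) ^ 2 + X₁ * X₂ + (X₂ : K) ^ 2 + (mK M).a₂ * ((X₁ : K) + X₂)
        + (mK M).a₄ - (mK M).a₁ * Y₁ := by
      rw [hNum]; push_cast; rfl
    push_cast
    rw [coe_unit_inv, ← hDK, hNK]
    by_cases hx : (X₁ : K) = X₂
    · have hy12 : (Y₁ : K) = Y₂ := Affine.Y_eq_of_Y_ne h₁.1 h₂.1 hx hyK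
      rw [Affine.slope_of_Y_ne hx hyK, ← hx, ← hy12, div_eq_mul_inv]
      congr 1
      ring
    · rw [Affine.slope_of_X_ne hx]
      have hx' : (X₁ : K) - X₂ ≠ 0 := sub_ne_zero.2 hx
      have hd' : (Y₁ : K) - (mK M).toAffine.negY X₂ Y₂ ≠ 0 := by rw [hDK]; exact hu0
      rw [← div_eq_mul_inv, div_eq_div_iff hd' hx']
      simp only [Affine.negY] at hd' ⊢
      linear_combination e₂ - e₁
  · -- slope over the residue field
    have hy12 : IsLocalRing.residue A Y₁ = IsLocalRing.residue A Y₂ :=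
      Affine.Y_eq_of_Y_ne (equation_res M h₁.1) (equation_res M h₂.1) hX hY
    have hDR : IsLocalRing.residue A (u : A) = IsLocalRing.residue A Y₁ -
        (mR M).toAffine.negY (IsLocalRing.residue A X₁) (IsLocalRing.residue A Y₁) := by
      rw [hu, map_sub, ← Affine.map_negY, ← hX, ← hy12]
    have hNR : IsLocalRing.residue A Num = 3 * IsLocalRing.residue A X₁ ^ 2 +
        2 * (mR M).toAffine.a₂ * IsLocalRing.residue A X₁ + (mR M).toAffine.a₄ -
        (mR M).toAffine.a₁ * IsLocalRing.residue A Y₁ := by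
      rw [hNum]
      simp only [map_sub, map_add, map_mul, map_pow, ← hX]
      have ha₂ : (mR M).toAffine.a₂ = IsLocalRing.residue A M.a₂ := rfl
      have ha₄ : (mR M).toAffine.a₄ = IsLocalRing.residue A M.a₄ := rfl
      have ha₁ : (mR M).toAffine.a₁ = IsLocalRing.residue A M.a₁ := rfl
      rw [ha₂, ha₄, ha₁]
      ring
    rw [Affine.slope_of_Y_ne hX hY, map_mul, residue_unit_inv, hDR, hNR, div_eq_mul_inv]


omit [DecidableEq K] [DecidableEq (IsLocalRing.ResidueField A)] in
/-- the kernel of `red` is the kernel of reduction of `S05.SameRed` -/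
theorem red_eq_zero_iff (hΔ : (mR M).Δ ≠ 0) (P : (mK M).toAffine.Point) :
    red A (mR M) P = 0 ↔ Fermat.Agent.S05.InKerRed A P := by
  rcases P with _ | ⟨x, y, h⟩
  · exact ⟨fun _ => trivial, fun _ => rfl⟩
  · exact red_some_eq_zero_iff M hΔ h

omit [DecidableEq K] [DecidableEq (IsLocalRing.ResidueField A)] in
/-- good reduction: every integral point has nonsingular reduction, in the sense of `S05.SameRed` -/
theorem nonsingularRed_coe (hΔ : (mR M).Δ ≠ 0) {X Y : A}
    (h : (mK M).toAffine.Equation (X : K) (Y : K)) :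
    Fermat.Agent.S05.NonsingularRed A (mK M) (X : K) (Y : K) := by
  have hn := nonsingular_res M hΔ h
  rw [Affine.nonsingular_iff] at hn
  rcases hn.2 with h1 | h2
  · left
    have : ((M.a₁ * Y - (3 * X ^ 2 + 2 * M.a₂ * X + M.a₄) : A) : K) ∉ A.nonunits := by
      rw [coe_mem_nonunits_iff]
      intro h0
      apply h1
      have := h0
      simp only [map_sub, map_add, map_mul, map_pow, map_ofNat] at this
      exact sub_eq_zero.1 this
    exact this
  · right
    have : ((2 * Y + M.a₁ * X + M.a₃ : A) : K) ∉ A.nonunits := by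
      rw [coe_mem_nonunits_iff]
      intro h0
      apply h2
      have := h0
      simp only [map_add, map_mul, map_ofNat] at this
      have e1 : (mR M).toAffine.a₁ = IsLocalRing.residue A M.a₁ := rfl
      have e3 : (mR M).toAffine.a₃ = IsLocalRing.residue A M.a₃ := rfl
      rw [e1, e3]
      linear_combination this
    exact this

/-- Case A2a: the reduced points are opposite. -/
theorem red_add_of_Y_eq (hΔ : (mR M).Δ ≠ 0) {X₁ Y₁ X₂ Y₂ : A}
    (h₁ : (mK M).toAffine.Nonsingular (X₁ : K) (Y₁ : K))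
    (h₂ : (mK M).toAffine.Nonsingular (X₂ : K) (Y₂ : K))
    (hX : IsLocalRing.residue A X₁ = IsLocalRing.residue A X₂)
    (hY : IsLocalRing.residue A Y₁ =
      (mR M).toAffine.negY (IsLocalRing.residue A X₂) (IsLocalRing.residue A Y₂)) :
    red A (mR M) (Point.some _ _ h₁ + Point.some _ _ h₂) =
      red A (mR M) (Point.some _ _ h₁) + red A (mR M) (Point.some _ _ h₂) := by
  rw [red_some_coe M hΔ h₁, red_some_coe M hΔ h₂, Point.add_of_Y_eq hX hY, red_eq_zero_iff M hΔ]
  have h₂' : (mK M).toAffine.Nonsingular (X₂ : K) ((mK M).toAffine.negY X₂ Y₂) :=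
    (Affine.nonsingular_neg ..).2 h₂
  have hneg : Point.some _ _ h₁ + Point.some _ _ h₂ = Point.some _ _ h₁ - Point.some _ _ h₂' := by
    rw [sub_eq_add_neg, Point.neg_some]
    congr 2
    rw [Affine.negY_negY]
  rw [hneg]
  have hnegY : (mK M).toAffine.negY (X₂ : K) Y₂ = ((M.toAffine.negY X₂ Y₂ : A) : K) :=
    Affine.map_negY (W' := M.toAffine) (algebraMap A K) X₂ Y₂
  refine Fermat.Agent.S05.inKerRed_sub (integralCoeffs_map M) h₁ h₂' X₁.2 X₂.2 ?_ ?_
    (nonsingularRed_coe M hΔ h₁.1)
  · have : ((X₁ - X₂ : A) : K) ∈ A.nonunits := by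
      rw [coe_mem_nonunits_iff, map_sub, hX, sub_self]
    exact this
  · rw [hnegY]
    have : ((Y₁ - M.toAffine.negY X₂ Y₂ : A) : K) ∈ A.nonunits := by
      rw [coe_mem_nonunits_iff, map_sub, ← Affine.map_negY, hY, sub_self]
    exact this

/-- reduction is additive on pairs of integral points (subtype form) -/
theorem red_add_coe (hΔ : (mR M).Δ ≠ 0) {X₁ Y₁ X₂ Y₂ : A}
    (h₁ : (mK M).toAffine.Nonsingular (X₁ : K) (Y₁ : K))
    (h₂ : (mK M).toAffine.Nonsingular (X₂ : K) (Y₂ : K)) :
    red A (mR M) (Point.some _ _ h₁ + Point.some _ _ h₂) =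
      red A (mR M) (Point.some _ _ h₁) + red A (mR M) (Point.some _ _ h₂) := by
  by_cases hX : IsLocalRing.residue A X₁ = IsLocalRing.residue A X₂
  · by_cases hY : IsLocalRing.residue A Y₁ =
        (mR M).toAffine.negY (IsLocalRing.residue A X₂) (IsLocalRing.residue A Y₂)
    · exact red_add_of_Y_eq M hΔ h₁ h₂ hX hY
    · exact red_add_of_Y_ne M hΔ h₁ h₂ hX hY
  · exact red_add_of_X_ne M hΔ h₁ h₂ hX

/-- reduction is additive on pairs of integral points -/
theorem red_add_of_mem (hΔ : (mR M).Δ ≠ 0) {x₁ y₁ x₂ y₂ : K}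
    (h₁ : (mK M).toAffine.Nonsingular x₁ y₁) (h₂ : (mK M).toAffine.Nonsingular x₂ y₂)
    (hx₁ : x₁ ∈ A) (hx₂ : x₂ ∈ A) :
    red A (mR M) (Point.some _ _ h₁ + Point.some _ _ h₂) =
      red A (mR M) (Point.some _ _ h₁) + red A (mR M) (Point.some _ _ h₂) :=
  red_add_coe M hΔ (X₁ := ⟨x₁, hx₁⟩) (Y₁ := ⟨y₁, y_mem_of_x_mem M h₁.1 hx₁⟩) (X₂ := ⟨x₂, hx₂⟩)
    (Y₂ := ⟨y₂, y_mem_of_x_mem M h₂.1 hx₂⟩) h₁ h₂

omit [DecidableEq K] [DecidableEq (IsLocalRing.ResidueField A)] in
theorem red_neg (hΔ : (mR M).Δ ≠ 0) (P : (mK M).toAffine.Point) :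
    red A (mR M) (-P) = -red A (mR M) P := by
  rcases P with _ | ⟨x, y, h⟩
  · rfl
  · by_cases hx : x ∈ A
    · have hy : y ∈ A := y_mem_of_x_mem M h.1 hx
      have h' : (mK M).toAffine.Nonsingular ((⟨x, hx⟩ : A) : K) ((⟨y, hy⟩ : A) : K) := h
      have hn : (mK M).toAffine.Nonsingular ((⟨x, hx⟩ : A) : K)
          ((M.toAffine.negY ⟨x, hx⟩ ⟨y, hy⟩ : A) : K) := by
        have := (Affine.nonsingular_neg (W' := (mK M).toAffine) x y).2 h
        rwa [show (mK M).toAffine.negY x y = ((M.toAffine.negY ⟨x, hx⟩ ⟨y, hy⟩ : A) : K) from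
          Affine.map_negY (W' := M.toAffine) (algebraMap A K) ⟨x, hx⟩ ⟨y, hy⟩] at this
      have e1 : -Point.some x y h = Point.some _ _ hn := by
        rw [Point.neg_some]
        exact some_congr rfl
          (Affine.map_negY (W' := M.toAffine) (algebraMap A K) ⟨x, hx⟩ ⟨y, hy⟩) _ _
      rw [e1, red_some_coe M hΔ hn, show Point.some x y h = Point.some _ _ h' from rfl,
        red_some_coe M hΔ h', Point.neg_some]
      exact some_congr rfl
        (Affine.map_negY (W' := M.toAffine) (IsLocalRing.residue A) ⟨x, hx⟩ ⟨y, hy⟩).symm _ _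
    · rw [red_some_of_notMem M h hx, Point.neg_some, red_some_of_notMem M _ hx]
      exact Point.neg_zero.symm


omit [DecidableEq (IsLocalRing.ResidueField A)] in
/-- the two descriptions of the kernel of reduction agree -/
theorem inKerRed_iff_kerRed (P : (mK M).toAffine.Point) :
    Fermat.Agent.S05.InKerRed A P ↔ Fermat.Agent.S05.KR.KerRed A (mK M).toAffine P := by
  rw [Fermat.Agent.S05.inKerRed_iff, Fermat.Agent.S05.KR.kerRed_iff]

omit [DecidableEq (IsLocalRing.ResidueField A)] in
theorem inKerRed_add {P Q : (mK M).toAffine.Point} (hP : Fermat.Agent.S05.InKerRed A P)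
    (hQ : Fermat.Agent.S05.InKerRed A Q) : Fermat.Agent.S05.InKerRed A (P + Q) := by
  rw [inKerRed_iff_kerRed] at hP hQ ⊢
  exact (Fermat.Agent.S05.KR.kerRedSubgroup (integralB_map M)).add_mem hP hQ

omit [DecidableEq (IsLocalRing.ResidueField A)] in
theorem inKerRed_sub' {P Q : (mK M).toAffine.Point} (hP : Fermat.Agent.S05.InKerRed A P)
    (hQ : Fermat.Agent.S05.InKerRed A Q) : Fermat.Agent.S05.InKerRed A (P - Q) := by
  rw [inKerRed_iff_kerRed] at hP hQ ⊢
  exact (Fermat.Agent.S05.KR.kerRedSubgroup (integralB_map M)).sub_mem hP hQ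

/-- Lemma K: adding a point of the kernel of reduction does not change the reduction. -/
theorem red_add_of_inKerRed (hΔ : (mR M).Δ ≠ 0) {P : (mK M).toAffine.Point}
    (hP : Fermat.Agent.S05.InKerRed A P) (Q : (mK M).toAffine.Point) :
    red A (mR M) (P + Q) = red A (mR M) Q := by
  by_cases hQ : Fermat.Agent.S05.InKerRed A Q
  · rw [(red_eq_zero_iff M hΔ _).2 (inKerRed_add M hP hQ), (red_eq_zero_iff M hΔ _).2 hQ]
  · -- `Q` is an integral affine point
    have hR : ¬ Fermat.Agent.S05.InKerRed A (P + Q) := by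
      intro hR
      apply hQ
      have := inKerRed_sub' M hR hP
      rwa [add_sub_cancel_left] at this
    rcases Q with _ | ⟨x₂, y₂, h₂⟩
    · exact absurd trivial hQ
    · rcases hPQ : P + Point.some x₂ y₂ h₂ with _ | ⟨x₃, y₃, h₃⟩
      · rw [hPQ] at hR
        exact absurd trivial hR
      · rw [hPQ] at hR
        have hx₂ : x₂ ∈ A := not_not.1 hQ
        have hx₃ : x₃ ∈ A := not_not.1 hR
        -- `P = R + (-Q)`
        have hPeq : P = Point.some x₃ y₃ h₃ + -Point.some x₂ y₂ h₂ := by
          rw [← hPQ, add_neg_cancel_right]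
        have h0 : red A (mR M) P = 0 := (red_eq_zero_iff M hΔ _).2 hP
        rw [hPeq, Point.neg_some, red_add_of_mem M hΔ h₃ _ hx₃ hx₂, ← Point.neg_some,
          red_neg M hΔ, ← sub_eq_add_neg, sub_eq_zero] at h0
        exact h0

/-- **Reduction is additive.** -/
theorem red_add (hΔ : (mR M).Δ ≠ 0) (P Q : (mK M).toAffine.Point) :
    red A (mR M) (P + Q) = red A (mR M) P + red A (mR M) Q := by
  by_cases hP : Fermat.Agent.S05.InKerRed A P
  · rw [red_add_of_inKerRed M hΔ hP, (red_eq_zero_iff M hΔ _).2 hP, zero_add]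
  · by_cases hQ : Fermat.Agent.S05.InKerRed A Q
    · rw [add_comm, red_add_of_inKerRed M hΔ hQ, (red_eq_zero_iff M hΔ _).2 hQ, add_zero]
    · rcases P with _ | ⟨x₁, y₁, h₁⟩
      · exact absurd trivial hP
      · rcases Q with _ | ⟨x₂, y₂, h₂⟩
        · exact absurd trivial hQ
        · exact red_add_of_mem M hΔ h₁ h₂ (not_not.1 hP) (not_not.1 hQ)

end Model

/-! ### The reduction homomorphism -/

section Hom

variable [DecidableEq K] [DecidableEq (IsLocalRing.ResidueField A)]

/-- **The reduction homomorphism** `W(K) → Wr(κ)` of a Weierstrass curve with good reduction. -/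
noncomputable def redHom (h : IsRedOf A W Wr) (hΔ : Wr.Δ ≠ 0) :
    W.toAffine.Point →+ Wr.toAffine.Point where
  toFun := red A Wr
  map_zero' := rfl
  map_add' := by
    obtain ⟨M, rfl, rfl⟩ := h
    exact red_add M hΔ

@[simp] theorem redHom_apply (h : IsRedOf A W Wr) (hΔ : Wr.Δ ≠ 0) (P : W.toAffine.Point) :
    redHom h hΔ P = red A Wr P := rfl

omit [DecidableEq K] [DecidableEq (IsLocalRing.ResidueField A)] in
/-- the kernel of the reduction homomorphism: `O` and the points with non-integral `x` -/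
theorem red_eq_zero_iff' (h : IsRedOf A W Wr) (hΔ : Wr.Δ ≠ 0) (P : W.toAffine.Point) :
    red A Wr P = 0 ↔ Fermat.Agent.S05.InKerRed A P := by
  obtain ⟨M, rfl, rfl⟩ := h
  exact red_eq_zero_iff M hΔ P

omit [DecidableEq K] [DecidableEq (IsLocalRing.ResidueField A)] in
/-- the reduction of an integral affine point -/
theorem red_some_of_mem (h : IsRedOf A W Wr) (hΔ : Wr.Δ ≠ 0) {x y : K}
    (hP : W.toAffine.Nonsingular x y) (hx : x ∈ A) :
    ∃ (hy : y ∈ A) (hn : Wr.toAffine.Nonsingular (IsLocalRing.residue A ⟨x, hx⟩)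
        (IsLocalRing.residue A ⟨y, hy⟩)),
      red A Wr (Point.some x y hP) = Point.some _ _ hn := by
  obtain ⟨M, rfl, rfl⟩ := h
  have hy : y ∈ A := y_mem_of_x_mem M hP.1 hx
  exact ⟨hy, _, red_some_coe M hΔ (X := ⟨x, hx⟩) (Y := ⟨y, hy⟩) hP⟩


omit [DecidableEq (IsLocalRing.ResidueField A)] in
/-- **Injectivity of reduction on torsion prime to the residue characteristic.** -/
theorem eq_zero_of_red_eq_zero_of_nsmul (h : IsRedOf A W Wr) (hΔ : Wr.Δ ≠ 0) {n : ℕ}
    (hn : (n : K) ∉ A.nonunits) {P : W.toAffine.Point} (hP : n • P = 0)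
    (hred : red A Wr P = 0) : P = 0 := by
  have hk := (red_eq_zero_iff' h hΔ P).1 hred
  obtain ⟨M, rfl, rfl⟩ := h
  exact Fermat.Agent.S05.KR.eq_zero_of_nsmul_eq_zero_of_x_notMem (integralB_map M) hn P hP
    ((Fermat.Agent.S05.inKerRed_iff P).1 hk)

/-- two `n`-torsion points with the same reduction are equal (`n` a unit of `A`) -/
theorem eq_of_red_eq_of_nsmul (h : IsRedOf A W Wr) (hΔ : Wr.Δ ≠ 0) {n : ℕ}
    (hn : (n : K) ∉ A.nonunits) {P Q : W.toAffine.Point} (hP : n • P = 0) (hQ : n • Q = 0)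
    (hred : red A Wr P = red A Wr Q) : P = Q := by
  have h1 : red A Wr (P - Q) = 0 := by
    have := (redHom h hΔ).map_sub P Q
    simp only [redHom_apply] at this
    rw [this, hred, sub_self]
  have h2 : n • (P - Q) = 0 := by rw [smul_sub, hP, hQ, sub_self]
  exact sub_eq_zero.1 (eq_zero_of_red_eq_zero_of_nsmul h hΔ hn h2 h1)

end Hom

/-! ### Base changes of a curve over a base ring, and functoriality -/

section BaseChange

variable {R : Type*} [CommRing R] [Algebra R A] [Algebra R K] [IsScalarTower R A K]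

/-- for a Weierstrass curve over a base ring `R` mapping to `A`, the base change to the residue
field is the reduction of the base change to `K` -/
theorem isRedOf_baseChange (W' : WeierstrassCurve R) :
    IsRedOf A (W'.baseChange K) (W'.baseChange (IsLocalRing.ResidueField A)) := by
  refine ⟨W'.baseChange A, ?_, ?_⟩
  · rw [WeierstrassCurve.baseChange, WeierstrassCurve.baseChange, WeierstrassCurve.map_map,
      ← IsScalarTower.algebraMap_eq]
  · rw [WeierstrassCurve.baseChange, WeierstrassCurve.baseChange, WeierstrassCurve.map_map]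
    rfl

end BaseChange

section Functorial

variable {R S : Type*} [CommRing R] [CommRing S] [Algebra R S] [Algebra R K] [Algebra S K]
  [IsScalarTower R S K] [Algebra R (IsLocalRing.ResidueField A)]
  [Algebra S (IsLocalRing.ResidueField A)] [IsScalarTower R S (IsLocalRing.ResidueField A)]
  [DecidableEq K] [DecidableEq (IsLocalRing.ResidueField A)]

/-- **Functoriality of reduction**: an `S`-algebra endomorphism `f` of `K` with `f⁻¹(A) = A`,
inducing `fbar` on the residue field, commutes with reduction. -/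
theorem red_map (W' : Affine R)
    (h : IsRedOf A (W'.baseChange K) (W'.baseChange (IsLocalRing.ResidueField A)))
    (hΔ : (W'.baseChange (IsLocalRing.ResidueField A)).Δ ≠ 0)
    (f : K →ₐ[S] K) (fbar : IsLocalRing.ResidueField A →ₐ[S] IsLocalRing.ResidueField A)
    (hf : ∀ x, f x ∈ A ↔ x ∈ A)
    (hres : ∀ (x : K) (hx : x ∈ A) (hfx : f x ∈ A),
      fbar (IsLocalRing.residue A ⟨x, hx⟩) = IsLocalRing.residue A ⟨f x, hfx⟩)
    (P : (W'⁄K).Point) :
    red A (W'.baseChange (IsLocalRing.ResidueField A)) (Point.map f P) =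
      Point.map fbar (red A (W'.baseChange (IsLocalRing.ResidueField A)) P) := by
  rcases P with _ | ⟨x, y, hP⟩
  · rfl
  · rw [Point.map_some]
    by_cases hx : x ∈ A
    · obtain ⟨hy, hn, e⟩ := red_some_of_mem h hΔ hP hx
      have hfx : f x ∈ A := (hf x).2 hx
      obtain ⟨hfy, hn', e'⟩ := red_some_of_mem h hΔ
        ((W'.baseChange_nonsingular f.injective ..).mpr hP) hfx
      rw [e, e', Point.map_some]
      exact some_congr (hres x hx hfx).symm (hres y hy hfy).symm _ _
    · have hfx : f x ∉ A := fun h' => hx ((hf x).1 h')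
      have e1 := (red_eq_zero_iff' h hΔ (Point.some x y hP)).2 hx
      have e2 := (red_eq_zero_iff' h hΔ
        (Point.some (f x) (f y) ((W'.baseChange_nonsingular f.injective ..).mpr hP))).2 hfx
      rw [e1, e2]
      rfl

end Functorial

end Fermat.Agent.GE.RedHom
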