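/-
GATE-L-S58 / node E4 (COUNT) of the EC-FROB graph, ABSTRACT form (helper68).

`k` algebraically closed, `W` an elliptic curve over `k`, `β : W.Point →+ W.Point` an additive
endomorphism of the group of points which is "given by the rational function `u / v` on
`x`-coordinates": for an affine point `T = (x, y)`,
* `v(x) = 0 ↔ β T = 0`, and
* `v(x) ≠ 0 → x(β T) = u(x) / v(x)`.
If `u, v` are coprime and `deg u = deg v + 1` (a simple pole at infinity), then
`#ker β = deg u` (`= max (deg u) (deg v)`, the degree of the rational function `u / v`).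

The proof uses no valuations and no derivations of function fields: the Wronskian `u v' - u' v`
is nonzero because `deg u - deg v = 1` is prime to the characteristic, so `u - c v` is squarefree
for all but finitely many `c`; its `deg u` roots are in bijection with a fibre `β⁻¹(Q)`, which is
a coset of `ker β`.  Mathlib only.
-/
import Mathlib

set_option autoImplicit false

namespace Fermat.Agent.GE.CountAbs

open Polynomial WeierstrassCurve WeierstrassCurve.Affine

section Poly

variable {k : Type*} [Field k]

/-- If `u' = 0` then the degree of `u` vanishes in `k`. -/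
lemma natCast_natDegree_eq_zero_of_derivative_eq_zero {u : k[X]} (hu : derivative u = 0) :
    (u.natDegree : k) = 0 := by
  rcases Nat.eq_zero_or_pos u.natDegree with h | h
  · simp [h]
  · obtain ⟨n, hn⟩ := Nat.exists_eq_succ_of_ne_zero h.ne'
    have h0 := congrArg (fun p => p.coeff n) hu
    simp only [coeff_derivative, coeff_zero] at h0
    have hu0 : u ≠ 0 := by
      rintro rfl
      simp at h
    have hlc : u.coeff (n + 1) ≠ 0 := by
      have := leadingCoeff_ne_zero.mpr hu0
      rwa [leadingCoeff, hn] at this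
    rcases mul_eq_zero.mp h0 with h1 | h1
    · exact absurd h1 hlc
    · rw [hn]
      push_cast
      exact h1

/-- **Separability input**: for coprime `u, v` with `deg u = deg v + 1` the Wronskian is nonzero,
in every characteristic. -/
lemma wronskian_ne_zero {u v : k[X]} (hcop : IsCoprime u v)
    (hdeg : u.natDegree = v.natDegree + 1) : wronskian u v ≠ 0 := by
  intro h
  obtain ⟨hu, hv⟩ := hcop.wronskian_eq_zero_iff.mp h
  have h1 := natCast_natDegree_eq_zero_of_derivative_eq_zero hu
  have h2 := natCast_natDegree_eq_zero_of_derivative_eq_zero hv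
  rw [hdeg] at h1
  push_cast at h1
  rw [h2, zero_add] at h1
  exact one_ne_zero h1

lemma eval_ne_zero_of_isCoprime {u v : k[X]} (hcop : IsCoprime u v) {a : k}
    (hu : u.eval a = 0) : v.eval a ≠ 0 := by
  obtain ⟨s, t, hst⟩ := hcop
  intro hv
  have := congrArg (eval a) hst
  simp [hu, hv] at this

lemma natDegree_sub_C_mul {u v : k[X]} (hdeg : u.natDegree = v.natDegree + 1) (c : k) :
    (u - C c * v).natDegree = u.natDegree := by
  apply natDegree_sub_eq_left_of_natDegree_lt
  calc (C c * v).natDegree ≤ v.natDegree := natDegree_C_mul_le c v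
    _ < u.natDegree := by omega

lemma sub_C_mul_ne_zero {u v : k[X]} (hdeg : u.natDegree = v.natDegree + 1) (c : k) :
    u - C c * v ≠ 0 := by
  intro h
  have := natDegree_sub_C_mul hdeg c
  rw [h, natDegree_zero] at this
  omega

/-- For `c` outside the finite set `{u(a)/v(a) : W(u,v)(a) = 0}` the polynomial `u - c v` has
exactly `deg u` distinct roots. -/
lemma card_roots_toFinset_sub_C_mul [IsAlgClosed k] [DecidableEq k] {u v : k[X]}
    (hcop : IsCoprime u v) (hdeg : u.natDegree = v.natDegree + 1) (c : k)
    (hc : ∀ a : k, (wronskian u v).eval a = 0 → v.eval a ≠ 0 → c ≠ u.eval a / v.eval a) :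
    (u - C c * v).roots.toFinset.card = u.natDegree := by
  have hne := sub_C_mul_ne_zero hdeg c
  have hnodup : (u - C c * v).roots.Nodup := by
    rw [Multiset.nodup_iff_count_le_one]
    intro a
    rw [count_roots]
    by_contra hlt
    rw [not_le] at hlt
    obtain ⟨h0, h1⟩ := (one_lt_rootMultiplicity_iff_isRoot hne).mp hlt
    simp only [IsRoot.def, eval_sub, eval_mul, eval_C, derivative_sub, derivative_mul,
      derivative_C, zero_mul, zero_add] at h0 h1
    have hva : v.eval a ≠ 0 := by
      intro hv
      have hu : u.eval a = 0 := by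
        rw [hv, mul_zero, sub_zero] at h0
        exact h0
      exact eval_ne_zero_of_isCoprime hcop hu hv
    have hw : (wronskian u v).eval a = 0 := by
      simp only [wronskian, eval_sub, eval_mul]
      have e0 : u.eval a = c * v.eval a := by linear_combination h0
      have e1 : (derivative u).eval a = c * (derivative v).eval a := by linear_combination h1
      rw [e0, e1]
      ring
    refine hc a hw hva ?_
    rw [eq_div_iff hva]
    linear_combination -h0
  rw [Multiset.toFinset_card_of_nodup hnodup, IsAlgClosed.card_roots_eq_natDegree,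
    natDegree_sub_C_mul hdeg c]

end Poly

section Curve

variable {k : Type*} [Field k] [DecidableEq k]

/-- The `x`-coordinate of a point (junk value `0` at infinity). -/
def xOf {W : Affine k} : W.Point → k
  | .zero => 0
  | .some x _ _ => x

omit [DecidableEq k] in
@[simp] lemma xOf_some {W : Affine k} {x y : k} (h : W.Nonsingular x y) :
    xOf (Point.some x y h) = x := rfl

omit [DecidableEq k] in
/-- The `x`-coordinate of an affine `2`-torsion point is a root of `Ψ₂Sq`. -/
lemma eval_Ψ₂Sq_eq_zero_of_eq_neg {W : Affine k} {x y : k} (h : W.Nonsingular x y)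
    (h2 : Point.some x y h = -Point.some x y h) : W.Ψ₂Sq.eval x = 0 := by
  rw [Point.neg_some] at h2
  have hy : y = W.negY x y := by
    have := h2
    simp only [Point.some.injEq, true_and] at this
    exact this
  have heq := (W.equation_iff x y).mp h.1
  rw [negY] at hy
  simp only [Ψ₂Sq, b₂, b₄, b₆, eval_add, eval_mul, eval_C, eval_pow, eval_X]
  have h2y : 2 * y + W.a₁ * x + W.a₃ = 0 := by linear_combination hy
  linear_combination (2 * y + W.a₁ * x + W.a₃) * h2y - 4 * heq

omit [DecidableEq k] in
/-- `Ψ₂Sq ≠ 0` for an elliptic curve, in every characteristic. -/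
lemma Ψ₂Sq_ne_zero_of_isElliptic (W : Affine k) [W.IsElliptic] : W.Ψ₂Sq ≠ 0 := by
  intro h
  have c3 : W.Ψ₂Sq.coeff 3 = 0 := by rw [h, coeff_zero]
  have c2 : W.Ψ₂Sq.coeff 2 = 0 := by rw [h, coeff_zero]
  have c0 : W.Ψ₂Sq.coeff 0 = 0 := by rw [h, coeff_zero]
  simp only [Ψ₂Sq, coeff_add, coeff_C_mul, coeff_X_pow, coeff_X, coeff_C] at c3 c2 c0
  norm_num at c3 c2 c0
  have hΔ : W.Δ ≠ 0 := by
    have := W.Δ'.ne_zero
    rwa [W.coe_Δ'] at this
  apply hΔ
  have h8 : (8 : k) = 0 := by linear_combination 2 * c3
  rw [Δ, c2, c0]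
  linear_combination (-W.b₄ ^ 3) * h8

variable [IsAlgClosed k]

omit [DecidableEq k] in
/-- Over an algebraically closed field every `x` is the `x`-coordinate of a point. -/
lemma exists_point_of_x (W : Affine k) [W.IsElliptic] (a : k) :
    ∃ y, W.Nonsingular a y := by
  let g : k[X] := C 1 * X ^ 2 + C (W.a₁ * a + W.a₃) * X
    + C (-(a ^ 3 + W.a₂ * a ^ 2 + W.a₄ * a + W.a₆))
  have hg : g.degree ≠ 0 := by
    have : g.degree = 2 := degree_quadratic one_ne_zero
    rw [this]; norm_num
  obtain ⟨y, hy⟩ := IsAlgClosed.exists_root g hg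
  refine ⟨y, W.equation_iff_nonsingular.mp ?_⟩
  rw [W.equation_iff]
  simp only [g, IsRoot.def, eval_add, eval_mul, eval_C, eval_pow, eval_X] at hy
  linear_combination hy

/-- **E4-ABS (COUNT)**: the kernel of an additive endomorphism `β` of `W(k)` which is given on
`x`-coordinates by the rational function `u / v` (`u, v` coprime, `deg u = deg v + 1`) has exactly
`deg u` elements. -/
theorem card_ker_eq_natDegree (W : Affine k) [W.IsElliptic] (β : W.Point →+ W.Point)
    (u v : k[X]) (hcop : IsCoprime u v) (hdeg : u.natDegree = v.natDegree + 1)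
    (hker : ∀ (x y : k) (h : W.Nonsingular x y), v.eval x = 0 ↔ β (Point.some x y h) = 0)
    (hx : ∀ (x y : k) (h : W.Nonsingular x y), v.eval x ≠ 0 →
      ∃ (y' : k) (h' : W.Nonsingular (u.eval x / v.eval x) y'),
        β (Point.some x y h) = Point.some (u.eval x / v.eval x) y' h') :
    Nat.card β.ker = u.natDegree := by
  classical
  -- choose a generic value `c`
  let B1 : Finset k := (((wronskian u v).roots.toFinset).filter (fun a => v.eval a ≠ 0)).image
    (fun a => u.eval a / v.eval a)
  let B2 : Finset k := W.Ψ₂Sq.roots.toFinset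
  obtain ⟨c, hcB⟩ := Infinite.exists_notMem_finset (B1 ∪ B2)
  have hw := wronskian_ne_zero hcop hdeg
  have hc1 : ∀ a : k, (wronskian u v).eval a = 0 → v.eval a ≠ 0 → c ≠ u.eval a / v.eval a := by
    intro a ha hva hca
    apply hcB
    apply Finset.mem_union_left
    simp only [B1, Finset.mem_image, Finset.mem_filter, Multiset.mem_toFinset, mem_roots hw,
      IsRoot.def]
    exact ⟨a, ⟨ha, hva⟩, hca.symm⟩
  have hc2 : W.Ψ₂Sq.eval c ≠ 0 := by
    intro h0
    apply hcB
    apply Finset.mem_union_right
    simp only [B2, Multiset.mem_toFinset, mem_roots (Ψ₂Sq_ne_zero_of_isElliptic W), IsRoot.def]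
    exact h0
  set f : k[X] := u - C c * v with hf
  have hfne : f ≠ 0 := sub_C_mul_ne_zero hdeg c
  have hcard := card_roots_toFinset_sub_C_mul hcop hdeg c hc1
  -- root of `f` ↔ `u(a) = c v(a)`, and then `v(a) ≠ 0`, `u(a)/v(a) = c`
  have hroot : ∀ a : k, a ∈ f.roots.toFinset ↔ u.eval a = c * v.eval a := by
    intro a
    rw [Multiset.mem_toFinset, mem_roots hfne, IsRoot.def, hf, eval_sub, eval_mul, eval_C,
      sub_eq_zero]
  have hroot_v : ∀ a : k, u.eval a = c * v.eval a → v.eval a ≠ 0 := by
    intro a ha hv
    have hu : u.eval a = 0 := by rw [ha, hv, mul_zero]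
    exact eval_ne_zero_of_isCoprime hcop hu hv
  have hroot_div : ∀ a : k, u.eval a = c * v.eval a → u.eval a / v.eval a = c := by
    intro a ha
    rw [div_eq_iff (hroot_v a ha), ha]
  -- a base point `T₀` with `x(β T₀) = c`
  have hdegpos : f.degree ≠ 0 := by
    have h1 : f.natDegree = u.natDegree := natDegree_sub_C_mul hdeg c
    intro h0
    have := natDegree_eq_zero_iff_degree_le_zero.mpr h0.le
    omega
  obtain ⟨a₀, ha₀⟩ := IsAlgClosed.exists_root f hdegpos
  have ha₀' : u.eval a₀ = c * v.eval a₀ := by
    have := ha₀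
    simp only [IsRoot.def, hf, eval_sub, eval_mul, eval_C, sub_eq_zero] at this
    exact this
  obtain ⟨y₀, hT₀⟩ := exists_point_of_x W a₀
  obtain ⟨yQ', hQ', hβT₀'⟩ := hx a₀ y₀ hT₀ (hroot_v a₀ ha₀')
  -- transport to `x = c`
  obtain ⟨yQ, hQ, hβT₀⟩ : ∃ (yQ : k) (hQ : W.Nonsingular c yQ),
      β (Point.some a₀ y₀ hT₀) = Point.some c yQ hQ := by
    have hdiv := hroot_div a₀ ha₀'
    revert hQ' hβT₀'
    rw [hdiv]
    intro hQ' hβT₀'
    exact ⟨yQ', hQ', hβT₀'⟩
  set T₀ : W.Point := Point.some a₀ y₀ hT₀ with hT₀def
  set Q : W.Point := Point.some c yQ hQ with hQdef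
  have hQne : Q ≠ -Q := fun h => hc2 (eval_Ψ₂Sq_eq_zero_of_eq_neg hQ h)
  -- points of the fibre `β⁻¹(Q)` are affine with `x`-coordinate a root of `f`
  have hfib : ∀ T : W.Point, β T = Q → xOf T ∈ f.roots.toFinset := by
    intro T hT
    match T, hT with
    | .zero, hT =>
      exfalso
      have : β (0 : W.Point) = 0 := map_zero β
      rw [← Point.zero_def] at hT
      rw [this] at hT
      exact Point.some_ne_zero hQ hT.symm
    | .some x y h, hT =>
      rw [xOf_some, hroot]
      have hvx : v.eval x ≠ 0 := by
        intro hv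
        rw [(hker x y h).mp hv] at hT
        exact Point.some_ne_zero hQ hT.symm
      obtain ⟨y', h', hβ⟩ := hx x y h hvx
      rw [hβ, hQdef] at hT
      have : u.eval x / v.eval x = c := by
        have := hT
        simp only [Point.some.injEq] at this
        exact this.1
      rw [div_eq_iff hvx] at this
      exact this
  -- the bijection `β⁻¹(Q) ≃ roots of f`
  let g : {T : W.Point // β T = Q} → {a : k // a ∈ f.roots.toFinset} :=
    fun T => ⟨xOf T.1, hfib T.1 T.2⟩
  have hg_inj : Function.Injective g := by
    rintro ⟨T, hT⟩ ⟨T', hT'⟩ hTT'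
    have hxx : xOf T = xOf T' := congrArg Subtype.val hTT'
    apply Subtype.ext
    show T = T'
    match T, T', hT, hT', hxx with
    | .zero, _, hT, _, _ =>
      exfalso
      have : β (0 : W.Point) = 0 := map_zero β
      rw [← Point.zero_def, this] at hT
      exact Point.some_ne_zero hQ hT.symm
    | .some _ _ _, .zero, _, hT', _ =>
      exfalso
      have : β (0 : W.Point) = 0 := map_zero β
      rw [← Point.zero_def, this] at hT'
      exact Point.some_ne_zero hQ hT'.symm
    | .some x y h, .some x' y' h', hT, hT', hxx =>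
      simp only [xOf_some] at hxx
      rcases Point.X_eq_iff.mp hxx with h1 | h1
      · exact h1
      · exfalso
        rw [h1, map_neg, hT'] at hT
        exact hQne hT.symm
  have hg_surj : Function.Surjective g := by
    rintro ⟨a, ha⟩
    have ha' := (hroot a).mp ha
    obtain ⟨y, hT⟩ := exists_point_of_x W a
    obtain ⟨y', h', hβ⟩ := hx a y hT (hroot_v a ha')
    have hxc : u.eval a / v.eval a = c := hroot_div a ha'
    rcases (Point.X_eq_iff (h₁ := h') (h₂ := hQ)).mp hxc with h1 | h1
    · refine ⟨⟨Point.some a y hT, ?_⟩, ?_⟩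
      · rw [hβ]; exact h1
      · apply Subtype.ext; rfl
    · refine ⟨⟨-Point.some a y hT, ?_⟩, ?_⟩
      · rw [map_neg, hβ, h1, neg_neg]
      · apply Subtype.ext
        show xOf (-Point.some a y hT) = a
        rw [Point.neg_some]; rfl
  have e1 : Nat.card {T : W.Point // β T = Q} = u.natDegree := by
    rw [Nat.card_congr (Equiv.ofBijective g ⟨hg_inj, hg_surj⟩), Nat.card_eq_fintype_card,
      Fintype.card_coe, hcard]
  -- the fibre is a coset of the kernel
  let t : β.ker → {T : W.Point // β T = Q} := fun K => ⟨T₀ + K.1, by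
    rw [map_add, hβT₀, (AddMonoidHom.mem_ker).mp K.2, add_zero]⟩
  have ht : Function.Bijective t := by
    constructor
    · rintro ⟨K, hK⟩ ⟨K', hK'⟩ h
      have : T₀ + K = T₀ + K' := congrArg Subtype.val h
      exact Subtype.ext (add_left_cancel this)
    · rintro ⟨T, hT⟩
      refine ⟨⟨T - T₀, ?_⟩, ?_⟩
      · rw [AddMonoidHom.mem_ker, map_sub, hT, hβT₀, sub_self]
      · apply Subtype.ext
        show T₀ + (T - T₀) = T
        abel
  rw [Nat.card_congr (Equiv.ofBijective t ht), e1]

/-- Finiteness of the kernel, and the count in the `max` form. -/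
theorem finite_ker_and_card (W : Affine k) [W.IsElliptic] (β : W.Point →+ W.Point)
    (u v : k[X]) (hcop : IsCoprime u v) (hdeg : u.natDegree = v.natDegree + 1)
    (hker : ∀ (x y : k) (h : W.Nonsingular x y), v.eval x = 0 ↔ β (Point.some x y h) = 0)
    (hx : ∀ (x y : k) (h : W.Nonsingular x y), v.eval x ≠ 0 →
      ∃ (y' : k) (h' : W.Nonsingular (u.eval x / v.eval x) y'),
        β (Point.some x y h) = Point.some (u.eval x / v.eval x) y' h') :
    Finite β.ker ∧ Nat.card β.ker = max u.natDegree v.natDegree := by
  have h := card_ker_eq_natDegree W β u v hcop hdeg hker hx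
  refine ⟨Nat.finite_of_card_ne_zero (by rw [h]; omega), ?_⟩
  rw [h, max_eq_left (by omega)]

end Curve

end Fermat.Agent.GE.CountAbs
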