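/-
GATE-L / S58, EC-FROB: the three small inputs that step (CH) of helper91's graph (board 2512)
consumes next to the COUNT `d(β P0) = #ker β` (node E4):

* (S1) `surjective_of_x`   : an additive endomorphism `β` of `W(k)` (`k` algebraically closed) that is
  given on `x`-coordinates by `u / v` (`u, v` coprime, `deg u = deg v + 1`) is SURJECTIVE;
* (S2) `card_ker_comp`     : `#ker (α ∘ β) = #ker α * #ker β` for surjective `β`
  (so `#ker (1 - φ²) = #ker (1 - φ) * #ker (1 + φ)`);
* (S3) `card_ker_id_sub_frob` : over a finite field `F` with `q` elements the fixed points of the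
  `q`-Frobenius on `W0(k)` are exactly the `F`-rational points, hence
  `#ker (1 - φ) = #W0(F)`  (`= N1` of (CH)).

Mathlib only (on top of GE/CountAbs.lean).
-/
import Fermat.Agent.GE.CountAbs

set_option autoImplicit false

namespace Fermat.Agent.GE.CountSurj

open Polynomial WeierstrassCurve WeierstrassCurve.Affine
open Fermat.Agent.GE.CountAbs

section Surj

variable {k : Type*} [Field k] [DecidableEq k] [IsAlgClosed k]

/-- **(S1)** Under the hypotheses of `CountAbs.card_ker_eq_natDegree` (only the `x`-formula off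
the zeros of `v` is used) the endomorphism `β` is surjective. -/
theorem surjective_of_x (W : Affine k) [W.IsElliptic] (β : W.Point →+ W.Point)
    (u v : k[X]) (hcop : IsCoprime u v) (hdeg : u.natDegree = v.natDegree + 1)
    (hx : ∀ (x y : k) (h : W.Nonsingular x y), v.eval x ≠ 0 →
      ∃ (y' : k) (h' : W.Nonsingular (u.eval x / v.eval x) y'),
        β (Point.some x y h) = Point.some (u.eval x / v.eval x) y' h') :
    Function.Surjective β := by
  intro Q
  match Q with
  | .zero => exact ⟨0, map_zero β⟩
  | .some c d hQ =>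
    have hne := sub_C_mul_ne_zero hdeg c
    have hdeg' : (u - C c * v).degree ≠ 0 := by
      rw [degree_eq_natDegree hne, natDegree_sub_C_mul hdeg c]
      have : u.natDegree ≠ 0 := by omega
      exact_mod_cast this
    obtain ⟨a, ha⟩ := IsAlgClosed.exists_root _ hdeg'
    simp only [IsRoot.def, eval_sub, eval_mul, eval_C] at ha
    have hva : v.eval a ≠ 0 := by
      intro hv
      have hu : u.eval a = 0 := by
        rw [hv, mul_zero, sub_zero] at ha
        exact ha
      exact eval_ne_zero_of_isCoprime hcop hu hv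
    obtain ⟨y, hT⟩ := exists_point_of_x W a
    obtain ⟨y', h', hβ⟩ := hx a y hT hva
    have hxc : u.eval a / v.eval a = c := by
      rw [div_eq_iff hva]
      linear_combination ha
    rcases (Point.X_eq_iff (h₁ := h') (h₂ := hQ)).mp hxc with h1 | h1
    · exact ⟨Point.some a y hT, by rw [hβ]; exact h1⟩
    · exact ⟨-Point.some a y hT, by rw [map_neg, hβ, h1, neg_neg]⟩

end Surj

section Group

variable {G H K : Type*} [AddGroup G] [AddGroup H] [AddGroup K]

/-- `#G = #H * #ker f` for a surjective homomorphism `f : G → H` (both sides may be `0`). -/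
theorem card_eq_card_mul_card_ker (f : G →+ H) (hf : Function.Surjective f) :
    Nat.card G = Nat.card H * Nat.card f.ker := by
  rw [AddSubgroup.card_eq_card_quotient_mul_card_addSubgroup f.ker,
    Nat.card_congr (QuotientAddGroup.quotientKerEquivOfSurjective f hf).toEquiv]

/-- **(S2)** `#ker (α ∘ β) = #ker α * #ker β` for surjective `β`. -/
theorem card_ker_comp (α : H →+ K) (β : G →+ H) (hβ : Function.Surjective β) :
    Nat.card (α.comp β).ker = Nat.card α.ker * Nat.card β.ker := by
  have hmem : ∀ x : (α.comp β).ker, β x.1 ∈ α.ker := fun x => by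
    have hx := x.2
    rw [AddMonoidHom.mem_ker, AddMonoidHom.comp_apply] at hx
    rw [AddMonoidHom.mem_ker]
    exact hx
  let f : (α.comp β).ker →+ α.ker :=
    { toFun := fun x => ⟨β x.1, hmem x⟩
      map_zero' := by apply Subtype.ext; exact map_zero β
      map_add' := fun x y => by apply Subtype.ext; exact map_add β x.1 y.1 }
  have hfval : ∀ x, (f x).1 = β x.1 := fun _ => rfl
  have hf : Function.Surjective f := by
    rintro ⟨y, hy⟩
    obtain ⟨x, rfl⟩ := hβ y
    refine ⟨⟨x, ?_⟩, ?_⟩
    · rw [AddMonoidHom.mem_ker, AddMonoidHom.comp_apply]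
      exact (AddMonoidHom.mem_ker).mp hy
    · apply Subtype.ext
      rfl
  rw [card_eq_card_mul_card_ker f hf]
  congr 1
  refine Nat.card_congr
    { toFun := fun x => ⟨x.1.1, ?_⟩
      invFun := fun x => ⟨⟨x.1, ?_⟩, ?_⟩
      left_inv := fun x => by apply Subtype.ext; apply Subtype.ext; rfl
      right_inv := fun x => by apply Subtype.ext; rfl }
  · have hx := x.2
    rw [AddMonoidHom.mem_ker] at hx
    rw [AddMonoidHom.mem_ker]
    have := congrArg Subtype.val hx
    rwa [hfval] at this
  · rw [AddMonoidHom.mem_ker, AddMonoidHom.comp_apply, (AddMonoidHom.mem_ker).mp x.2, map_zero]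
  · rw [AddMonoidHom.mem_ker]
    apply Subtype.ext
    rw [hfval]
    exact (AddMonoidHom.mem_ker).mp x.2

/-- `1 - φ² = (1 + φ) ∘ (1 - φ)`. -/
theorem id_sub_comp_self {A : Type*} [AddCommGroup A] (φ : A →+ A) :
    AddMonoidHom.id A - φ.comp φ = (AddMonoidHom.id A + φ).comp (AddMonoidHom.id A - φ) := by
  ext x
  simp only [AddMonoidHom.sub_apply, AddMonoidHom.id_apply, AddMonoidHom.comp_apply,
    AddMonoidHom.add_apply, map_sub]
  abel

/-- **(S2')** `#ker (1 - φ²) = #ker (1 + φ) * #ker (1 - φ)` as soon as `1 - φ` is surjective. -/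
theorem card_ker_id_sub_sq {A : Type*} [AddCommGroup A] (φ : A →+ A)
    (hs : Function.Surjective (AddMonoidHom.id A - φ)) :
    Nat.card (AddMonoidHom.id A - φ.comp φ).ker
      = Nat.card (AddMonoidHom.id A + φ).ker * Nat.card (AddMonoidHom.id A - φ).ker := by
  rw [id_sub_comp_self, card_ker_comp _ _ hs]

end Group

section Frob

variable {F : Type*} [Field F] [Fintype F] {k : Type*} [Field k] [Algebra F k]

/-- The fixed field of the `#F`-power map on an `F`-field is `F`. -/
theorem mem_range_algebraMap_of_pow_card_eq {x : k} (hx : x ^ Fintype.card F = x) :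
    x ∈ Set.range (algebraMap F k) := by
  classical
  set q := Fintype.card F with hq
  have hq1 : 1 < q := Fintype.one_lt_card
  have hne : (X ^ q - X : k[X]) ≠ 0 := FiniteField.X_pow_card_sub_X_ne_zero k hq1
  have hsub : (Finset.univ.image (algebraMap F k)) ⊆ (X ^ q - X : k[X]).roots.toFinset := by
    intro z hz
    obtain ⟨a, -, rfl⟩ := Finset.mem_image.mp hz
    rw [Multiset.mem_toFinset, mem_roots hne, IsRoot.def, eval_sub, eval_pow, eval_X, sub_eq_zero,
      ← map_pow, FiniteField.pow_card]
  have hcard : (X ^ q - X : k[X]).roots.toFinset.card ≤ (Finset.univ.image (algebraMap F k)).card := by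
    rw [Finset.card_image_of_injective _ (algebraMap F k).injective, Finset.card_univ]
    calc (X ^ q - X : k[X]).roots.toFinset.card ≤ Multiset.card (X ^ q - X : k[X]).roots :=
          Multiset.toFinset_card_le _
      _ ≤ (X ^ q - X : k[X]).natDegree := card_roots' _
      _ = q := FiniteField.X_pow_card_sub_X_natDegree_eq k hq1
  have heq := Finset.eq_of_subset_of_card_le hsub hcard
  have hxr : x ∈ (X ^ q - X : k[X]).roots.toFinset := by
    rw [Multiset.mem_toFinset, mem_roots hne, IsRoot.def, eval_sub, eval_pow, eval_X, sub_eq_zero]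
    exact hx
  rw [← heq] at hxr
  obtain ⟨a, -, rfl⟩ := Finset.mem_image.mp hxr
  exact ⟨a, rfl⟩

variable (W0 : Affine F) [DecidableEq F] [DecidableEq k]

/-- the `#F`-Frobenius on the points of `W0` over an `F`-field `k` -/
noncomputable abbrev frobPt : (W0⁄k).Point →+ (W0⁄k).Point :=
  Point.map (W' := W0) (FiniteField.frobeniusAlgHom F k)

/-- A point of `W0(k)` is fixed by Frobenius iff it is `F`-rational. -/
theorem frobPt_eq_self_iff (P : (W0⁄k).Point) :
    frobPt W0 P = P ↔ P ∈ (Point.baseChange (W' := W0) F k).range := by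
  constructor
  · intro h
    match P, h with
    | .zero, _ => exact ⟨0, rfl⟩
    | .some x y hP, h =>
      rw [frobPt, Point.map_some] at h
      have h' := Point.some.inj h
      have hx : x ^ Fintype.card F = x := h'.1
      have hy : y ^ Fintype.card F = y := h'.2
      obtain ⟨x0, rfl⟩ := mem_range_algebraMap_of_pow_card_eq hx
      obtain ⟨y0, rfl⟩ := mem_range_algebraMap_of_pow_card_eq hy
      have h0 : (W0⁄F).Nonsingular x0 y0 :=
        (W0.baseChange_nonsingular (Algebra.ofId F k).injective x0 y0).mp hP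
      exact ⟨Point.some x0 y0 h0, rfl⟩
  · rintro ⟨Q, rfl⟩
    rw [frobPt, Point.map_baseChange]

/-- **(S3)**, subtype form: the Frobenius-fixed points of `W0(k)` are in bijection with `W0(F)`. -/
theorem card_fixed_frobPt :
    Nat.card {P : (W0⁄k).Point // frobPt W0 P = P} = Nat.card (W0⁄F).Point := by
  symm
  refine Nat.card_congr (Equiv.ofBijective
    (fun Q => ⟨Point.baseChange (W' := W0) F k Q, (frobPt_eq_self_iff W0 _).mpr ⟨Q, rfl⟩⟩) ⟨?_, ?_⟩)
  · intro Q Q' h
    exact Point.map_injective _ (congrArg Subtype.val h)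
  · rintro ⟨P, hP⟩
    obtain ⟨Q, rfl⟩ := (frobPt_eq_self_iff W0 P).mp hP
    exact ⟨Q, rfl⟩

/-- **(S3)**: `#ker (1 - φ) = #W0(F)`. -/
theorem card_ker_id_sub_frob :
    Nat.card (AddMonoidHom.id (W0⁄k).Point - frobPt W0).ker = Nat.card (W0⁄F).Point := by
  rw [← card_fixed_frobPt (k := k) W0]
  refine Nat.card_congr (Equiv.subtypeEquivRight fun P => ?_)
  rw [AddMonoidHom.mem_ker, AddMonoidHom.sub_apply, AddMonoidHom.id_apply, sub_eq_zero, eq_comm]

omit [Fintype F] [DecidableEq F] in
/-- `W0⁄F = W0` for a curve over `F` -/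
theorem baseChange_self : (W0⁄F) = W0 := by
  show WeierstrassCurve.map W0 (algebraMap F F) = W0
  rw [Algebra.algebraMap_self]
  exact WeierstrassCurve.map_id W0

omit [Fintype F] [DecidableEq F] in
theorem card_point_baseChange_self : Nat.card (W0⁄F).Point = Nat.card W0.Point := by
  rw [baseChange_self]

/-- **(S3)**, final form: `#ker (1 - φ) = #W0(F)` with the points of `W0` itself. -/
theorem card_ker_id_sub_frob' :
    Nat.card (AddMonoidHom.id (W0⁄k).Point - frobPt W0).ker = Nat.card W0.Point := by
  rw [card_ker_id_sub_frob, card_point_baseChange_self]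

end Frob

end Fermat.Agent.GE.CountSurj
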