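/-
GATE-L / S58 prep (EC-FROB, node (Q)): the specification of Mathlib's `WeierstrassCurve.addSubMap`.

For a Weierstrass curve `W` over a field and two nonsingular affine points `P`, `Q`, the quadratic
map `addSubMap W : ℙ² → ℙ²` sends the class `sym2x P Q = (x(P)x(Q) : x(P)+x(Q) : 1)` to the class
`sym2x (P+Q) (P-Q)`.  (This is the `TODO` of `Mathlib/AlgebraicGeometry/EllipticCurve/Affine/
AddSubMap.lean`.)  General Weierstrass form, every characteristic.

Mathlib only.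
-/
import Mathlib

namespace Fermat.Agent.GE.AddSubMapSpec

open WeierstrassCurve WeierstrassCurve.Affine MvPolynomial

variable {F : Type*} [Field F] (W : WeierstrassCurve.Affine F)

/-- Evaluation of the three quadratic forms of `addSubMap` at a vector `![s, t, u]`. -/
theorem eval_addSubMap (s t u : F) :
    (fun i => (WeierstrassCurve.addSubMap W i).eval ![s, t, u]) =
      ![s ^ 2 - W.b₄ * s * u - W.b₆ * t * u - W.b₈ * u ^ 2,
        2 * t * s + W.b₂ * s * u + W.b₄ * t * u + W.b₆ * u ^ 2,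
        t ^ 2 - 4 * s * u] := by
  funext i
  fin_cases i <;> simp [WeierstrassCurve.addSubMap]

/-! ### The polynomial identities -/

/-- Sum of the `x`-coordinates of `P + Q` and `P - Q` (secant case). -/
theorem addX_add_addX {x₁ x₂ y₁ y₂ : F} (h₁ : W.Equation x₁ y₁) (h₂ : W.Equation x₂ y₂)
    (hx : x₁ ≠ x₂) :
    (x₁ - x₂) ^ 2 * (W.addX x₁ x₂ ((y₁ - y₂) / (x₁ - x₂)) +
        W.addX x₁ x₂ ((y₁ - W.negY x₂ y₂) / (x₁ - x₂))) =
      2 * (x₁ + x₂) * (x₁ * x₂) + W.b₂ * (x₁ * x₂) + W.b₄ * (x₁ + x₂) + W.b₆ := by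
  have hd : x₁ - x₂ ≠ 0 := sub_ne_zero.mpr hx
  rw [Affine.equation_iff] at h₁ h₂
  simp only [Affine.addX, Affine.negY, WeierstrassCurve.b₂, WeierstrassCurve.b₄,
    WeierstrassCurve.b₆]
  field_simp
  linear_combination 2 * h₁ + 2 * h₂

/-- Product of the `x`-coordinates of `P + Q` and `P - Q` (secant case). -/
theorem addX_mul_addX {x₁ x₂ y₁ y₂ : F} (h₁ : W.Equation x₁ y₁) (h₂ : W.Equation x₂ y₂)
    (hx : x₁ ≠ x₂) :
    (x₁ - x₂) ^ 2 * (W.addX x₁ x₂ ((y₁ - y₂) / (x₁ - x₂)) *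
        W.addX x₁ x₂ ((y₁ - W.negY x₂ y₂) / (x₁ - x₂))) =
      (x₁ * x₂) ^ 2 - W.b₄ * (x₁ * x₂) - W.b₆ * (x₁ + x₂) - W.b₈ := by
  have hd : x₁ - x₂ ≠ 0 := sub_ne_zero.mpr hx
  rw [Affine.equation_iff'] at h₁ h₂
  simp only [Affine.addX, Affine.negY, WeierstrassCurve.b₄, WeierstrassCurve.b₆,
    WeierstrassCurve.b₈]
  field_simp
  linear_combination
    (W.a₁ * W.a₃ * x₁ + (-1) * W.a₁ * W.a₃ * x₂ + W.a₁ * x₁ * y₁ + (-2) * W.a₁ * x₂ * y₂ +
      W.a₁ ^ 2 * x₁ * x₂ + (-1) * W.a₁ ^ 2 * x₂ ^ 2 + (4) * W.a₂ * x₁ * x₂ +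
      (-1) * W.a₂ * x₁ ^ 2 + (-2) * W.a₂ * x₂ ^ 2 + W.a₃ * y₁ + (-2) * W.a₃ * y₂ + W.a₄ * x₁ +
      W.a₆ + (2) * x₁ * x₂ ^ 2 + (2) * x₁ ^ 2 * x₂ + (-1) * x₁ ^ 3 + (-2) * x₂ ^ 3 + y₁ ^ 2 +
      (-2) * y₂ ^ 2) * h₁ +
    ((-1) * W.a₁ * W.a₃ * x₁ + W.a₁ * W.a₃ * x₂ + W.a₁ * x₂ * y₂ + W.a₁ ^ 2 * x₁ * x₂ +
      (-1) * W.a₁ ^ 2 * x₁ ^ 2 + (4) * W.a₂ * x₁ * x₂ + (-4) * W.a₂ * x₁ ^ 2 +
      (-1) * W.a₂ * x₂ ^ 2 + W.a₃ * y₂ + (-2) * W.a₄ * x₁ + W.a₄ * x₂ + (-1) * W.a₆ +
      (2) * x₁ * x₂ ^ 2 + (2) * x₁ ^ 2 * x₂ + (-4) * x₁ ^ 3 + (-1) * x₂ ^ 3 + y₂ ^ 2) * h₂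

/-- The square of `ψ₂ = 2y + a₁x + a₃` on the curve. -/
theorem sq_sub_negY {x y : F} (h : W.Equation x y) :
    (y - W.negY x y) ^ 2 = 4 * x ^ 3 + W.b₂ * x ^ 2 + 2 * W.b₄ * x + W.b₆ := by
  rw [Affine.equation_iff'] at h
  simp only [Affine.negY, WeierstrassCurve.b₂, WeierstrassCurve.b₄, WeierstrassCurve.b₆]
  linear_combination 4 * h

/-- The numerator of the duplication formula, before dividing by `ψ₂²`. -/
theorem dup_numerator {x y : F} (h : W.Equation x y) :
    (3 * x ^ 2 + 2 * W.a₂ * x + W.a₄ - W.a₁ * y) ^ 2 +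
        W.a₁ * (3 * x ^ 2 + 2 * W.a₂ * x + W.a₄ - W.a₁ * y) * (y - W.negY x y) -
        (W.a₂ + 2 * x) * (y - W.negY x y) ^ 2 =
      x ^ 4 - W.b₄ * x ^ 2 - 2 * W.b₆ * x - W.b₈ := by
  rw [Affine.equation_iff'] at h
  simp only [Affine.negY, WeierstrassCurve.b₄, WeierstrassCurve.b₆, WeierstrassCurve.b₈]
  linear_combination ((-1) * W.a₁ ^ 2 + (-4) * W.a₂ + (-8) * x) * h

/-! ### The specification on points -/

variable [DecidableEq F]

/-- Doubling: `addSubMap` sends `sym2x P P` to (a nonzero multiple of) `sym2x (P + P) 0`. -/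
theorem addSubMap_sym2x_self (P : W.Point) :
    ∃ c : F, c ≠ 0 ∧ (fun i => (WeierstrassCurve.addSubMap W i).eval (P.sym2x P)) =
      c • (P + P).sym2x 0 := by
  rcases P with _ | ⟨x, y, h⟩
  · refine ⟨1, one_ne_zero, ?_⟩
    rw [← Point.zero_def, add_zero, Point.sym2x_zero_zero, eval_addSubMap]
    funext i
    fin_cases i <;> simp
  · have hE : W.Equation x y := h.1
    rw [Point.sym2x_some_some, eval_addSubMap]
    by_cases hy : y = W.negY x y
    · -- `2`-torsion point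
      rw [Point.add_self_of_Y_eq hy, Point.sym2x_zero_zero]
      have hψ : (y - W.negY x y) = 0 := sub_eq_zero.mpr hy
      have hnum := dup_numerator W hE
      rw [hψ] at hnum
      have hsq := sq_sub_negY W hE
      rw [hψ] at hsq
      have hlam : 3 * x ^ 2 + 2 * W.a₂ * x + W.a₄ - W.a₁ * y ≠ 0 := by
        rcases (W.nonsingular_iff x y).mp h with ⟨-, h1 | h1⟩
        · intro h0
          exact h1 (by linear_combination -h0)
        · exact absurd hy h1
      refine ⟨(3 * x ^ 2 + 2 * W.a₂ * x + W.a₄ - W.a₁ * y) ^ 2, pow_ne_zero 2 hlam, ?_⟩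
      funext i
      fin_cases i
      · simp only [Fin.zero_eta, Fin.isValue, Matrix.cons_val_zero, Pi.smul_apply, smul_eq_mul,
          mul_one]
        linear_combination -hnum
      · simp only [Fin.mk_one, Fin.isValue, Matrix.cons_val_one, Matrix.cons_val_zero,
          Pi.smul_apply, smul_eq_mul, mul_zero]
        linear_combination -hsq
      · simp only [Fin.reduceFinMk, Fin.isValue, Matrix.cons_val, Pi.smul_apply, smul_eq_mul,
          mul_zero]
        ring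
    · rw [Point.add_self_of_Y_ne hy, Point.sym2x_some_zero]
      have hψ : (y - W.negY x y) ≠ 0 := sub_ne_zero.mpr hy
      refine ⟨(y - W.negY x y) ^ 2, pow_ne_zero 2 hψ, ?_⟩
      have hnum := dup_numerator W hE
      have hsq := sq_sub_negY W hE
      rw [Affine.slope_of_Y_ne rfl hy]
      funext i
      fin_cases i
      · simp only [Fin.zero_eta, Fin.isValue, Matrix.cons_val_zero, Pi.smul_apply, smul_eq_mul,
          Affine.addX]
        field_simp
        linear_combination -hnum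
      · simp only [Fin.mk_one, Fin.isValue, Matrix.cons_val_one, Matrix.cons_val_zero,
          Pi.smul_apply, smul_eq_mul, mul_one]
        linear_combination -hsq
      · simp only [Fin.reduceFinMk, Fin.isValue, Matrix.cons_val, Pi.smul_apply, smul_eq_mul,
          mul_zero]
        ring

/-- **Specification of `addSubMap`.** For nonsingular affine points `P`, `Q` of a Weierstrass curve
over a field, the quadratic map `addSubMap W` sends the coordinate vector `sym2x P Q` of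
`(x(P)x(Q) : x(P)+x(Q) : 1)` to a nonzero multiple of `sym2x (P + Q) (P - Q)`. -/
theorem addSubMap_sym2x (P Q : W.Point) :
    ∃ c : F, c ≠ 0 ∧ (fun i => (WeierstrassCurve.addSubMap W i).eval (P.sym2x Q)) =
      c • (P + Q).sym2x (P - Q) := by
  rcases P with _ | ⟨x₁, y₁, h₁⟩
  · -- `P = 0`
    rw [← Point.zero_def, zero_add, zero_sub, Point.sym2x_neg_right]
    rcases Q with _ | ⟨x₂, y₂, h₂⟩
    · have h0 := addSubMap_sym2x_self W (0 : W.Point)
      rw [add_zero] at h0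
      exact h0
    · refine ⟨1, one_ne_zero, ?_⟩
      rw [Point.sym2x_zero_some, Point.sym2x_some_some, eval_addSubMap, one_smul]
      funext i
      fin_cases i <;> simp <;> ring
  rcases Q with _ | ⟨x₂, y₂, h₂⟩
  · -- `Q = 0`
    refine ⟨1, one_ne_zero, ?_⟩
    rw [← Point.zero_def, add_zero, sub_zero, Point.sym2x_some_zero, Point.sym2x_some_some,
      eval_addSubMap, one_smul]
    funext i
    fin_cases i <;> simp <;> ring
  by_cases hx : x₁ = x₂
  · -- `Q = ± P`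
    rcases Point.X_eq_iff.mp hx with hPQ | hPQ
    · rw [← hPQ, sub_self, ]
      exact addSubMap_sym2x_self W _
    · have hQ : Point.some x₂ y₂ h₂ = -Point.some x₁ y₁ h₁ := by rw [hPQ, neg_neg]
      rw [hQ, Point.sym2x_neg_right, add_neg_cancel, sub_neg_eq_add, Point.sym2x_comm 0]
      exact addSubMap_sym2x_self W _
  · -- secant case
    have hd : x₁ - x₂ ≠ 0 := sub_ne_zero.mpr hx
    refine ⟨(x₁ - x₂) ^ 2, pow_ne_zero 2 hd, ?_⟩
    rw [show Point.some x₁ y₁ h₁ - Point.some x₂ y₂ h₂ =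
        Point.some x₁ y₁ h₁ + -Point.some x₂ y₂ h₂ from sub_eq_add_neg _ _,
      Point.neg_some, Point.add_of_X_ne hx, Point.add_of_X_ne hx,
      Point.sym2x_some_some, Point.sym2x_some_some, eval_addSubMap,
      Affine.slope_of_X_ne hx, Affine.slope_of_X_ne hx]
    have hA := addX_add_addX W h₁.1 h₂.1 hx
    have hB := addX_mul_addX W h₁.1 h₂.1 hx
    funext i
    fin_cases i
    · simp only [Fin.zero_eta, Fin.isValue, Matrix.cons_val_zero, Pi.smul_apply, smul_eq_mul]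
      linear_combination -hB
    · simp only [Fin.mk_one, Fin.isValue, Matrix.cons_val_one, Matrix.cons_val_zero,
        Pi.smul_apply, smul_eq_mul]
      linear_combination -hA
    · simp only [Fin.reduceFinMk, Fin.isValue, Matrix.cons_val, Pi.smul_apply, smul_eq_mul,
        mul_one]
      ring

end Fermat.Agent.GE.AddSubMapSpec
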