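/-
GATE-L / S58 prep (EC-FROB, node (Q)): heights over a rational function field `K = k(t)`.

`K` is any field with `[Algebra k[X] K] [IsFractionRing k[X] K]` (e.g. `RatFunc k`).
* `vdeg v`  : max of the degrees of a finite family of polynomials;
* `ht k u`  : projective height of `u : ι → K` = least `vdeg` of a proportional polynomial vector;
  `ht_smul`, `ht_of_primitive`, `exists_primitive_rep`, `ht_eq_of_rep`;
* `ht_eval₂_eq` : forms `Φ` of degree `e` with constant coefficients and a certificate
  `∑ j, A i j * Φ j = X i ^ (e + d)` multiply the height by `e` EXACTLY;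
* `ht_eq_of_map_eq_smul` : proportionality over a bigger field descends;
* `sym2`, `ht_sym2` : Gauss lemma, `ht (p ⊙ q) = ht p + ht q` for `p q : Fin 2 → K`;
* `rdeg k r = ht k ![r, 1]`, `rdeg_div : IsCoprime a b → b ≠ 0 → rdeg (a / b) = max deg a, deg b`.

Mathlib only.
-/
import Mathlib

namespace Fermat.Agent.GE.RatHeight

open Polynomial

variable (k : Type*) [Field k] {K : Type*} [Field K] [Algebra k[X] K] [IsFractionRing k[X] K]
variable {ι : Type*} [Fintype ι]

/-- The maximum of the degrees of a finite family of polynomials. -/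
noncomputable def vdeg {k : Type*} [Field k] {ι : Type*} [Fintype ι] (v : ι → k[X]) : ℕ :=
  Finset.univ.sup (fun i => (v i).natDegree)

theorem natDegree_le_vdeg {k : Type*} [Field k] {ι : Type*} [Fintype ι] (v : ι → k[X]) (i : ι) :
    (v i).natDegree ≤ vdeg v :=
  Finset.le_sup (f := fun i => (v i).natDegree) (Finset.mem_univ i)

theorem vdeg_le_iff {k : Type*} [Field k] {ι : Type*} [Fintype ι] (v : ι → k[X]) (m : ℕ) :
    vdeg v ≤ m ↔ ∀ i, (v i).natDegree ≤ m := by
  unfold vdeg
  rw [Finset.sup_le_iff]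
  simp

/-- The projective height of a vector over the rational function field `K = k(t)`: the least
`max deg` of a polynomial vector proportional to it. -/
noncomputable def ht (u : ι → K) : ℕ :=
  sInf {n | ∃ c : K, c ≠ 0 ∧ ∃ v : ι → k[X], (∀ i, algebraMap k[X] K (v i) = c * u i) ∧ vdeg v = n}

variable {k}

omit [IsFractionRing k[X] K] in
theorem ht_le {u : ι → K} {c : K} (hc : c ≠ 0) {v : ι → k[X]}
    (h : ∀ i, algebraMap k[X] K (v i) = c * u i) : ht k u ≤ vdeg v :=
  Nat.sInf_le ⟨c, hc, v, h, rfl⟩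

omit [IsFractionRing k[X] K] in
theorem ht_smul {c : K} (hc : c ≠ 0) (u : ι → K) : ht k (c • u) = ht k u := by
  unfold ht
  congr 1
  ext n
  constructor
  · rintro ⟨c', hc', v, hv, hn⟩
    exact ⟨c' * c, mul_ne_zero hc' hc, v, fun i => by rw [hv i, Pi.smul_apply, smul_eq_mul, mul_assoc], hn⟩
  · rintro ⟨c', hc', v, hv, hn⟩
    refine ⟨c' * c⁻¹, mul_ne_zero hc' (inv_ne_zero hc), v, fun i => ?_, hn⟩
    rw [hv i, Pi.smul_apply, smul_eq_mul, mul_assoc, inv_mul_cancel_left₀ hc]

/-- A polynomial vector is primitive if its entries generate the unit ideal. -/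
def Primitive (v : ι → k[X]) : Prop := Ideal.span (Set.range v) = ⊤

theorem Primitive.exists_sum {v : ι → k[X]} (hv : Primitive v) : ∃ a : ι → k[X], ∑ i, a i * v i = 1 := by
  have h1 : (1 : k[X]) ∈ Ideal.span (Set.range v) := by rw [hv]; trivial
  rw [Ideal.mem_span_range_iff_exists_fun] at h1
  exact h1

theorem primitive_of_sum {v : ι → k[X]} (a : ι → k[X]) (h : ∑ i, a i * v i = 1) : Primitive v := by
  unfold Primitive
  rw [Ideal.eq_top_iff_one, Ideal.mem_span_range_iff_exists_fun]
  exact ⟨a, h⟩

theorem ht_of_primitive {v : ι → k[X]} (hv : Primitive v) :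
    ht k (fun i => algebraMap k[X] K (v i)) = vdeg v := by
  apply le_antisymm
  · exact ht_le one_ne_zero (fun i => (one_mul _).symm)
  · apply le_csInf
    · exact ⟨_, 1, one_ne_zero, v, fun i => (one_mul _).symm, rfl⟩
    · rintro n ⟨c, hc, w, hw, rfl⟩
      obtain ⟨a, ha⟩ := hv.exists_sum
      -- `c` is a polynomial
      have hc' : algebraMap k[X] K (∑ i, a i * w i) = c := by
        rw [map_sum]
        simp only [map_mul, hw]
        have : ∀ i, algebraMap k[X] K (a i) * (c * algebraMap k[X] K (v i)) =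
            c * algebraMap k[X] K (a i * v i) := fun i => by rw [map_mul]; ring
        simp only [this]
        rw [← Finset.mul_sum, ← map_sum, ha, map_one, mul_one]
      set c₀ := ∑ i, a i * w i with hc₀
      have hc₀0 : c₀ ≠ 0 := by
        rintro h0
        rw [h0, map_zero] at hc'
        exact hc hc'.symm
      have hwv : ∀ i, w i = c₀ * v i := fun i => by
        apply IsFractionRing.injective k[X] K
        rw [hw i, map_mul, hc']
      rw [vdeg_le_iff]
      intro i
      refine le_trans ?_ (natDegree_le_vdeg w i)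
      rw [hwv i]
      by_cases hvi : v i = 0
      · simp [hvi]
      · rw [natDegree_mul hc₀0 hvi]
        exact Nat.le_add_left _ _

theorem exists_primitive_rep {u : ι → K} (hu : u ≠ 0) :
    ∃ c : K, c ≠ 0 ∧ ∃ v : ι → k[X], Primitive v ∧ ∀ i, algebraMap k[X] K (v i) = c * u i := by
  classical
  obtain ⟨b, hb⟩ := IsLocalization.exist_integer_multiples (nonZeroDivisors k[X]) Finset.univ u
  choose v₀ hv₀ using fun i => hb i (Finset.mem_univ i)
  have hb0 : algebraMap k[X] K (b : k[X]) ≠ 0 := by
    intro h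
    exact nonZeroDivisors.coe_ne_zero b ((IsFractionRing.to_map_eq_zero_iff (K := K)).mp h)
  -- the gcd
  obtain ⟨g, hg⟩ : ∃ g, Ideal.span (Set.range v₀) = Ideal.span {g} :=
    ⟨_, (Ideal.span_singleton_generator _).symm⟩
  have hmem : ∀ i, v₀ i ∈ Ideal.span {g} := fun i => by
    rw [← hg]; exact Ideal.subset_span ⟨i, rfl⟩
  have hdiv : ∀ i, ∃ w, v₀ i = g * w := fun i => by
    obtain ⟨w, hw⟩ := Ideal.mem_span_singleton'.mp (hmem i)
    exact ⟨w, by rw [← hw, mul_comm]⟩
  choose v hv using hdiv
  have hv₀ne : ∃ i, v₀ i ≠ 0 := by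
    by_contra h
    simp only [not_exists, not_not] at h
    apply hu
    funext i
    have := hv₀ i
    rw [h i, map_zero, Algebra.smul_def] at this
    have h2 := (mul_eq_zero.mp this.symm).resolve_left hb0
    simpa using h2
  have hg0 : g ≠ 0 := by
    rintro rfl
    obtain ⟨i, hi⟩ := hv₀ne
    exact hi (by rw [hv i, zero_mul])
  have hgmem : g ∈ Ideal.span (Set.range v₀) := by rw [hg]; exact Ideal.mem_span_singleton_self g
  rw [Ideal.mem_span_range_iff_exists_fun] at hgmem
  obtain ⟨a, ha⟩ := hgmem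
  have hprim : Primitive v := by
    apply primitive_of_sum a
    apply mul_left_cancel₀ hg0
    rw [Finset.mul_sum, mul_one]
    conv_rhs => rw [← ha]
    refine Finset.sum_congr rfl fun i _ => ?_
    rw [hv i]; ring
  have hgK : algebraMap k[X] K g ≠ 0 := by
    intro h
    exact hg0 ((IsFractionRing.to_map_eq_zero_iff (K := K)).mp h)
  refine ⟨algebraMap k[X] K b / algebraMap k[X] K g, div_ne_zero hb0 hgK, v, hprim, fun i => ?_⟩
  have h1 := hv₀ i
  rw [Algebra.smul_def, hv i, map_mul] at h1
  field_simp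
  rw [mul_comm] at h1
  rw [h1]

theorem ht_eq_of_rep {u : ι → K} {c : K} (hc : c ≠ 0) {v : ι → k[X]} (hv : Primitive v)
    (h : ∀ i, algebraMap k[X] K (v i) = c * u i) : ht k u = vdeg v := by
  rw [← ht_of_primitive (K := K) hv, ← ht_smul hc u]
  congr 1
  funext i
  rw [h i]; rfl


/-! ### Homogeneous polynomial maps -/

section Homog

variable {σ : Type*}

theorem eval₂_smul_of_isHomogeneous {R S : Type*} [CommSemiring R] [CommSemiring S] (f : R →+* S)
    (c : S) (u : σ → S) {p : MvPolynomial σ R} {e : ℕ} (hp : p.IsHomogeneous e) :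
    MvPolynomial.eval₂ f (c • u) p = c ^ e * MvPolynomial.eval₂ f u p := by
  rw [MvPolynomial.eval₂_eq, MvPolynomial.eval₂_eq, Finset.mul_sum]
  refine Finset.sum_congr rfl fun s hs => ?_
  have he := hp.degree_eq_sum_deg_support hs
  simp only [Pi.smul_apply, smul_eq_mul, mul_pow, Finset.prod_mul_distrib, Finset.prod_pow_eq_pow_sum]
  rw [← he]
  ring

theorem natDegree_eval₂_le {p : MvPolynomial σ k} {e : ℕ} (hp : p.IsHomogeneous e)
    (v : σ → k[X]) (m : ℕ) (hv : ∀ i, (v i).natDegree ≤ m) :
    (MvPolynomial.eval₂ C v p).natDegree ≤ e * m := by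
  rw [MvPolynomial.eval₂_eq]
  apply natDegree_sum_le_of_forall_le
  intro s hs
  have he := hp.degree_eq_sum_deg_support hs
  refine le_trans (natDegree_C_mul_le _ _) ?_
  refine le_trans (natDegree_prod_le _ _) ?_
  rw [he, Finset.sum_mul]
  refine Finset.sum_le_sum fun i _ => ?_
  refine le_trans (natDegree_pow_le) ?_
  exact Nat.mul_le_mul_left _ (hv i)

end Homog


/-! ### The height of the image under a morphism given by forms without common zero -/

section HT2

variable {σ τ : Type*} [Fintype σ] [Fintype τ]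

/-- The structure map `k → K`. -/
noncomputable def cK (k : Type*) [Field k] (K : Type*) [Field K] [Algebra k[X] K] : k →+* K :=
  (algebraMap k[X] K).comp C

omit [IsFractionRing k[X] K] [Fintype σ] in
theorem algebraMap_eval₂ (v : σ → k[X]) (p : MvPolynomial σ k) :
    algebraMap k[X] K (MvPolynomial.eval₂ C v p) =
      MvPolynomial.eval₂ (cK k K) (fun i => algebraMap k[X] K (v i)) p := by
  rw [MvPolynomial.eval₂_comp_left (algebraMap k[X] K) C v p]
  rfl

theorem ht_eval₂_eq (e d : ℕ) (Φ : τ → MvPolynomial σ k) (hΦ : ∀ j, (Φ j).IsHomogeneous e)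
    (A : σ → τ → MvPolynomial σ k) (hA : ∀ i j, (A i j).IsHomogeneous d)
    (hcert : ∀ i, ∑ j, A i j * Φ j = MvPolynomial.X i ^ (e + d))
    {u : σ → K} (hu : u ≠ 0) :
    ht k (fun j => MvPolynomial.eval₂ (cK k K) u (Φ j)) = e * ht k u := by
  classical
  obtain ⟨c, hc, v, hv, hvu⟩ := exists_primitive_rep (k := k) hu
  rw [ht_eq_of_rep hc hv hvu]
  -- the polynomial vector `Φ(v)`
  set w : τ → k[X] := fun j => MvPolynomial.eval₂ C v (Φ j) with hw
  have hcertv : ∀ i, ∑ j, MvPolynomial.eval₂ C v (A i j) * w j = v i ^ (e + d) := fun i => by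
    have := congrArg (MvPolynomial.eval₂ C v) (hcert i)
    rw [MvPolynomial.eval₂_sum, MvPolynomial.eval₂_pow, MvPolynomial.eval₂_X] at this
    rw [← this]
    refine Finset.sum_congr rfl fun j _ => ?_
    rw [MvPolynomial.eval₂_mul]
  have hwrep : ∀ j, algebraMap k[X] K (w j) =
      c ^ e * MvPolynomial.eval₂ (cK k K) u (Φ j) := fun j => by
    rw [hw, algebraMap_eval₂, ← eval₂_smul_of_isHomogeneous _ _ _ (hΦ j)]
    congr 1
    funext i
    rw [hvu i]; rfl
  have hwprim : Primitive w := by
    have h1 := Ideal.span_pow_eq_top (Set.range v) hv (e + d)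
    unfold Primitive
    -- each `v i ^ (e+d)` lies in the span of `w`
    have hle : Ideal.span ((fun x : k[X] => x ^ (e + d)) '' Set.range v) ≤
        Ideal.span (Set.range w) := by
      rw [Ideal.span_le]
      rintro _ ⟨_, ⟨i, rfl⟩, rfl⟩
      show v i ^ (e + d) ∈ _
      rw [← hcertv i]
      refine Ideal.sum_mem _ fun j _ => ?_
      exact Ideal.mul_mem_left _ _ (Ideal.subset_span ⟨j, rfl⟩)
    rw [h1] at hle
    exact top_le_iff.mp hle
  rw [ht_eq_of_rep (pow_ne_zero e hc) hwprim hwrep]
  -- the degree computation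
  apply le_antisymm
  · rw [vdeg_le_iff]
    intro j
    exact natDegree_eval₂_le (hΦ j) v _ (natDegree_le_vdeg v)
  · -- pick `i` with `natDegree (v i) = vdeg v`
    have hne : Nonempty σ := by
      by_contra h
      rw [not_nonempty_iff] at h
      exact hu (funext fun i => (h.false i).elim)
    obtain ⟨i, -, hi⟩ := Finset.exists_mem_eq_sup Finset.univ
      (Finset.univ_nonempty) (fun i => (v i).natDegree)
    have hi' : vdeg v = (v i).natDegree := hi
    have h1 : (e + d) * vdeg v ≤ d * vdeg v + vdeg w := by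
      rw [hi', ← natDegree_pow, ← hcertv i]
      apply natDegree_sum_le_of_forall_le
      intro j _
      refine le_trans natDegree_mul_le ?_
      refine add_le_add ?_ (natDegree_le_vdeg w j)
      rw [← hi']
      exact natDegree_eval₂_le (hA i j) v _ (natDegree_le_vdeg v)
    rw [add_mul] at h1
    omega

end HT2

/-! ### Descent of proportionality -/

omit [IsFractionRing k[X] K] in
theorem ht_eq_of_map_eq_smul {L : Type*} [Field L] (φ : K →+* L) {u w : ι → K} {c : L}
    (hc : c ≠ 0) (hw : w ≠ 0) (h : ∀ i, φ (u i) = c * φ (w i)) : ht k u = ht k w := by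
  obtain ⟨i₀, hi₀⟩ : ∃ i, w i ≠ 0 := by
    by_contra h0
    simp only [not_exists, not_not] at h0
    exact hw (funext h0)
  have hφ : Function.Injective φ := φ.injective
  have hφw : φ (w i₀) ≠ 0 := fun h0 => hi₀ (hφ (by rw [h0, map_zero]))
  have hcφ : c = φ (u i₀ / w i₀) := by
    rw [map_div₀, h i₀]
    field_simp
  have hc' : u i₀ / w i₀ ≠ 0 := by
    intro h0
    rw [h0, map_zero] at hcφ
    exact hc hcφ
  have huw : u = (u i₀ / w i₀) • w := by
    funext i
    apply hφ
    rw [h i, hcφ, Pi.smul_apply, smul_eq_mul, map_mul]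
  rw [huw, ht_smul hc']


/-! ### Degree of a rational function, and the Gauss lemma -/

section Gauss

theorem vdeg_fin2 (a b : k[X]) : vdeg ![a, b] = max a.natDegree b.natDegree := by
  simp [vdeg, Fin.univ_succ]

theorem vdeg_fin3 (a b c : k[X]) :
    vdeg ![a, b, c] = max a.natDegree (max b.natDegree c.natDegree) := by
  simp [vdeg, Fin.univ_succ]

theorem primitive_fin2 {a b : k[X]} (h : IsCoprime a b) : Primitive ![a, b] := by
  obtain ⟨x, y, hxy⟩ := h
  exact primitive_of_sum ![x, y] (by simpa [Fin.sum_univ_succ] using hxy)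

theorem isCoprime_of_primitive_fin2 {v : Fin 2 → k[X]} (h : Primitive v) : IsCoprime (v 0) (v 1) := by
  obtain ⟨a, ha⟩ := h.exists_sum
  exact ⟨a 0, a 1, by simpa [Fin.sum_univ_succ] using ha⟩

/-- The symmetric product of two vectors of length two: the coefficient vector of the product of
the two linear forms. -/
def sym2 {R : Type*} [CommRing R] (p q : Fin 2 → R) : Fin 3 → R :=
  ![p 0 * q 0, p 0 * q 1 + p 1 * q 0, p 1 * q 1]

theorem sym2_smul_smul {R : Type*} [CommRing R] (a b : R) (p q : Fin 2 → R) :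
    sym2 (a • p) (b • q) = (a * b) • sym2 p q := by
  funext i
  fin_cases i <;> simp [sym2] <;> ring

theorem sym2_ne_zero {R : Type*} [CommRing R] [IsDomain R] {p q : Fin 2 → R} (hp : p ≠ 0)
    (hq : q ≠ 0) : sym2 p q ≠ 0 := by
  intro h
  have e0 : p 0 * q 0 = 0 := congrFun h 0
  have e1 : p 0 * q 1 + p 1 * q 0 = 0 := congrFun h 1
  have e2 : p 1 * q 1 = 0 := congrFun h 2
  have hp' : p 0 ≠ 0 ∨ p 1 ≠ 0 := by
    by_contra hh
    simp only [not_or, not_not] at hh
    exact hp (funext fun i => by fin_cases i; exacts [hh.1, hh.2])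
  have hq' : q 0 ≠ 0 ∨ q 1 ≠ 0 := by
    by_contra hh
    simp only [not_or, not_not] at hh
    exact hq (funext fun i => by fin_cases i; exacts [hh.1, hh.2])
  rcases hp' with ha | hb
  · have hc : q 0 = 0 := (mul_eq_zero.mp e0).resolve_left ha
    have hd : q 1 ≠ 0 := hq'.resolve_left (not_not.mpr hc)
    rw [hc, mul_zero, add_zero] at e1
    exact mul_ne_zero ha hd e1
  · have hd : q 1 = 0 := (mul_eq_zero.mp e2).resolve_left hb
    have hc : q 0 ≠ 0 := hq'.resolve_right (not_not.mpr hd)
    rw [hd, mul_zero, zero_add] at e1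
    exact mul_ne_zero hb hc e1

theorem map_sym2 {R S : Type*} [CommRing R] [CommRing S] (f : R →+* S) (p q : Fin 2 → R) (i : Fin 3) :
    f (sym2 p q i) = sym2 (fun i => f (p i)) (fun i => f (q i)) i := by
  fin_cases i <;> simp [sym2]

theorem primitive_sym2 {p q : Fin 2 → k[X]} (hp : Primitive p) (hq : Primitive q) :
    Primitive (sym2 p q) := by
  have hab := isCoprime_of_primitive_fin2 hp
  have hcd := isCoprime_of_primitive_fin2 hq
  unfold Primitive
  by_contra hne
  obtain ⟨M, hM, hle⟩ := Ideal.exists_le_maximal _ hne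
  have hP := hM.isPrime
  have h0 : p 0 * q 0 ∈ M := hle (Ideal.subset_span ⟨0, rfl⟩)
  have h1 : p 0 * q 1 + p 1 * q 0 ∈ M := hle (Ideal.subset_span ⟨1, rfl⟩)
  have h2 : p 1 * q 1 ∈ M := hle (Ideal.subset_span ⟨2, rfl⟩)
  have key : ∀ {a b : k[X]}, IsCoprime a b → a ∈ M → b ∈ M → False := by
    rintro a b ⟨x, y, hxy⟩ ha hb
    apply hM.ne_top
    rw [Ideal.eq_top_iff_one, ← hxy]
    exact M.add_mem (M.mul_mem_left _ ha) (M.mul_mem_left _ hb)
  rcases hP.mem_or_mem h0 with ha | hc
  · -- `p 0 ∈ M`
    have hb : p 1 ∉ M := fun hb => key hab ha hb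
    have hd : q 1 ∈ M := (hP.mem_or_mem h2).resolve_left hb
    have hc : q 0 ∉ M := fun hc => key hcd hc hd
    have : p 1 * q 0 ∈ M := by
      have := M.sub_mem h1 (M.mul_mem_right (q 1) ha)
      simpa using this
    rcases hP.mem_or_mem this with h | h
    · exact hb h
    · exact hc h
  · -- `q 0 ∈ M`
    have hd : q 1 ∉ M := fun hd => key hcd hc hd
    have hb : p 1 ∈ M := (hP.mem_or_mem h2).resolve_right hd
    have ha : p 0 ∉ M := fun ha => key hab ha hb
    have : p 0 * q 1 ∈ M := by
      have := M.sub_mem h1 (M.mul_mem_right (q 0) hb)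
      simpa using this
    rcases hP.mem_or_mem this with h | h
    · exact ha h
    · exact hd h

/-- For a primitive pair, some coefficient in the top degree is nonzero. -/
theorem exists_coeff_ne_zero_of_primitive {p : Fin 2 → k[X]} (hp : Primitive p) :
    (p 0).coeff (vdeg p) ≠ 0 ∨ (p 1).coeff (vdeg p) ≠ 0 := by
  have hab := isCoprime_of_primitive_fin2 hp
  have hne : ¬ (p 0 = 0 ∧ p 1 = 0) := by
    rintro ⟨h0, h1⟩
    rw [h0, h1] at hab
    exact not_isCoprime_zero_zero hab
  have hv : vdeg p = max (p 0).natDegree (p 1).natDegree := by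
    have : p = ![p 0, p 1] := by
      funext i; fin_cases i <;> rfl
    rw [this, vdeg_fin2]; rfl
  by_contra h
  simp only [not_or, not_not] at h
  obtain ⟨h0, h1⟩ := h
  rcases le_total (p 0).natDegree (p 1).natDegree with hle | hle
  · rw [max_eq_right hle] at hv
    rw [hv, coeff_natDegree, leadingCoeff_eq_zero] at h1
    rw [h1, natDegree_zero, Nat.le_zero] at hle
    rw [hv, h1, natDegree_zero, ← hle, coeff_natDegree, leadingCoeff_eq_zero] at h0
    exact hne ⟨h0, h1⟩
  · rw [max_eq_left hle] at hv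
    rw [hv, coeff_natDegree, leadingCoeff_eq_zero] at h0
    rw [h0, natDegree_zero, Nat.le_zero] at hle
    rw [hv, h0, natDegree_zero, ← hle, coeff_natDegree, leadingCoeff_eq_zero] at h1
    exact hne ⟨h0, h1⟩

theorem vdeg_sym2 {p q : Fin 2 → k[X]} (hp : Primitive p) (hq : Primitive q) :
    vdeg (sym2 p q) = vdeg p + vdeg q := by
  set m := vdeg p with hm
  set n := vdeg q with hn
  have hp0 : (p 0).natDegree ≤ m := natDegree_le_vdeg p 0
  have hp1 : (p 1).natDegree ≤ m := natDegree_le_vdeg p 1
  have hq0 : (q 0).natDegree ≤ n := natDegree_le_vdeg q 0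
  have hq1 : (q 1).natDegree ≤ n := natDegree_le_vdeg q 1
  apply le_antisymm
  · rw [vdeg_le_iff]
    intro i
    fin_cases i
    · exact le_trans natDegree_mul_le (add_le_add hp0 hq0)
    · refine le_trans (natDegree_add_le _ _) (max_le ?_ ?_)
      · exact le_trans natDegree_mul_le (add_le_add hp0 hq1)
      · exact le_trans natDegree_mul_le (add_le_add hp1 hq0)
    · exact le_trans natDegree_mul_le (add_le_add hp1 hq1)
  · -- some coefficient of degree `m + n` is nonzero
    have c00 : (p 0 * q 0).coeff (m + n) = (p 0).coeff m * (q 0).coeff n :=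
      coeff_mul_add_eq_of_natDegree_le hp0 hq0
    have c01 : (p 0 * q 1).coeff (m + n) = (p 0).coeff m * (q 1).coeff n :=
      coeff_mul_add_eq_of_natDegree_le hp0 hq1
    have c10 : (p 1 * q 0).coeff (m + n) = (p 1).coeff m * (q 0).coeff n :=
      coeff_mul_add_eq_of_natDegree_le hp1 hq0
    have c11 : (p 1 * q 1).coeff (m + n) = (p 1).coeff m * (q 1).coeff n :=
      coeff_mul_add_eq_of_natDegree_le hp1 hq1
    have hex : ∃ i, (sym2 p q i).coeff (m + n) ≠ 0 := by
      by_contra hall
      simp only [not_exists, not_not] at hall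
      have e0 := hall 0
      have e1 := hall 1
      have e2 := hall 2
      simp only [sym2, Fin.isValue, Matrix.cons_val_zero] at e0
      simp only [sym2, Fin.isValue, Matrix.cons_val_one, Matrix.cons_val_zero, coeff_add] at e1
      simp only [sym2, Fin.isValue, Matrix.cons_val] at e2
      rw [c00] at e0
      rw [c01, c10] at e1
      rw [c11] at e2
      rcases exists_coeff_ne_zero_of_primitive hp with ha | hb
      · have hc : (q 0).coeff n = 0 := (mul_eq_zero.mp e0).resolve_left ha
        have hd : (q 1).coeff n ≠ 0 := by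
          rcases exists_coeff_ne_zero_of_primitive hq with h | h
          · exact absurd hc h
          · exact h
        rw [hc, mul_zero, add_zero] at e1
        exact (mul_ne_zero ha hd) e1
      · have hd : (q 1).coeff n = 0 := (mul_eq_zero.mp e2).resolve_left hb
        have hc : (q 0).coeff n ≠ 0 := by
          rcases exists_coeff_ne_zero_of_primitive hq with h | h
          · exact h
          · exact absurd hd h
        rw [hd, mul_zero, zero_add] at e1
        exact (mul_ne_zero hb hc) e1
    obtain ⟨i, hi⟩ := hex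
    exact le_trans (le_natDegree_of_ne_zero hi) (natDegree_le_vdeg _ i)

/-- **Gauss lemma**: the height of the product of two linear forms is the sum of the heights. -/
theorem ht_sym2 {p q : Fin 2 → K} (hp : p ≠ 0) (hq : q ≠ 0) :
    ht k (sym2 p q) = ht k p + ht k q := by
  obtain ⟨a, ha, v, hv, hvp⟩ := exists_primitive_rep (k := k) hp
  obtain ⟨b, hb, w, hw, hwq⟩ := exists_primitive_rep (k := k) hq
  rw [ht_eq_of_rep ha hv hvp, ht_eq_of_rep hb hw hwq, ← vdeg_sym2 hv hw]
  refine ht_eq_of_rep (mul_ne_zero ha hb) (primitive_sym2 hv hw) fun i => ?_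
  rw [map_sym2]
  have h1 : (fun i => algebraMap k[X] K (v i)) = a • p := funext hvp
  have h2 : (fun i => algebraMap k[X] K (w i)) = b • q := funext hwq
  rw [h1, h2, sym2_smul_smul]
  rfl

variable (k) in
/-- The degree of a rational function `r ∈ K = k(t)`: the height of the point `[r : 1]`. -/
noncomputable def rdeg (r : K) : ℕ := ht k ![r, 1]

theorem rdeg_div {a b : k[X]} (hab : IsCoprime a b) (hb : b ≠ 0) :
    rdeg k (algebraMap k[X] K a / algebraMap k[X] K b) = max a.natDegree b.natDegree := by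
  have hbK : algebraMap k[X] K b ≠ 0 := fun h =>
    hb ((IsFractionRing.to_map_eq_zero_iff (K := K)).mp h)
  unfold rdeg
  rw [ht_eq_of_rep hbK (primitive_fin2 hab) (fun i => ?_), vdeg_fin2]
  fin_cases i
  · simp only [Fin.zero_eta, Fin.isValue, Matrix.cons_val_zero]
    field_simp
  · simp

theorem exists_coprime_rep (r : K) :
    ∃ a b : k[X], IsCoprime a b ∧ b ≠ 0 ∧ r = algebraMap k[X] K a / algebraMap k[X] K b := by
  obtain ⟨a, b, hab, hr⟩ := IsFractionRing.exists_reduced_fraction (A := k[X]) r
  refine ⟨a, b, hab.isCoprime, nonZeroDivisors.coe_ne_zero b, ?_⟩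
  rw [← hr, IsFractionRing.mk'_eq_div]

theorem rdeg_algebraMap (a : k[X]) : rdeg k (algebraMap k[X] K a) = a.natDegree := by
  have := rdeg_div (K := K) (isCoprime_one_right (x := a)) one_ne_zero
  simpa using this

theorem ht_fin2_zero (r : K) : ht k ![r, 1, 0] = rdeg k r := by
  obtain ⟨a, b, hab, hb, rfl⟩ := exists_coprime_rep (k := k) r
  have hbK : algebraMap k[X] K b ≠ 0 := fun h =>
    hb ((IsFractionRing.to_map_eq_zero_iff (K := K)).mp h)
  rw [rdeg_div hab hb]
  have hprim : Primitive ![a, b, 0] := by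
    obtain ⟨x, y, hxy⟩ := hab
    exact primitive_of_sum ![x, y, 0] (by simpa [Fin.sum_univ_succ] using hxy)
  rw [ht_eq_of_rep hbK hprim (fun i => ?_), vdeg_fin3]
  · simp
  · fin_cases i
    · simp only [Fin.zero_eta, Fin.isValue, Matrix.cons_val_zero]
      field_simp
    · simp
    · simp

theorem ht_one_zero : ht k (![1, 0] : Fin 2 → K) = 0 := by
  have hprim : Primitive (![1, 0] : Fin 2 → k[X]) :=
    primitive_of_sum ![1, 0] (by simp [Fin.sum_univ_succ])
  rw [ht_eq_of_rep (k := k) (K := K) one_ne_zero hprim (fun i => ?_), vdeg_fin2]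
  · simp
  · fin_cases i <;> simp

end Gauss

end Fermat.Agent.GE.RatHeight
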