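/-
GATE-L / S58 prep (EC-FROB, node (Q)): the EXACT parallelogram law for the `x`-degree.

`W` an elliptic curve over a field of constants `k`, `K = k(t)` (any `IsFractionRing k[X] K`),
`φ : K →+* L` a field extension, points of `W` over `L`.  `XRat φ P` : `x(P) ∈ K ∪ {∞}`;
`xdeg k φ P` : the degree of the rational function `x(P)` (`0` at infinity).
`xdeg_add_add_xdeg_sub` : `d(P + Q) + d(P - Q) = 2 d(P) + 2 d(Q)` whenever the four points are
`x`-rational; all degenerate cases included.  Uses helper21's `AddSubMapSpec.addSubMap_sym2x`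
and Mathlib's certificate `addSubMapCoeff_condition`.
-/
import Mathlib
import Fermat.Agent.GE.AddSubMapSpec
import Fermat.Agent.GE.RatHeight

namespace Fermat.Agent.GE.Parallelogram

open Polynomial WeierstrassCurve Fermat.Agent.GE.RatHeight

theorem addSubMap_map {R S : Type*} [CommRing R] [CommRing S] (W : WeierstrassCurve R)
    (f : R →+* S) (i : Fin 3) :
    (W.map f).addSubMap i = MvPolynomial.map f (W.addSubMap i) := by
  fin_cases i <;> simp [WeierstrassCurve.addSubMap, map_ofNat]

theorem addSubMapCoeff_map {R S : Type*} [CommRing R] [CommRing S] (W : WeierstrassCurve R)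
    (f : R →+* S) (ij : Fin 3 × Fin 3) :
    (W.map f).addSubMapCoeff ij = MvPolynomial.map f (W.addSubMapCoeff ij) := by
  obtain ⟨i, j⟩ := ij
  fin_cases i <;> fin_cases j <;> simp [WeierstrassCurve.addSubMapCoeff, map_ofNat]

theorem eval_X_map_C {R σ : Type*} [CommRing R] (p : MvPolynomial σ R) :
    MvPolynomial.eval MvPolynomial.X (MvPolynomial.map (MvPolynomial.C : R →+* MvPolynomial σ R) p) = p := by
  rw [MvPolynomial.eval_map, MvPolynomial.eval₂_eta]

/-- The no-common-zero certificate of `addSubMap` as a polynomial identity. -/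
theorem addSubMap_cert {R : Type*} [CommRing R] (W : WeierstrassCurve R) [W.IsElliptic] (i : Fin 3) :
    ∑ j, (MvPolynomial.C (↑W.Δ'⁻¹ : R) * W.addSubMapCoeff (i, j)) * W.addSubMap j =
      MvPolynomial.X i ^ 4 := by
  have h := WeierstrassCurve.addSubMapCoeff_condition
    (W.map (MvPolynomial.C : R →+* MvPolynomial (Fin 3) R)) MvPolynomial.X i
  rw [← h]
  refine Finset.sum_congr rfl fun j _ => ?_
  rw [addSubMap_map, addSubMapCoeff_map, coe_inv_map_Δ', eval_X_map_C]
  congr 1
  rw [← MvPolynomial.map_C, ← map_mul, eval_X_map_C]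


/-! ### The `x`-degree of a point with `x`-coordinate in `K = k(t)` -/

variable {k : Type*} [Field k] {K : Type*} [Field K] [Algebra k[X] K] [IsFractionRing k[X] K]
variable {L : Type*} [Field L]

/-- `P` is the point at infinity or has `x`-coordinate in the image of `φ : K → L`:
the coordinate vector `xRep P` of `x(P) ∈ ℙ¹(L)` comes from `K²`. -/
def XRat (φ : K →+* L) {W' : WeierstrassCurve.Affine L} (P : W'.Point) : Prop :=
  ∃ p : Fin 2 → K, (fun i => φ (p i)) = P.xRep

variable (k) in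
open Classical in
/-- The `x`-degree of a point: the degree of the rational function `x(P) ∈ K = k(t)`
(`0` at the point at infinity, junk value `0` if `x(P) ∉ K`). -/
noncomputable def xdeg (φ : K →+* L) {W' : WeierstrassCurve.Affine L} (P : W'.Point) : ℕ :=
  if h : XRat φ P then ht k h.choose else 0

omit [IsFractionRing k[X] K] in
theorem xdeg_eq (φ : K →+* L) {W' : WeierstrassCurve.Affine L} {P : W'.Point} {p : Fin 2 → K}
    (hp : (fun i => φ (p i)) = P.xRep) : xdeg k φ P = ht k p := by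
  have h : XRat φ P := ⟨p, hp⟩
  unfold xdeg
  rw [dif_pos h]
  congr 1
  funext i
  apply φ.injective
  have h1 : φ (h.choose i) = P.xRep i := congrFun h.choose_spec i
  have h2 : φ (p i) = P.xRep i := congrFun hp i
  rw [h1, h2]

theorem xRat_zero (φ : K →+* L) {W' : WeierstrassCurve.Affine L} : XRat φ (0 : W'.Point) :=
  ⟨![1, 0], by funext i; fin_cases i <;> simp⟩

theorem xRat_some_iff (φ : K →+* L) {W' : WeierstrassCurve.Affine L} {x y : L}
    (h : W'.Nonsingular x y) : XRat φ (Affine.Point.some x y h) ↔ ∃ r, φ r = x := by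
  constructor
  · rintro ⟨p, hp⟩
    have h0 := congrFun hp 0
    have h1 := congrFun hp 1
    simp only [Affine.Point.xRep_some, Fin.isValue, Matrix.cons_val_zero, Matrix.cons_val_one] at h0 h1
    have hp1 : p 1 ≠ 0 := by
      intro h0'
      rw [h0', map_zero] at h1
      exact zero_ne_one h1
    refine ⟨p 0 / p 1, ?_⟩
    rw [map_div₀, h0, h1, div_one]
  · rintro ⟨r, rfl⟩
    exact ⟨![r, 1], by funext i; fin_cases i <;> simp⟩

theorem xRat_neg_iff (φ : K →+* L) {W' : WeierstrassCurve.Affine L} (P : W'.Point) :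
    XRat φ (-P) ↔ XRat φ P := by
  unfold XRat
  rw [Affine.Point.xRep_neg]

theorem xdeg_zero (φ : K →+* L) {W' : WeierstrassCurve.Affine L} :
    xdeg k φ (0 : W'.Point) = 0 := by
  rw [xdeg_eq (k := k) φ (p := ![1, 0]) (by funext i; fin_cases i <;> simp), ht_one_zero]

omit [IsFractionRing k[X] K] in
theorem xdeg_some (φ : K →+* L) {W' : WeierstrassCurve.Affine L} {x y : L}
    (h : W'.Nonsingular x y) {r : K} (hr : φ r = x) :
    xdeg k φ (Affine.Point.some x y h) = rdeg k r := by
  rw [xdeg_eq (k := k) φ (p := ![r, 1]) (by funext i; fin_cases i <;> simp [hr])]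
  rfl

omit [IsFractionRing k[X] K] in
theorem xdeg_neg (φ : K →+* L) {W' : WeierstrassCurve.Affine L} (P : W'.Point) :
    xdeg k φ (-P) = xdeg k φ P := by
  by_cases h : XRat φ P
  · obtain ⟨p, hp⟩ := h
    rw [xdeg_eq φ hp, xdeg_eq φ (P := -P) (p := p) (by rw [Affine.Point.xRep_neg]; exact hp)]
  · have h' : ¬ XRat φ (-P) := fun h' => h ((xRat_neg_iff φ P).mp h')
    unfold xdeg
    rw [dif_neg h, dif_neg h']

/-! ### The exact parallelogram law -/

/-- **Exact parallelogram law for the `x`-degree.**  `W` an elliptic curve over the field of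
constants `k`, `K = k(t)`, `L ⊇ K` a field, `P Q` points of `W` over `L` such that `P`, `Q`,
`P + Q`, `P - Q` have `x`-coordinate in `K`.  Then
`d(P + Q) + d(P - Q) = 2 d(P) + 2 d(Q)`. -/
theorem xdeg_add_add_xdeg_sub (W : WeierstrassCurve k) [W.IsElliptic] (φ : K →+* L)
    {W' : WeierstrassCurve L} (hW : W' = W.map (φ.comp (cK k K))) [DecidableEq L]
    {P Q : W'.toAffine.Point} (hP : XRat φ P) (hQ : XRat φ Q)
    (hS : XRat φ (P + Q)) (hD : XRat φ (P - Q)) :
    xdeg k φ (P + Q) + xdeg k φ (P - Q) = 2 * xdeg k φ P + 2 * xdeg k φ Q := by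
  subst hW
  obtain ⟨p, hp⟩ := hP
  obtain ⟨q, hq⟩ := hQ
  obtain ⟨s, hs⟩ := hS
  obtain ⟨d, hd⟩ := hD
  rw [xdeg_eq φ hp, xdeg_eq φ hq, xdeg_eq φ hs, xdeg_eq φ hd]
  have hne : ∀ {R : (W.map (φ.comp (cK k K))).toAffine.Point} {r : Fin 2 → K},
      (fun i => φ (r i)) = R.xRep → r ≠ 0 := by
    intro R r hr h0
    apply Affine.Point.xRep_ne_zero R
    rw [← hr, h0]
    funext i
    simp
  have hp0 := hne hp
  have hq0 := hne hq
  have hs0 := hne hs
  have hd0 := hne hd
  -- `sym2x` comes from `K`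
  have hsym : ∀ {R S : (W.map (φ.comp (cK k K))).toAffine.Point} {r t : Fin 2 → K},
      (fun i => φ (r i)) = R.xRep → (fun i => φ (t i)) = S.xRep →
      R.sym2x S = fun i => φ (sym2 r t i) := by
    intro R S r t hr ht
    funext i
    rw [map_sym2, hr, ht]
    rfl
  have hsym0 : ∀ {r t : Fin 2 → K}, r ≠ 0 → t ≠ 0 → sym2 r t ≠ 0 := by
    intro r t hr ht
    exact sym2_ne_zero hr ht
  obtain ⟨c, hc, hmap⟩ := AddSubMapSpec.addSubMap_sym2x (W.map (φ.comp (cK k K))).toAffine P Q
  rw [hsym hp hq, hsym hs hd] at hmap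
  -- the forms over `K`
  have hΦ : ∀ (u : Fin 3 → K) (i : Fin 3),
      MvPolynomial.eval (fun i => φ (u i)) ((W.map (φ.comp (cK k K))).addSubMap i) =
        φ (MvPolynomial.eval₂ (cK k K) u (W.addSubMap i)) := by
    intro u i
    rw [addSubMap_map, MvPolynomial.eval_map, MvPolynomial.eval₂_comp_left φ (cK k K) u]
    rfl
  have hdesc : ht k (fun j => MvPolynomial.eval₂ (cK k K) (sym2 p q) (W.addSubMap j)) =
      ht k (sym2 s d) := by
    refine ht_eq_of_map_eq_smul φ hc (hsym0 hs0 hd0) fun i => ?_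
    rw [← hΦ]
    exact congrFun hmap i
  have hHT2 := ht_eval₂_eq (k := k) (K := K) 2 2 W.addSubMap W.isHomogeneous_addSubMap
    (fun i j => MvPolynomial.C (↑W.Δ'⁻¹ : k) * W.addSubMapCoeff (i, j))
    (fun i j => (W.isHomogeneous_addSubMapCoeff (i, j)).C_mul _)
    (addSubMap_cert W) (hsym0 hp0 hq0)
  rw [hHT2, ht_sym2 hp0 hq0, ht_sym2 hs0 hd0] at hdesc
  omega

end Fermat.Agent.GE.Parallelogram
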