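/-
GATE-L / S58 prep (EC-FROB, node (Q)): `RatFunc` bridge and the pure "rational function" forms
of the parallelogram law and of the duplication degree, as corollaries of `GE/RatHeight.lean`.

* `rdeg_ratFunc : rdeg k (r : RatFunc k) = max r.num.natDegree r.denom.natDegree`;
* `rdeg_add_sub`  : `s + r = G(x₁,x₂)/(x₁-x₂)²`, `s r = H(x₁,x₂)/(x₁-x₂)²` ⟹
  `rdeg s + rdeg r = 2 rdeg x₁ + 2 rdeg x₂`;
* `rdeg_double`   : `s = Φ₂(x₁)/ψ₂²(x₁)` ⟹ `rdeg s = 4 rdeg x₁`.
No hypothesis on the field of constants `k` (not nec. algebraically closed), all characteristics.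
-/
import Mathlib
import Fermat.Agent.GE.Parallelogram

namespace Fermat.Agent.GE.RatFuncDeg

open Polynomial WeierstrassCurve Fermat.Agent.GE.RatHeight Fermat.Agent.GE.Parallelogram

variable {k : Type*} [Field k]

theorem rdeg_ratFunc (r : RatFunc k) :
    rdeg k r = max r.num.natDegree r.denom.natDegree := by
  conv_lhs => rw [← RatFunc.num_div_denom r]
  exact rdeg_div r.isCoprime_num_denom r.denom_ne_zero

variable {K : Type*} [Field K] [Algebra k[X] K] [IsFractionRing k[X] K]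

/-- Evaluation of the three quadratic forms of `addSubMap` through a ring homomorphism. -/
theorem eval₂_addSubMap {R S : Type*} [CommRing R] [CommRing S] (W : WeierstrassCurve R)
    (f : R →+* S) (s t u : S) :
    (fun i => MvPolynomial.eval₂ f ![s, t, u] (W.addSubMap i)) =
      ![s ^ 2 - f W.b₄ * s * u - f W.b₆ * t * u - f W.b₈ * u ^ 2,
        2 * t * s + f W.b₂ * s * u + f W.b₄ * t * u + f W.b₆ * u ^ 2,
        t ^ 2 - 4 * s * u] := by
  funext i
  fin_cases i <;> simp [WeierstrassCurve.addSubMap, map_ofNat]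

omit [IsFractionRing k[X] K] in
theorem rdeg_eq_ht (r : K) : rdeg k r = ht k ![r, 1] := rfl

/-- The height doubling `ht (Φ(u)) = 2 ht u` for the addition-and-subtraction map. -/
theorem ht_addSubMap (W : WeierstrassCurve k) [W.IsElliptic] {u : Fin 3 → K} (hu : u ≠ 0) :
    ht k (fun j => MvPolynomial.eval₂ (cK k K) u (W.addSubMap j)) = 2 * ht k u :=
  ht_eval₂_eq (k := k) (K := K) 2 2 W.addSubMap W.isHomogeneous_addSubMap
    (fun i j => MvPolynomial.C (↑W.Δ'⁻¹ : k) * W.addSubMapCoeff (i, j))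
    (fun i j => (W.isHomogeneous_addSubMapCoeff (i, j)).C_mul _)
    (addSubMap_cert W) hu

theorem fin2_ne_zero (r : K) : (![r, 1] : Fin 2 → K) ≠ 0 := by
  intro h
  have := congrFun h 1
  simp at this

/-- **Parallelogram law, rational-function form.**  If `s + r` and `s r` are given by the
biquadratic addition formulas in `x₁ ≠ x₂`, then `deg s + deg r = 2 deg x₁ + 2 deg x₂`. -/
theorem rdeg_add_sub (W : WeierstrassCurve k) [W.IsElliptic] (x₁ x₂ s r : K) (hne : x₁ ≠ x₂)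
    (hsum : (s + r) * (x₁ - x₂) ^ 2 =
      2 * (x₁ + x₂) * (x₁ * x₂) + cK k K W.b₂ * (x₁ * x₂) + cK k K W.b₄ * (x₁ + x₂) + cK k K W.b₆)
    (hprod : s * r * (x₁ - x₂) ^ 2 =
      (x₁ * x₂) ^ 2 - cK k K W.b₄ * (x₁ * x₂) - cK k K W.b₆ * (x₁ + x₂) - cK k K W.b₈) :
    rdeg k s + rdeg k r = 2 * rdeg k x₁ + 2 * rdeg k x₂ := by
  have hd : (x₁ - x₂) ^ 2 ≠ 0 := pow_ne_zero 2 (sub_ne_zero.mpr hne)
  have h1 := ht_addSubMap (K := K) W (sym2_ne_zero (fin2_ne_zero x₁) (fin2_ne_zero x₂))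
  rw [ht_sym2 (fin2_ne_zero x₁) (fin2_ne_zero x₂)] at h1
  have h2 : (fun j => MvPolynomial.eval₂ (cK k K) (sym2 ![x₁, 1] ![x₂, 1]) (W.addSubMap j)) =
      ((x₁ - x₂) ^ 2) • sym2 ![s, 1] ![r, 1] := by
    unfold sym2
    rw [eval₂_addSubMap]
    funext i
    fin_cases i
    · simp only [Fin.zero_eta, Fin.isValue, Matrix.cons_val_zero, Matrix.cons_val_one,
        Pi.smul_apply, smul_eq_mul]
      linear_combination -hprod
    · simp only [Fin.mk_one, Fin.isValue, Matrix.cons_val_zero, Matrix.cons_val_one,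
        Pi.smul_apply, smul_eq_mul]
      linear_combination -hsum
    · simp only [Fin.reduceFinMk, Fin.isValue, Matrix.cons_val_zero, Matrix.cons_val_one,
        Matrix.cons_val, Pi.smul_apply, smul_eq_mul]
      ring
  rw [h2, ht_smul hd, ht_sym2 (fin2_ne_zero s) (fin2_ne_zero r)] at h1
  rw [rdeg_eq_ht, rdeg_eq_ht, rdeg_eq_ht, rdeg_eq_ht, h1]
  ring

/-- **Duplication, rational-function form.**  If `s = Φ₂(x₁)/ψ₂²(x₁)` then `deg s = 4 deg x₁`. -/
theorem rdeg_double (W : WeierstrassCurve k) [W.IsElliptic] (x₁ s : K)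
    (hpsi : 4 * x₁ ^ 3 + cK k K W.b₂ * x₁ ^ 2 + 2 * cK k K W.b₄ * x₁ + cK k K W.b₆ ≠ 0)
    (h : s * (4 * x₁ ^ 3 + cK k K W.b₂ * x₁ ^ 2 + 2 * cK k K W.b₄ * x₁ + cK k K W.b₆) =
      x₁ ^ 4 - cK k K W.b₄ * x₁ ^ 2 - 2 * cK k K W.b₆ * x₁ - cK k K W.b₈) :
    rdeg k s = 4 * rdeg k x₁ := by
  have h1 := ht_addSubMap (K := K) W (sym2_ne_zero (fin2_ne_zero x₁) (fin2_ne_zero x₁))
  rw [ht_sym2 (fin2_ne_zero x₁) (fin2_ne_zero x₁)] at h1
  have h2 : (fun j => MvPolynomial.eval₂ (cK k K) (sym2 ![x₁, 1] ![x₁, 1]) (W.addSubMap j)) =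
      (4 * x₁ ^ 3 + cK k K W.b₂ * x₁ ^ 2 + 2 * cK k K W.b₄ * x₁ + cK k K W.b₆) • ![s, 1, 0] := by
    unfold sym2
    rw [eval₂_addSubMap]
    funext i
    fin_cases i
    · simp only [Fin.zero_eta, Fin.isValue, Matrix.cons_val_zero, Matrix.cons_val_one,
        Pi.smul_apply, smul_eq_mul]
      linear_combination -h
    · simp only [Fin.mk_one, Fin.isValue, Matrix.cons_val_zero, Matrix.cons_val_one,
        Pi.smul_apply, smul_eq_mul]
      ring
    · simp only [Fin.reduceFinMk, Fin.isValue, Matrix.cons_val_zero, Matrix.cons_val_one,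
        Matrix.cons_val, Pi.smul_apply, smul_eq_mul]
      ring
  rw [h2, ht_smul hpsi, ht_fin2_zero] at h1
  rw [h1, rdeg_eq_ht]
  ring

/-! ### Small API for `rdeg` -/

theorem algebraMap_ne_zero {b : k[X]} (hb : b ≠ 0) : algebraMap k[X] K b ≠ 0 := fun h =>
  hb ((IsFractionRing.to_map_eq_zero_iff (K := K)).mp h)

theorem rdeg_pow (r : K) (n : ℕ) : rdeg k (r ^ n) = n * rdeg k r := by
  obtain ⟨a, b, hab, hb, rfl⟩ := exists_coprime_rep (k := k) r
  rw [div_pow, ← map_pow, ← map_pow, rdeg_div hab.pow (pow_ne_zero n hb), rdeg_div hab hb,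
    natDegree_pow, natDegree_pow, Nat.mul_max_mul_left]

theorem rdeg_inv (r : K) : rdeg k r⁻¹ = rdeg k r := by
  obtain ⟨a, b, hab, hb, rfl⟩ := exists_coprime_rep (k := k) r
  by_cases ha : a = 0
  · subst ha
    simp
  · rw [inv_div, rdeg_div hab.symm ha, rdeg_div hab hb, max_comm]

theorem rdeg_cK (c : k) : rdeg k (cK k K c) = 0 := by
  have := rdeg_algebraMap (K := K) (C c)
  rw [natDegree_C] at this
  exact this

theorem rdeg_eq_zero_iff (r : K) : rdeg k r = 0 ↔ ∃ c : k, r = cK k K c := by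
  constructor
  · intro h
    obtain ⟨a, b, hab, hb, rfl⟩ := exists_coprime_rep (k := k) r
    rw [rdeg_div hab hb] at h
    have ha0 : a.natDegree = 0 := Nat.le_zero.mp (h ▸ le_max_left _ _)
    have hb0 : b.natDegree = 0 := Nat.le_zero.mp (h ▸ le_max_right _ _)
    obtain ⟨a₀, rfl⟩ := natDegree_eq_zero.mp ha0
    obtain ⟨b₀, rfl⟩ := natDegree_eq_zero.mp hb0
    refine ⟨a₀ / b₀, ?_⟩
    rw [map_div₀]
    rfl
  · rintro ⟨c, rfl⟩
    exact rdeg_cK c

theorem max_natDegree_add_C_mul (a b : k[X]) (c : k) :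
    max (a + C c * b).natDegree b.natDegree = max a.natDegree b.natDegree := by
  have key : ∀ (a : k[X]) (c : k),
      max (a + C c * b).natDegree b.natDegree ≤ max a.natDegree b.natDegree := by
    intro a c
    refine max_le ?_ (le_max_right _ _)
    refine le_trans (natDegree_add_le _ _) (max_le (le_max_left _ _) ?_)
    exact le_trans (natDegree_C_mul_le _ _) (le_max_right _ _)
  apply le_antisymm (key a c)
  have := key (a + C c * b) (-c)
  have h2 : a + C c * b + C (-c) * b = a := by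
    rw [C_neg]; ring
  rw [h2] at this
  exact this

theorem rdeg_add_cK (r : K) (c : k) : rdeg k (r + cK k K c) = rdeg k r := by
  obtain ⟨a, b, hab, hb, rfl⟩ := exists_coprime_rep (k := k) r
  have hbK := algebraMap_ne_zero (K := K) hb
  have h1 : algebraMap k[X] K a / algebraMap k[X] K b + cK k K c =
      algebraMap k[X] K (a + C c * b) / algebraMap k[X] K b := by
    rw [map_add, map_mul]
    field_simp
    rfl
  rw [h1, rdeg_div (hab.add_mul_right_left (C c)) hb, rdeg_div hab hb, max_natDegree_add_C_mul]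

theorem rdeg_cK_mul (r : K) {c : k} (hc : c ≠ 0) : rdeg k (cK k K c * r) = rdeg k r := by
  obtain ⟨a, b, hab, hb, rfl⟩ := exists_coprime_rep (k := k) r
  have hu : IsUnit (C c : k[X]) := isUnit_C.mpr (isUnit_iff_ne_zero.mpr hc)
  have h1 : cK k K c * (algebraMap k[X] K a / algebraMap k[X] K b) =
      algebraMap k[X] K (C c * a) / algebraMap k[X] K b := by
    rw [map_mul, mul_div_assoc]
    rfl
  rw [h1, rdeg_div ((isCoprime_mul_unit_left_left hu a b).mpr hab) hb, rdeg_div hab hb,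
    natDegree_C_mul hc]

end Fermat.Agent.GE.RatFuncDeg
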