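import Mathlib
import Fermat.Agent.GE.RedHom

/-!
# Frobenius on points, reduction and specialisation (node E5 of the EC-FROB graph, part 1)

`F` a finite field, `W₀` a Weierstrass curve over `F`, `L` a field over `F`:
`frobPt F L : E(L) →+ E(L)` is the map induced by `x ↦ x ^ #F`.

* `frobPt_map` : `frobPt` commutes with `Point.map g` for every `F`-algebra hom `g`;
* `red_frobPt` : the reduction map of `GE/RedHom` at ANY valuation subring `A ⊇ F` of `K` commutes
  with `frobPt`;
* `red_map_const` : a constant point (coming from a subfield `k ⊆ A`) reduces to itself;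
* `red_some_of_sub_mem` : a point congruent to a constant point `T` reduces to `T`;
* `specialize_relation` : a relation `Φ²P - a ΦP + b P = (constant point R₀)` in `E(K)`
  specialises to `φ²T - a φT + b T = R₀` in `E(k)` at every place where `P ↦ T`.
-/

set_option autoImplicit false

namespace Fermat.Agent.GE.FrobSpec

open WeierstrassCurve WeierstrassCurve.Affine Fermat.Agent.GE.RedHom

section Frob

variable (F : Type*) [Field F] [Fintype F] {W₀ : Affine F}

/-- the Frobenius endomorphism `(x, y) ↦ (x ^ #F, y ^ #F)` of the group of points over a field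
`L ⊇ F` of a curve defined over the finite field `F` -/
noncomputable def frobPt (L : Type*) [Field L] [Algebra F L] [DecidableEq L] :
    (W₀⁄L).Point →+ (W₀⁄L).Point :=
  Point.map (W' := W₀) (FiniteField.frobeniusAlgHom F L)

variable {L L' : Type*} [Field L] [Algebra F L] [DecidableEq L] [Field L'] [Algebra F L']
  [DecidableEq L']

theorem frobPt_zero : frobPt F L (0 : (W₀⁄L).Point) = 0 := rfl

theorem frobPt_some {x y : L} (h : (W₀⁄L).Nonsingular x y) :
    ∃ h' : (W₀⁄L).Nonsingular (x ^ Fintype.card F) (y ^ Fintype.card F),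
      frobPt F L (Point.some x y h) = Point.some _ _ h' := by
  refine ⟨?_, ?_⟩
  · have := (W₀.baseChange_nonsingular (FiniteField.frobeniusAlgHom F L).injective x y).mpr h
    simpa only [FiniteField.frobeniusAlgHom_apply] using this
  · rfl

/-- Frobenius commutes with every map of points induced by an `F`-algebra homomorphism. -/
theorem frobPt_map (g : L →ₐ[F] L') (P : (W₀⁄L).Point) :
    frobPt F L' (Point.map (W' := W₀) g P) = Point.map (W' := W₀) g (frobPt F L P) := by
  unfold frobPt
  rw [Point.map_map, Point.map_map]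
  have e : (FiniteField.frobeniusAlgHom F L').comp g = g.comp (FiniteField.frobeniusAlgHom F L) := by
    ext x
    rw [AlgHom.comp_apply, AlgHom.comp_apply, FiniteField.frobeniusAlgHom_apply,
      FiniteField.frobeniusAlgHom_apply, map_pow]
  rw [e]

end Frob

section Red

variable (F : Type*) [Field F] [Fintype F] (W₀ : Affine F)
variable {K : Type*} [Field K] [Algebra F K] [DecidableEq K] (A : ValuationSubring K)
  [Algebra F A] [IsScalarTower F A K] [DecidableEq (IsLocalRing.ResidueField A)]

omit [DecidableEq K] [DecidableEq (IsLocalRing.ResidueField A)] [Algebra F K] in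
theorem pow_mem_iff {x : K} {n : ℕ} (hn : n ≠ 0) : x ^ n ∈ A ↔ x ∈ A := by
  constructor
  · intro h
    by_contra hx
    have h1 : 1 < A.valuation x := by
      rw [← not_le, ValuationSubring.valuation_le_one_iff]; exact hx
    have h2 : A.valuation (x ^ n) ≤ 1 := (ValuationSubring.valuation_le_one_iff A _).2 h
    rw [map_pow] at h2
    exact absurd h2 (not_le.2 (one_lt_pow₀ h1 hn))
  · intro h; exact pow_mem h n

/-- **Reduction commutes with Frobenius.** -/
theorem red_frobPt (hΔ : (W₀.baseChange (IsLocalRing.ResidueField A)).Δ ≠ 0)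
    (P : (W₀⁄K).Point) :
    red A (W₀.baseChange (IsLocalRing.ResidueField A)) (frobPt F K P) =
      frobPt F (IsLocalRing.ResidueField A)
        (red A (W₀.baseChange (IsLocalRing.ResidueField A)) P) := by
  unfold frobPt
  refine red_map (S := F) W₀ (isRedOf_baseChange W₀) hΔ (FiniteField.frobeniusAlgHom F K)
    (FiniteField.frobeniusAlgHom F (IsLocalRing.ResidueField A)) ?_ ?_ P
  · intro x
    rw [FiniteField.frobeniusAlgHom_apply]
    exact pow_mem_iff A Fintype.card_ne_zero
  · intro x hx hfx
    rw [FiniteField.frobeniusAlgHom_apply, ← map_pow]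
    congr 1

end Red


section Const

variable (F : Type*) [Field F] [Fintype F] (W₀ : Affine F)
variable {k : Type*} [Field k] [Algebra F k] [DecidableEq k]
variable {K : Type*} [Field K] [Algebra F K] [Algebra k K] [IsScalarTower F k K] [DecidableEq K]
variable (A : ValuationSubring K) [Algebra F A] [IsScalarTower F A K] [Algebra k A]
  [IsScalarTower k A K] [IsScalarTower F k A] [DecidableEq (IsLocalRing.ResidueField A)]

/-- the tower `F → k → κ_A` -/
instance instTowerResidue : IsScalarTower F k (IsLocalRing.ResidueField A) :=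
  IsScalarTower.of_algebraMap_eq fun x => by
    rw [IsScalarTower.algebraMap_apply F A (IsLocalRing.ResidueField A),
      IsScalarTower.algebraMap_apply k A (IsLocalRing.ResidueField A),
      IsScalarTower.algebraMap_apply F k A]

omit [Fintype F] [DecidableEq k] [DecidableEq K] [Algebra F K] [IsScalarTower F k K]
  [Algebra F A] [IsScalarTower F A K] [IsScalarTower F k A]
  [DecidableEq (IsLocalRing.ResidueField A)] [Algebra F k] in
theorem algebraMap_mem (a : k) : algebraMap k K a ∈ A := by
  rw [IsScalarTower.algebraMap_apply k A K]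
  exact (algebraMap k A a).2

omit [Fintype F] [DecidableEq k] [DecidableEq K] [Algebra F K] [IsScalarTower F k K]
  [Algebra F A] [IsScalarTower F A K] [IsScalarTower F k A]
  [DecidableEq (IsLocalRing.ResidueField A)] [Algebra F k] in
/-- an element congruent to a constant reduces to that constant -/
theorem residue_eq_of_sub_mem {t : K} {c : k} (ht : t ∈ A)
    (h : t - algebraMap k K c ∈ A.nonunits) :
    IsLocalRing.residue A ⟨t, ht⟩ = algebraMap k (IsLocalRing.ResidueField A) c := by
  rw [IsScalarTower.algebraMap_apply k A (IsLocalRing.ResidueField A)]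
  have h1 : IsLocalRing.residue A (⟨t, ht⟩ - algebraMap k A c) = 0 := by
    rw [← coe_mem_nonunits_iff]
    have : ((⟨t, ht⟩ - algebraMap k A c : A) : K) = t - algebraMap k K c := by
      rw [IsScalarTower.algebraMap_apply k A K]; rfl
    rw [this]; exact h
  rw [map_sub, sub_eq_zero] at h1
  exact h1

omit [Fintype F] [IsScalarTower F k K] [DecidableEq K] in
/-- a point congruent to a constant point `T` reduces to `T` -/
theorem red_some_of_sub_mem (hΔ : (W₀.baseChange (IsLocalRing.ResidueField A)).Δ ≠ 0)
    {t y : K} (h : (W₀⁄K).Nonsingular t y) {c y₁ : k} (h₁ : (W₀⁄k).Nonsingular c y₁)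
    (ht : t - algebraMap k K c ∈ A.nonunits) (hy : y - algebraMap k K y₁ ∈ A.nonunits) :
    red A (W₀.baseChange (IsLocalRing.ResidueField A)) (Point.some t y h) =
      Point.map (W' := W₀) (IsScalarTower.toAlgHom F k (IsLocalRing.ResidueField A))
        (Point.some c y₁ h₁) := by
  have htA : t ∈ A := by
    have := A.add_mem _ _ (A.nonunits_subset ht) (algebraMap_mem A c)
    rwa [sub_add_cancel] at this
  obtain ⟨hyA, hn, e⟩ := red_some_of_mem (isRedOf_baseChange (A := A) W₀) hΔ h htA
  rw [e, Point.map_some]
  exact some_congr (residue_eq_of_sub_mem A htA ht) (residue_eq_of_sub_mem A hyA hy) _ _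

omit [Fintype F] in
/-- a constant point reduces to itself -/
theorem red_map_const (hΔ : (W₀.baseChange (IsLocalRing.ResidueField A)).Δ ≠ 0)
    (R₀ : (W₀⁄k).Point) :
    red A (W₀.baseChange (IsLocalRing.ResidueField A))
        (Point.map (W' := W₀) (IsScalarTower.toAlgHom F k K) R₀) =
      Point.map (W' := W₀) (IsScalarTower.toAlgHom F k (IsLocalRing.ResidueField A)) R₀ := by
  rcases R₀ with _ | ⟨c, y₁, h₁⟩
  · rfl
  · rw [Point.map_some]
    refine red_some_of_sub_mem F W₀ A hΔ _ h₁ ?_ ?_
    · simp only [IsScalarTower.coe_toAlgHom', sub_self]; exact Fermat.Agent.S05.SameRed.nu_zero A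
    · simp only [IsScalarTower.coe_toAlgHom', sub_self]; exact Fermat.Agent.S05.SameRed.nu_zero A

/-- **Specialisation of a Frobenius relation.**  If `P ∈ E(K)` reduces to the constant point `T`
at the place `A`, then a relation `Φ²P - a ΦP + b P = R₀` (`R₀` a constant point) in `E(K)` gives
the relation `φ²T - a φT + b T = R₀` in `E(k)`. -/
theorem specialize_relation (hΔ : (W₀.baseChange (IsLocalRing.ResidueField A)).Δ ≠ 0)
    {P : (W₀⁄K).Point} {T : (W₀⁄k).Point}
    (hPT : red A (W₀.baseChange (IsLocalRing.ResidueField A)) P =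
      Point.map (W' := W₀) (IsScalarTower.toAlgHom F k (IsLocalRing.ResidueField A)) T)
    (R₀ : (W₀⁄k).Point) (a b : ℤ)
    (hrel : frobPt F K (frobPt F K P) - a • frobPt F K P + b • P =
      Point.map (W' := W₀) (IsScalarTower.toAlgHom F k K) R₀) :
    frobPt F k (frobPt F k T) - a • frobPt F k T + b • T = R₀ := by
  have h := congrArg (redHom (isRedOf_baseChange (A := A) W₀) hΔ) hrel
  simp only [map_add, map_sub, map_zsmul, redHom_apply] at h
  rw [red_frobPt F W₀ A hΔ, red_frobPt F W₀ A hΔ, hPT, frobPt_map, frobPt_map,
    red_map_const F W₀ A hΔ] at h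
  apply Point.map_injective (W' := W₀) (IsScalarTower.toAlgHom F k (IsLocalRing.ResidueField A))
  rw [map_add, map_sub, map_zsmul, map_zsmul]
  exact h

end Const

end Fermat.Agent.GE.FrobSpec
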