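/-
GATE-L / S58 (report 205 (3), EC-FROB, node COMP-ALG): the pure algebra behind
"Frobenius satisfies X^2 - aX + l on the points of an elliptic curve".

A ring `R` (commutativity is NOT needed) with an integer valued function `d` which
* satisfies the parallelogram law  `d (a + b) + d (a - b) = 2 d a + 2 d b`,
* is multiplicative, `d 1 = 1`,
* is definite: `d a = 0 → a = 0`,
is a "composition algebra": every `x` satisfies `x^2 - t(x) x + d(x) = 0` with
`t x = d (x + 1) - d x - 1`.

Mathlib only.
-/
import Mathlib

set_option autoImplicit false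

namespace Fermat.Agent.GE.CompAlgDeg

/-! ### Part 1: the parallelogram law gives a biadditive polar form -/

section Additive

variable {A : Type*} [AddCommGroup A]

/-- the polar form of `d` -/
def polarZ (d : A → ℤ) (x y : A) : ℤ := d (x + y) - d x - d y

variable {d : A → ℤ}

theorem d_add (x y : A) : d (x + y) = d x + d y + polarZ d x y := by
  unfold polarZ; ring

theorem polarZ_comm (x y : A) : polarZ d x y = polarZ d y x := by
  unfold polarZ; rw [add_comm x y]; ring

variable (hpar : ∀ a b : A, d (a + b) + d (a - b) = 2 * d a + 2 * d b)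
include hpar

theorem d_zero : d 0 = 0 := by
  have h := hpar 0 0
  simp only [add_zero, sub_zero] at h
  linarith

theorem d_neg (y : A) : d (-y) = d y := by
  have h := hpar 0 y
  have h0 := d_zero hpar
  simp only [zero_add, zero_sub] at h
  linarith

theorem d_sub_comm (x y : A) : d (x - y) = d (y - x) := by
  rw [← d_neg hpar (x - y), neg_sub]

theorem d_sub (x y : A) : d (x - y) = 2 * d x + 2 * d y - d (x + y) := by
  have h := hpar x y
  linarith

theorem d_two_nsmul (x : A) : d (x + x) = 4 * d x := by
  have h := hpar x x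
  have h0 := d_zero hpar
  rw [sub_self] at h
  linarith

/-- the key identity: `d` is "quadratic" on sums of three elements -/
theorem d_add_add (x y z : A) :
    d (x + y + z) = d (x + y) + d (y + z) + d (x + z) - d x - d y - d z := by
  have hA := hpar (x + z) y
  have hB := hpar (x - y) z
  have hC := hpar x (y + z)
  have hD := hpar x y
  rw [show x + z + y = x + y + z by abel, show x + z - y = x - y + z by abel] at hA
  rw [show x + (y + z) = x + y + z by abel, show x - (y + z) = x - y - z by abel] at hC
  linarith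

theorem polarZ_add_left (x y z : A) : polarZ d (x + y) z = polarZ d x z + polarZ d y z := by
  have h := d_add_add hpar x y z
  unfold polarZ
  linarith

theorem polarZ_add_right (x y z : A) : polarZ d x (y + z) = polarZ d x y + polarZ d x z := by
  rw [polarZ_comm, polarZ_add_left hpar, polarZ_comm y x, polarZ_comm z x]

theorem polarZ_self (x : A) : polarZ d x x = 2 * d x := by
  have h := d_two_nsmul hpar x
  unfold polarZ
  linarith

theorem polarZ_zero_left (y : A) : polarZ d 0 y = 0 := by
  have h0 := d_zero hpar
  unfold polarZ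
  rw [zero_add]
  linarith

/-- `polarZ d · y` as an additive map -/
def polarHom (y : A) : A →+ ℤ where
  toFun x := polarZ d x y
  map_zero' := polarZ_zero_left hpar y
  map_add' x x' := polarZ_add_left hpar x x' y

theorem polarHom_apply (x y : A) : polarHom hpar y x = polarZ d x y := rfl

theorem polarZ_zero_right (x : A) : polarZ d x 0 = 0 := by
  rw [polarZ_comm, polarZ_zero_left hpar]

theorem polarZ_neg_left (x y : A) : polarZ d (-x) y = -polarZ d x y := by
  rw [← polarHom_apply hpar, map_neg, polarHom_apply]

theorem polarZ_neg_right (x y : A) : polarZ d x (-y) = -polarZ d x y := by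
  rw [polarZ_comm, polarZ_neg_left hpar, polarZ_comm]

theorem polarZ_sub_left (x y z : A) : polarZ d (x - y) z = polarZ d x z - polarZ d y z := by
  rw [← polarHom_apply hpar, map_sub, polarHom_apply, polarHom_apply]

theorem polarZ_sub_right (x y z : A) : polarZ d x (y - z) = polarZ d x y - polarZ d x z := by
  rw [polarZ_comm, polarZ_sub_left hpar, polarZ_comm y x, polarZ_comm z x]

theorem polarZ_zsmul_left (n : ℤ) (x y : A) : polarZ d (n • x) y = n * polarZ d x y := by
  rw [← polarHom_apply hpar, map_zsmul, polarHom_apply, smul_eq_mul]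

theorem polarZ_zsmul_right (n : ℤ) (x y : A) : polarZ d x (n • y) = n * polarZ d x y := by
  rw [polarZ_comm, polarZ_zsmul_left hpar, polarZ_comm]

theorem d_zsmul (n : ℤ) (x : A) : d (n • x) = n ^ 2 * d x := by
  have h1 := polarZ_self hpar (n • x)
  rw [polarZ_zsmul_left hpar, polarZ_zsmul_right hpar, polarZ_self hpar] at h1
  have : 2 * d (n • x) = 2 * (n ^ 2 * d x) := by rw [← h1]; ring
  linarith

/-- `d` is a binary quadratic form on the subgroup generated by two elements -/
theorem d_zsmul_add_zsmul (m n : ℤ) (x y : A) :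
    d (m • x + n • y) = m ^ 2 * d x + m * n * polarZ d x y + n ^ 2 * d y := by
  rw [d_add (d := d), d_zsmul hpar, d_zsmul hpar, polarZ_zsmul_left hpar,
    polarZ_zsmul_right hpar]
  ring

end Additive

/-! ### Part 2: multiplicativity -/

section Mul

variable {R : Type*} [Ring R] {d : R → ℤ}

/-- the trace attached to `d` -/
def trZ (d : R → ℤ) (x : R) : ℤ := d (x + 1) - d x - 1

variable (hpar : ∀ a b : R, d (a + b) + d (a - b) = 2 * d a + 2 * d b)
  (hmul : ∀ a b : R, d (a * b) = d a * d b)

include hmul in
theorem polarZ_mul_left (a c e : R) : polarZ d (a * c) (a * e) = d a * polarZ d c e := by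
  unfold polarZ
  rw [← mul_add, hmul, hmul, hmul]
  ring

include hmul in
theorem polarZ_mul_right (a b c : R) : polarZ d (a * c) (b * c) = polarZ d a b * d c := by
  unfold polarZ
  rw [← add_mul, hmul, hmul, hmul]
  ring

include hpar hmul in
/-- the polarised form of multiplicativity -/
theorem polarZ_four (a b c e : R) :
    polarZ d (a * c) (b * e) + polarZ d (a * e) (b * c) = polarZ d a b * polarZ d c e := by
  have h := hmul (a + b) (c + e)
  rw [add_mul, mul_add, mul_add,
    d_add (d := d) (a * c + a * e) (b * c + b * e), d_add (d := d) (a * c) (a * e),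
    d_add (d := d) (b * c) (b * e),
    polarZ_add_left hpar, polarZ_add_right hpar, polarZ_add_right hpar,
    d_add (d := d) a b, d_add (d := d) c e, hmul, hmul, hmul, hmul,
    polarZ_mul_left hmul, polarZ_mul_left hmul, polarZ_mul_right hmul, polarZ_mul_right hmul] at h
  linear_combination h

variable (h1 : d 1 = 1)

include h1 in
theorem trZ_eq_polarZ (x : R) : trZ d x = polarZ d x 1 := by
  unfold trZ polarZ
  rw [h1]

include hpar h1 in
theorem trZ_add (x y : R) : trZ d (x + y) = trZ d x + trZ d y := by
  rw [trZ_eq_polarZ h1, trZ_eq_polarZ h1, trZ_eq_polarZ h1, polarZ_add_left hpar]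

include hpar h1 in
theorem trZ_zsmul (n : ℤ) (x : R) : trZ d (n • x) = n * trZ d x := by
  rw [trZ_eq_polarZ h1, trZ_eq_polarZ h1, polarZ_zsmul_left hpar]

include hpar h1 in
theorem trZ_one : trZ d 1 = 2 := by
  rw [trZ_eq_polarZ h1, polarZ_self hpar, h1]; rfl

include hpar hmul h1 in
/-- adjointness: left multiplication by `x` is adjoint to left multiplication by `t(x) - x` -/
theorem polarZ_mul_adj (x y z : R) :
    polarZ d (x * z) y + polarZ d (x * y) z = trZ d x * polarZ d z y := by
  have h := polarZ_four hpar hmul x 1 z y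
  rw [one_mul, one_mul] at h
  rw [trZ_eq_polarZ h1]
  exact h

include hpar hmul h1 in
/-- the conjugate `t(x) - x` of `x` is a right "inverse up to `d x`", weakly -/
theorem polarZ_mul_conj (x y : R) :
    polarZ d (x * (trZ d x • (1 : R) - x)) y = d x * polarZ d 1 y := by
  have hA := polarZ_mul_adj hpar hmul h1 x y (trZ d x • (1 : R) - x)
  have hB := polarZ_mul_adj hpar hmul h1 x 1 y
  rw [mul_one] at hB
  rw [polarZ_sub_left hpar, polarZ_zsmul_left hpar, polarZ_sub_right hpar,
    polarZ_zsmul_right hpar] at hA
  have hC : polarZ d (x * y) x = d x * polarZ d y 1 := by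
    have := polarZ_mul_left hmul x y 1
    rwa [mul_one] at this
  rw [hC] at hA
  rw [polarZ_comm y 1] at hA hB
  linear_combination hA - trZ d x * hB

variable (hdef : ∀ a : R, d a = 0 → a = 0)

include hpar hmul h1 hdef in
/-- **COMP-ALG**: `x (t(x) - x) = d x`. -/
theorem mul_conj_eq (x : R) : x * (trZ d x • (1 : R) - x) = d x • (1 : R) := by
  set w : R := x * (trZ d x • (1 : R) - x) - d x • (1 : R) with hw
  have hwy : ∀ y : R, polarZ d w y = 0 := by
    intro y
    rw [hw, polarZ_sub_left hpar, polarZ_mul_conj hpar hmul h1, polarZ_zsmul_left hpar, sub_self]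
  have h2 : 2 * d w = 0 := by rw [← polarZ_self hpar, hwy]
  have h3 : d w = 0 := by linarith
  exact sub_eq_zero.mp (hdef w h3)

include hpar hmul h1 hdef in
/-- **COMP-ALG**, quadratic relation, `zsmul` form. -/
theorem quadratic_zsmul (x : R) : x * x - trZ d x • x + d x • (1 : R) = 0 := by
  have h := mul_conj_eq hpar hmul h1 hdef x
  rw [mul_sub, mul_smul_comm, mul_one] at h
  rw [← h]
  abel

include hpar hmul h1 hdef in
/-- **COMP-ALG**, quadratic relation, cast form. -/
theorem quadratic_cast (x : R) : x ^ 2 - (trZ d x : R) * x + (d x : R) = 0 := by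
  have h := quadratic_zsmul hpar hmul h1 hdef x
  rw [zsmul_eq_mul, zsmul_eq_mul, mul_one] at h
  rw [pow_two]
  exact h

include hpar h1 in
/-- the trace in terms of `d (1 - φ)` (the number of rational points) -/
theorem trZ_eq_of_one_sub (φ : R) : trZ d φ = d φ + 1 - d (1 - φ) := by
  have h := hpar φ 1
  rw [h1, d_sub_comm hpar φ 1] at h
  unfold trZ
  linarith

include hpar hmul h1 hdef in
/-- **Consumer shape (EC-FROB)**: if `d φ = l` and `d (1 - φ) = Npts` then
`φ² - (l + 1 - Npts) φ + l = 0`. -/
theorem frobenius_quadratic (φ : R) (l Npts : ℤ) (hφ : d φ = l) (hN : d (1 - φ) = Npts) :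
    φ * φ - (l + 1 - Npts) • φ + l • (1 : R) = 0 := by
  have h := quadratic_zsmul hpar hmul h1 hdef φ
  rw [trZ_eq_of_one_sub hpar h1, hφ, hN] at h
  exact h

include hpar h1 in
/-- the degree of `m + n φ` is the binary quadratic form `m² + m n t(φ) + n² d(φ)` -/
theorem d_zsmul_one_add_zsmul (φ : R) (m n : ℤ) :
    d (m • (1 : R) + n • φ) = m ^ 2 + m * n * trZ d φ + n ^ 2 * d φ := by
  rw [d_zsmul_add_zsmul hpar, h1, trZ_eq_polarZ h1, polarZ_comm 1 φ]
  ring

include hpar h1 in
/-- `d (φ - c) = c² - c t(φ) + d φ` (the shape used by NONSCALAR of report 205) -/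
theorem d_sub_zsmul_one (φ : R) (c : ℤ) :
    d (φ - c • (1 : R)) = c ^ 2 - c * trZ d φ + d φ := by
  have h := d_zsmul_one_add_zsmul hpar h1 φ (-c) 1
  rw [one_smul, neg_smul, neg_add_eq_sub] at h
  rw [h]
  ring

include hpar h1 in
theorem d_zsmul_one (n : ℤ) : d (n • (1 : R)) = n ^ 2 := by
  rw [d_zsmul hpar, h1, mul_one]

include hpar h1 in
theorem trZ_zsmul_one (n : ℤ) : trZ d (n • (1 : R)) = 2 * n := by
  rw [trZ_zsmul hpar h1, trZ_one hpar h1, mul_comm]

end Mul

end Fermat.Agent.GE.CompAlgDeg

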