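/-
GATE-L / S58, EC-FROB node E5 "(CH)" of helper91's graph (board 2512), ADDITIVE shape:
the x-degree `d` lives on an additive group `Γ` of points (not on a ring), Frobenius `φ`
acts additively with `d (φ R) = l d R`, `d P0 = 1`, and the three counts
  `N1 = d (P0 - φ P0)`, `d (P0 + φ P0)`, `d (P0 - φ² P0) = N1 * d (P0 + φ P0)`
force `d (φ² P0 - a φ P0 + l P0) = 0` for `a = l + 1 - N1`.

Mathlib only (on top of GE/CompAlgDeg.lean).
-/
import Fermat.Agent.GE.CompAlgDeg

set_option autoImplicit false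

namespace Fermat.Agent.GE.QuadFormFrob

open Fermat.Agent.GE.CompAlgDeg

variable {A : Type*} [AddCommGroup A] {d : A → ℤ}
  (hpar : ∀ a b : A, d (a + b) + d (a - b) = 2 * d a + 2 * d b)

include hpar

/-- `d` on a sum of three elements -/
theorem d_add_three (u v w : A) :
    d (u + v + w) = d u + d v + d w + polarZ d u v + polarZ d u w + polarZ d v w := by
  rw [d_add (d := d) (u + v) w, d_add (d := d) u v, polarZ_add_left hpar]
  ring

/-- a ternary quadratic form -/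
theorem d_zsmul_three (a b c : ℤ) (x y z : A) :
    d (a • x + b • y + c • z) = a ^ 2 * d x + b ^ 2 * d y + c ^ 2 * d z
      + a * b * polarZ d x y + a * c * polarZ d x z + b * c * polarZ d y z := by
  rw [d_add_three hpar, d_zsmul hpar, d_zsmul hpar, d_zsmul hpar,
    polarZ_zsmul_left hpar, polarZ_zsmul_right hpar, polarZ_zsmul_left hpar,
    polarZ_zsmul_right hpar, polarZ_zsmul_left hpar, polarZ_zsmul_right hpar]
  ring

theorem polarZ_eq_of_sub (x y : A) : polarZ d x y = d x + d y - d (x - y) := by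
  have h := hpar x y
  unfold polarZ
  linarith

variable (φ : A →+ A) (l : ℤ) (hφ : ∀ R : A, d (φ R) = l * d R)

include hφ in
omit hpar in
theorem polarZ_map (x y : A) : polarZ d (φ x) (φ y) = l * polarZ d x y := by
  unfold polarZ
  rw [← map_add, hφ, hφ, hφ]
  ring

include hφ in
/-- **(CH), additive shape.**  With `a = l + 1 - N1`, the point
`φ² P0 - a φ P0 + l P0` has degree `0`. -/
theorem d_frob_quadratic_eq_zero (P0 : A) (hP0 : d P0 = 1) (N1 : ℤ)
    (h1 : d (P0 - φ P0) = N1)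
    (h2 : d (P0 - φ (φ P0)) = N1 * d (P0 + φ P0)) :
    d (φ (φ P0) - (l + 1 - N1) • φ P0 + l • P0) = 0 := by
  -- the three pairings
  have hB1 : polarZ d P0 (φ P0) = l + 1 - N1 := by
    rw [polarZ_eq_of_sub hpar, hφ, hP0, h1]; ring
  have hNp : d (P0 + φ P0) = 1 + l + (l + 1 - N1) := by
    rw [d_add (d := d), hφ, hP0, hB1]; ring
  have hB2 : polarZ d P0 (φ (φ P0)) = (l + 1 - N1) ^ 2 - 2 * l := by
    rw [polarZ_eq_of_sub hpar, hφ, hφ, hP0, h2, hNp]; ring
  have hB3 : polarZ d (φ P0) (φ (φ P0)) = l * (l + 1 - N1) := by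
    rw [polarZ_map φ l hφ, hB1]
  have hrw : φ (φ P0) - (l + 1 - N1) • φ P0 + l • P0
      = (1 : ℤ) • φ (φ P0) + (-(l + 1 - N1)) • φ P0 + l • P0 := by
    rw [one_smul, neg_smul, sub_eq_add_neg]
  rw [hrw, d_zsmul_three hpar, hφ, hφ, hP0, polarZ_comm (φ (φ P0)) (φ P0), hB3,
    polarZ_comm (φ (φ P0)) P0, hB2, polarZ_comm (φ P0) P0, hB1]
  ring

include hφ in
/-- the pairing `<P0, φ P0>` is the trace `a = l + 1 - N1`, and `d (P0 + φ P0) = l + 1 + a` -/
theorem d_add_frob (P0 : A) (hP0 : d P0 = 1) (N1 : ℤ) (h1 : d (P0 - φ P0) = N1) :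
    d (P0 + φ P0) = 2 * l + 2 - N1 := by
  have h := hpar P0 (φ P0)
  rw [hφ, hP0, h1] at h
  linarith

include hφ in
/-- the degree of `m P0 + n φ P0` -/
theorem d_zsmul_add_zsmul_frob (P0 : A) (hP0 : d P0 = 1) (N1 : ℤ) (h1 : d (P0 - φ P0) = N1)
    (m n : ℤ) :
    d (m • P0 + n • φ P0) = m ^ 2 + m * n * (l + 1 - N1) + n ^ 2 * l := by
  have hB1 : polarZ d P0 (φ P0) = l + 1 - N1 := by
    rw [polarZ_eq_of_sub hpar, hφ, hP0, h1]; ring
  rw [d_zsmul_add_zsmul hpar, hφ, hP0, hB1]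
  ring

end Fermat.Agent.GE.QuadFormFrob
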