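import Mathlib
import Fermat.Agent.GE.FrobSpec
import Fermat.Agent.GE.QuadFormFrob

/-!
# EC-FROB node E5, abstract part

* `card_ker_one_sub_comp` : for an endomorphism `φ` of an abelian group with `1 - φ` surjective,
  `#ker(1 - φ²) = #ker(1 - φ) · #ker(1 + φ)`;
* `card_ker_one_sub_frobPt` : the fixed points of Frobenius on `E(k)` are the `F`-rational points:
  `#ker(1 - φ) = #E(F)`;
* `frob_quadratic_of_gates` : the Frobenius relation `φ² - (q + 1 - #E(F)) φ + q = 0` on `E(k)` from
  the degree package (`d` with the parallelogram law on a group `Γ ∋ P₀`, the three counts, and the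
  specialisation gate).
-/

set_option autoImplicit false

namespace Fermat.Agent.GE.FrobFinal

open WeierstrassCurve WeierstrassCurve.Affine Fermat.Agent.GE.FrobSpec

section Group

variable {G : Type*} [AddCommGroup G]

/-- `#ker(1 - φ²) = #ker(1 - φ) · #ker(1 + φ)` when `1 - φ` is surjective. -/
theorem card_ker_one_sub_comp (φ : G →+ G)
    (hsurj : Function.Surjective (AddMonoidHom.id G - φ)) :
    Nat.card (AddMonoidHom.id G - φ.comp φ).ker =
      Nat.card (AddMonoidHom.id G - φ).ker * Nat.card (AddMonoidHom.id G + φ).ker := by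
  set α : G →+ G := AddMonoidHom.id G - φ with hα
  set β : G →+ G := AddMonoidHom.id G + φ with hβ
  set γ : G →+ G := AddMonoidHom.id G - φ.comp φ with hγ
  have hβα : ∀ x, β (α x) = γ x := by
    intro x
    simp only [hα, hβ, hγ, AddMonoidHom.sub_apply, AddMonoidHom.add_apply, AddMonoidHom.id_apply,
      AddMonoidHom.comp_apply, map_sub]
    abel
  -- the restriction of `α` to `ker γ → ker β`
  let r : γ.ker →+ β.ker :=
    { toFun := fun x => ⟨α x, by rw [AddMonoidHom.mem_ker, hβα]; exact x.2⟩
      map_zero' := by ext; simp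
      map_add' := fun x y => by ext; simp }
  have hr : Function.Surjective r := by
    rintro ⟨y, hy⟩
    obtain ⟨x, hx⟩ := hsurj y
    have hxγ : x ∈ γ.ker := by
      rw [AddMonoidHom.mem_ker, ← hβα]
      change β ((AddMonoidHom.id G - φ) x) = 0
      rw [hx]; exact hy
    exact ⟨⟨x, hxγ⟩, Subtype.ext hx⟩
  have e1 : (γ.ker ⧸ r.ker) ≃ β.ker :=
    (QuotientAddGroup.quotientKerEquivOfSurjective r hr).toEquiv
  have e2 : r.ker ≃ α.ker :=
    { toFun := fun x => ⟨x.1.1, by
        have := x.2
        rw [AddMonoidHom.mem_ker] at this ⊢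
        exact congrArg Subtype.val this⟩
      invFun := fun x => ⟨⟨x.1, by
        rw [AddMonoidHom.mem_ker, ← hβα]
        have := x.2
        rw [AddMonoidHom.mem_ker] at this
        rw [this, map_zero]⟩, by
        rw [AddMonoidHom.mem_ker]
        ext
        exact x.2⟩
      left_inv := fun x => rfl
      right_inv := fun x => rfl }
  rw [AddSubgroup.card_eq_card_quotient_mul_card_addSubgroup r.ker, Nat.card_congr e1,
    Nat.card_congr e2, mul_comm]

end Group


section Fixed

variable (F : Type*) [Field F] [Fintype F] (W₀ : Affine F)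
variable (k : Type*) [Field k] [Algebra F k] [DecidableEq k]

omit [DecidableEq k] in
/-- the elements of an extension field fixed by the `#F`-power map are the elements of `F` -/
theorem exists_algebraMap_eq_of_pow_card_eq {x : k} (hx : x ^ Fintype.card F = x) :
    ∃ a : F, algebraMap F k a = x := by
  classical
  set q := Fintype.card F with hq
  have hq1 : 1 < q := Fintype.one_lt_card
  set p : Polynomial k := Polynomial.X ^ q - Polynomial.X with hp
  have hp0 : p ≠ 0 := FiniteField.X_pow_card_sub_X_ne_zero k hq1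
  have hdeg : p.natDegree = q := FiniteField.X_pow_card_sub_X_natDegree_eq k hq1
  have hroot : ∀ z : k, z ∈ p.roots.toFinset ↔ z ^ q = z := by
    intro z
    rw [Multiset.mem_toFinset, Polynomial.mem_roots hp0, Polynomial.IsRoot.def, hp,
      Polynomial.eval_sub, Polynomial.eval_pow, Polynomial.eval_X, sub_eq_zero]
  set S : Finset k := Finset.univ.image (algebraMap F k) with hS
  have hScard : S.card = q := by
    rw [hS, Finset.card_image_of_injective _ (algebraMap F k).injective, Finset.card_univ]
  have hsub : S ⊆ p.roots.toFinset := by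
    intro z hz
    rw [hS, Finset.mem_image] at hz
    obtain ⟨a, -, rfl⟩ := hz
    rw [hroot, ← map_pow, FiniteField.pow_card]
  have hle : p.roots.toFinset.card ≤ S.card := by
    rw [hScard]
    calc p.roots.toFinset.card ≤ Multiset.card p.roots := Multiset.toFinset_card_le _
      _ ≤ p.natDegree := Polynomial.card_roots' p
      _ = q := hdeg
  have heq : S = p.roots.toFinset := Finset.eq_of_subset_of_card_le hsub hle
  have hxS : x ∈ S := by rw [heq, hroot]; exact hx
  rw [hS, Finset.mem_image] at hxS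
  obtain ⟨a, -, ha⟩ := hxS
  exact ⟨a, ha⟩

/-- the inclusion `E(F) → E(k)` on points -/
noncomputable def toExt : W₀.Point → (W₀⁄k).Point
  | .zero => 0
  | .some x y h => .some (algebraMap F k x) (algebraMap F k y)
      ((Affine.map_nonsingular (W := W₀) (algebraMap F k).injective x y).mpr h)

omit [Fintype F] [DecidableEq k] in
theorem toExt_injective : Function.Injective (toExt F W₀ k) := by
  rintro (_ | ⟨x, y, h⟩) (_ | ⟨x', y', h'⟩) hPQ
  · rfl
  · exact absurd hPQ.symm (Point.some_ne_zero _)
  · exact absurd hPQ (Point.some_ne_zero _)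
  · simp only [toExt] at hPQ
    injection hPQ with hx hy
    have hx := (algebraMap F k).injective hx
    have hy := (algebraMap F k).injective hy
    subst hx; subst hy; rfl

theorem toExt_mem_ker (P : W₀.Point) :
    toExt F W₀ k P ∈ (AddMonoidHom.id (W₀⁄k).Point - frobPt F k).ker := by
  rw [AddMonoidHom.mem_ker, AddMonoidHom.sub_apply, AddMonoidHom.id_apply, sub_eq_zero]
  rcases P with _ | ⟨x, y, h⟩
  · rfl
  · obtain ⟨h', e⟩ := frobPt_some F (W₀ := W₀)
      ((Affine.map_nonsingular (W := W₀) (algebraMap F k).injective x y).mpr h)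
    simp only [toExt]
    rw [e]
    exact (RedHom.some_congr (by rw [← map_pow, FiniteField.pow_card])
      (by rw [← map_pow, FiniteField.pow_card]) _ _).symm

theorem exists_toExt_eq_of_mem_ker {T : (W₀⁄k).Point}
    (hT : T ∈ (AddMonoidHom.id (W₀⁄k).Point - frobPt F k).ker) : ∃ P, toExt F W₀ k P = T := by
  rw [AddMonoidHom.mem_ker, AddMonoidHom.sub_apply, AddMonoidHom.id_apply, sub_eq_zero] at hT
  rcases T with _ | ⟨x, y, h⟩
  · exact ⟨0, rfl⟩
  · obtain ⟨h', e⟩ := frobPt_some F (W₀ := W₀) h
    rw [e] at hT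
    injection hT with hx hy
    obtain ⟨a, rfl⟩ := exists_algebraMap_eq_of_pow_card_eq F k hx.symm
    obtain ⟨b, rfl⟩ := exists_algebraMap_eq_of_pow_card_eq F k hy.symm
    have hab : W₀.Nonsingular a b :=
      (Affine.map_nonsingular (W := W₀) (algebraMap F k).injective a b).mp h
    exact ⟨Point.some a b hab, rfl⟩

/-- **The fixed points of Frobenius are the rational points**: `#ker(1 - φ) = #E(F)`. -/
theorem card_ker_one_sub_frobPt :
    Nat.card (AddMonoidHom.id (W₀⁄k).Point - frobPt F k).ker = Nat.card W₀.Point := by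
  symm
  refine Nat.card_congr (Equiv.ofBijective
    (fun P => (⟨toExt F W₀ k P, toExt_mem_ker F W₀ k P⟩ :
      (AddMonoidHom.id (W₀⁄k).Point - frobPt F k).ker)) ⟨?_, ?_⟩)
  · intro P Q hPQ
    exact toExt_injective F W₀ k (congrArg Subtype.val hPQ)
  · rintro ⟨T, hT⟩
    obtain ⟨P, hP⟩ := exists_toExt_eq_of_mem_ker F W₀ k hT
    exact ⟨P, Subtype.ext hP⟩

end Fixed


section Gates

variable (F : Type*) [Field F] [Fintype F] (W₀ : Affine F)
variable (k : Type*) [Field k] [Algebra F k] [DecidableEq k]

/-- **EC-FROB-0 from the degree package.**  `Γ` is the group of anti-invariant points of `E` over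
the function field, `d` the `x`-degree, `Φ` the Frobenius on `Γ`, `P₀` the generic point. Inputs:
the parallelogram law, `d ∘ Φ = q d`, `d P₀ = 1`, the three counts `d((1 ∓ Φ)P₀) = #ker(1 ∓ φ)`,
`d((1 - Φ²)P₀) = #ker(1 - φ²)`, surjectivity of `1 - φ` on `E(k)`, and the specialisation gate
(a relation of degree `0` at the generic point holds at every point of `E(k)`). -/
theorem frob_quadratic_of_gates {Γ : Type*} [AddCommGroup Γ] (d : Γ → ℤ)
    (hpar : ∀ a b : Γ, d (a + b) + d (a - b) = 2 * d a + 2 * d b)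
    (Φ : Γ →+ Γ) (hΦ : ∀ R, d (Φ R) = (Fintype.card F : ℤ) * d R)
    (P₀ : Γ) (hP₀ : d P₀ = 1)
    (h1 : d (P₀ - Φ P₀) = Nat.card (AddMonoidHom.id (W₀⁄k).Point - frobPt F k (W₀ := W₀)).ker)
    (h2 : d (P₀ + Φ P₀) = Nat.card (AddMonoidHom.id (W₀⁄k).Point + frobPt F k (W₀ := W₀)).ker)
    (h3 : d (P₀ - Φ (Φ P₀)) =
      Nat.card (AddMonoidHom.id (W₀⁄k).Point - (frobPt F k (W₀ := W₀)).comp (frobPt F k (W₀ := W₀))).ker)
    (hsurj : Function.Surjective (AddMonoidHom.id (W₀⁄k).Point - frobPt F k (W₀ := W₀)))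
    (hspec : ∀ a b : ℤ, d (Φ (Φ P₀) - a • Φ P₀ + b • P₀) = 0 →
      ∀ T : (W₀⁄k).Point, frobPt F k (frobPt F k T) - a • frobPt F k T + b • T = 0)
    (T : (W₀⁄k).Point) :
    frobPt F k (frobPt F k T) -
        ((Fintype.card F : ℤ) + 1 - (Nat.card W₀.Point : ℤ)) • frobPt F k T +
      (Fintype.card F : ℤ) • T = 0 := by
  have hN1 := card_ker_one_sub_frobPt F W₀ k
  have hprod := card_ker_one_sub_comp (frobPt F k (W₀ := W₀)) hsurj
  refine hspec _ _ ?_ T
  refine QuadFormFrob.d_frob_quadratic_eq_zero hpar Φ (Fintype.card F : ℤ) hΦ P₀ hP₀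
    (Nat.card W₀.Point : ℤ) ?_ ?_
  · rw [h1, hN1]
  · rw [h3, hprod, h2, hN1]
    push_cast
    ring


variable {k} in
/-- **Descent**: a Frobenius relation valid on `E(k)` holds on `E(L)` for every subfield `L`. -/
theorem relation_of_algHom {L : Type*} [Field L] [Algebra F L] [DecidableEq L] (g : L →ₐ[F] k)
    (a b : ℤ)
    (h : ∀ T : (W₀⁄k).Point, frobPt F k (frobPt F k T) - a • frobPt F k T + b • T = 0)
    (P : (W₀⁄L).Point) : frobPt F L (frobPt F L P) - a • frobPt F L P + b • P = 0 := by
  apply Point.map_injective (W' := W₀) g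
  rw [map_add, map_sub, map_zsmul, map_zsmul, ← frobPt_map, ← frobPt_map, Point.map_zero]
  exact h _

end Gates

end Fermat.Agent.GE.FrobFinal
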