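import Mathlib
import Fermat.Agent.GE.FrobSpec
import Fermat.Agent.GE.CountAbs
import Fermat.Agent.GE.FF.PlacesAbs

/-!
# EC-FROB node E5, the specialisation gate (model-free)

`F` a finite field, `W₀` an elliptic curve over `F`, `k ⊇ F` algebraically closed, `K ⊇ k` any field
containing a point `P₀ = (t, y)` of `E` with `t` transcendental over `k` (a generic point).

* `exists_map_eq_some_of_x` (CONST): a point of `E(K)` whose `x`-coordinate lies in `k` is a constant
  point (comes from `E(k)`);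
* `relation_at_some` : a relation `Φ²P₀ - a ΦP₀ + b P₀ = (constant point R₀)` at the generic point
  specialises to `φ²T - a φT + b T = R₀` at every affine point `T ∈ E(k)`;
* `relation_of_generic` (GATE): hence `φ² - a φ + b = 0` on all of `E(k)`.
-/

set_option autoImplicit false

namespace Fermat.Agent.GE.FrobGate

open WeierstrassCurve WeierstrassCurve.Affine Fermat.Agent.GE.RedHom Fermat.Agent.GE.FrobSpec

section Const

variable (F : Type*) [Field F] (W₀ : Affine F)
variable {k : Type*} [Field k] [Algebra F k] [IsAlgClosed k] [DecidableEq k]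
variable {K : Type*} [Field K] [Algebra F K] [Algebra k K] [IsScalarTower F k K] [DecidableEq K]

omit [DecidableEq k] [DecidableEq K] in
/-- an element of an extension of an algebraically closed field which is integral over it lies in
it -/
theorem exists_algebraMap_eq_of_isIntegral {y : K} (hy : IsIntegral k y) :
    ∃ r : k, algebraMap k K r = y := by
  have h1 : (minpoly k y).degree = 1 :=
    IsAlgClosed.degree_eq_one_of_irreducible k (minpoly.irreducible hy)
  exact minpoly.mem_range_of_degree_eq_one k y h1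

/-- **CONST**: a point of `E(K)` with `x`-coordinate in the algebraically closed field `k` is a
constant point. -/
theorem exists_map_eq_some_of_x {x y : K} (h : (W₀⁄K).Nonsingular x y) {c : k}
    (hx : x = algebraMap k K c) :
    ∃ R₀ : (W₀⁄k).Point,
      Point.map (W' := W₀) (IsScalarTower.toAlgHom F k K) R₀ = Point.some x y h := by
  have heq := ((W₀⁄K).equation_iff x y).mp h.1
  have e1 : (W₀⁄K).a₁ = algebraMap k K (W₀⁄k).a₁ := IsScalarTower.algebraMap_apply F k K _
  have e2 : (W₀⁄K).a₂ = algebraMap k K (W₀⁄k).a₂ := IsScalarTower.algebraMap_apply F k K _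
  have e3 : (W₀⁄K).a₃ = algebraMap k K (W₀⁄k).a₃ := IsScalarTower.algebraMap_apply F k K _
  have e4 : (W₀⁄K).a₄ = algebraMap k K (W₀⁄k).a₄ := IsScalarTower.algebraMap_apply F k K _
  have e6 : (W₀⁄K).a₆ = algebraMap k K (W₀⁄k).a₆ := IsScalarTower.algebraMap_apply F k K _
  have hint : IsIntegral k y := by
    refine ⟨Polynomial.X ^ 2 + (Polynomial.C ((W₀⁄k).a₁ * c + (W₀⁄k).a₃) * Polynomial.X
      + Polynomial.C (-(c ^ 3 + (W₀⁄k).a₂ * c ^ 2 + (W₀⁄k).a₄ * c + (W₀⁄k).a₆))), ?_, ?_⟩
    · exact Polynomial.monic_X_pow_add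
        (lt_of_le_of_lt Polynomial.degree_linear_le (by norm_num))
    · simp only [Polynomial.eval₂_add, Polynomial.eval₂_mul, Polynomial.eval₂_pow,
        Polynomial.eval₂_X, Polynomial.eval₂_C]
      simp only [map_add, map_mul, map_neg, map_pow]
      rw [← e1, ← e2, ← e3, ← e4, ← e6, ← hx]
      linear_combination heq
  obtain ⟨r, rfl⟩ := exists_algebraMap_eq_of_isIntegral hint
  subst hx
  have h' : (W₀⁄k).Nonsingular c r :=
    (W₀.baseChange_nonsingular (f := IsScalarTower.toAlgHom F k K)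
      (IsScalarTower.toAlgHom F k K).injective c r).mp h
  exact ⟨Point.some c r h', rfl⟩

end Const

section Gate

variable (F : Type*) [Field F] [Fintype F] (W₀ : Affine F)
variable {k : Type*} [Field k] [Algebra F k] [DecidableEq k]
variable {K : Type*} [Field K] [Algebra F K] [Algebra k K] [IsScalarTower F k K] [DecidableEq K]

omit [Fintype F] [DecidableEq k] [DecidableEq K] in
theorem baseChange_baseChange_eq : (W₀⁄k)⁄K = W₀⁄K := by
  show W₀.map ((algebraMap k K).comp (algebraMap F k)) = W₀.map (algebraMap F K)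
  rw [← IsScalarTower.algebraMap_eq]

/-- **Specialisation at an affine point.**  A relation `Φ²P₀ - a ΦP₀ + b P₀ = R₀` (`R₀` constant)
at a generic point `P₀ = (t, y)` gives `φ²T - a φT + b T = R₀` at every affine `T ∈ E(k)`. -/
theorem relation_at_some (hΔ : W₀.Δ ≠ 0) {t y : K} (ht : Transcendental k t)
    (h₀ : (W₀⁄K).Nonsingular t y) (R₀ : (W₀⁄k).Point) (a b : ℤ)
    (hrel : frobPt F K (frobPt F K (Point.some t y h₀)) - a • frobPt F K (Point.some t y h₀) +
        b • Point.some t y h₀ = Point.map (W' := W₀) (IsScalarTower.toAlgHom F k K) R₀)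
    {c y₁ : k} (h₁ : (W₀⁄k).Nonsingular c y₁) :
    frobPt F k (frobPt F k (Point.some c y₁ h₁)) - a • frobPt F k (Point.some c y₁ h₁) +
      b • Point.some c y₁ h₁ = R₀ := by
  have hE : ((W₀⁄k)⁄K).Equation t y := by
    rw [baseChange_baseChange_eq]; exact h₀.1
  obtain ⟨A, hA⟩ := FF.PlacesAbs.exists_place_affine (W₀⁄k) t y hE ht h₁.1
  let _ : Algebra k A :=
    ((algebraMap k K).codRestrict A (fun a => hA.algebraMap_mem a)).toAlgebra
  have _ : IsScalarTower k A K := IsScalarTower.of_algebraMap_eq (fun _ => rfl)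
  let _ : Algebra F A := ((algebraMap k A).comp (algebraMap F k)).toAlgebra
  have _ : IsScalarTower F k A := IsScalarTower.of_algebraMap_eq (fun _ => rfl)
  have _ : IsScalarTower F A K := IsScalarTower.of_algebraMap_eq (fun x => by
    rw [IsScalarTower.algebraMap_apply F k K]; rfl)
  classical
  have hΔ' : (W₀.baseChange (IsLocalRing.ResidueField A)).Δ ≠ 0 := by
    show (W₀.map (algebraMap F (IsLocalRing.ResidueField A))).Δ ≠ 0
    rw [WeierstrassCurve.map_Δ]
    exact (map_ne_zero_iff _ (algebraMap F (IsLocalRing.ResidueField A)).injective).mpr hΔ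
  have hred := red_some_of_sub_mem F W₀ A hΔ' h₀ h₁ hA.t_sub_mem_nonunits hA.y_sub_mem_nonunits
  exact specialize_relation F W₀ A hΔ' hred R₀ a b hrel

/-- **The specialisation gate.**  `k` algebraically closed.  A relation
`Φ²P₀ - a ΦP₀ + b P₀ = (constant point)` at a generic point `P₀ = (t, y)` of `E(K)` forces
`φ² - a φ + b = 0` on `E(k)`. -/
theorem relation_of_generic [IsAlgClosed k] [W₀.IsElliptic] {t y : K} (ht : Transcendental k t)
    (h₀ : (W₀⁄K).Nonsingular t y) (R₀ : (W₀⁄k).Point) (a b : ℤ)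
    (hrel : frobPt F K (frobPt F K (Point.some t y h₀)) - a • frobPt F K (Point.some t y h₀) +
        b • Point.some t y h₀ = Point.map (W' := W₀) (IsScalarTower.toAlgHom F k K) R₀)
    (T : (W₀⁄k).Point) :
    frobPt F k (frobPt F k T) - a • frobPt F k T + b • T = 0 := by
  have hΔ : W₀.Δ ≠ 0 := W₀.isUnit_Δ.ne_zero
  have : (W₀⁄k).IsElliptic := inferInstanceAs ((W₀.map (algebraMap F k)).IsElliptic)
  -- the endomorphism `ψ = φ² - a φ + b`
  set ψ : (W₀⁄k).Point →+ (W₀⁄k).Point :=
    (frobPt F k).comp (frobPt F k) - a • frobPt F k + b • AddMonoidHom.id _ with hψdef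
  have hψ : ∀ T, ψ T = frobPt F k (frobPt F k T) - a • frobPt F k T + b • T := fun T => by
    simp only [hψdef, AddMonoidHom.add_apply, AddMonoidHom.sub_apply, AddMonoidHom.comp_apply,
      AddMonoidHom.smul_apply, AddMonoidHom.id_apply]
  have haff : ∀ (c y₁ : k) (h₁ : (W₀⁄k).Nonsingular c y₁), ψ (Point.some c y₁ h₁) = R₀ :=
    fun c y₁ h₁ => by
      rw [hψ]; exact relation_at_some F W₀ hΔ ht h₀ R₀ a b hrel h₁
  -- an affine point `T₁` with `2 T₁ ≠ 0`
  have hΨ : (W₀⁄k).Ψ₂Sq ≠ 0 := CountAbs.Ψ₂Sq_ne_zero_of_isElliptic (W₀⁄k)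
  obtain ⟨c, hc⟩ := Infinite.exists_notMem_finset ((W₀⁄k).Ψ₂Sq.roots.toFinset)
  obtain ⟨y₁, h₁⟩ := CountAbs.exists_point_of_x (W₀⁄k) c
  have hne : Point.some c y₁ h₁ + Point.some c y₁ h₁ ≠ 0 := by
    intro h
    apply hc
    rw [Multiset.mem_toFinset, Polynomial.mem_roots hΨ]
    exact CountAbs.eval_Ψ₂Sq_eq_zero_of_eq_neg h₁ (add_eq_zero_iff_eq_neg.mp h)
  have hR₀ : R₀ = 0 := by
    have h2 : ψ (Point.some c y₁ h₁ + Point.some c y₁ h₁) = R₀ := by
      rcases hTT : Point.some c y₁ h₁ + Point.some c y₁ h₁ with _ | ⟨x2, y2, h2⟩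
      · exact absurd hTT hne
      · exact haff x2 y2 h2
    rw [map_add, haff] at h2
    exact left_eq_add.mp h2.symm |> fun h => h
  rw [← hψ]
  rcases T with _ | ⟨c', y', h'⟩
  · exact map_zero ψ
  · rw [haff, hR₀]

end Gate

end Fermat.Agent.GE.FrobGate
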