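import Mathlib
import Fermat.Agent.GE.FrobFinal
import Fermat.Agent.GE.FrobGate
import Fermat.Agent.GE.FF.GammaDeg
import Fermat.Agent.GE.Count.Global
import Fermat.Agent.GE.CountSurj

/-!
# EC-FROB node E5: final glue

`l` prime, `V` an elliptic curve over `ZMod l`, `κ ⊇ ZMod l` algebraically closed, `K V κ` the
function field of `V` over `κ` (helper70), `Gamma V κ` the anti-invariant points with the
`x`-degree `dΓ` (helper10).

* `frobPt_eq_map_frobK` : the abstract Frobenius `FrobSpec.frobPt` on `E(K V κ)` is `Point.map frobK`;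
* `exists_constPt_of_dG_eq_zero` : a point of `Gamma` of degree `0` is a constant point;
* `spec_gate` : the hypothesis `hspec` of `FrobFinal.frob_quadratic_of_gates` for `Gamma V κ`;
* `frob_relation_of_counts` : EC-FROB-0 over `κ` from the three counts and surjectivity of `1 - φ`.
-/

set_option autoImplicit false

namespace Fermat.Agent.GE.FrobMain

open WeierstrassCurve WeierstrassCurve.Affine
open Fermat.Agent.GE.FrobSpec Fermat.Agent.GE.FF Fermat.Agent.GE.FF.GammaDeg
open Fermat.Agent.GE.RatHeight Fermat.Agent.GE.RatFuncDeg Fermat.Agent.GE.Count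

universe u v

section Const

variable {F0 : Type u} [Field F0] (W : Affine F0) [W.IsElliptic] (k : Type v) [Field k]
  [Algebra F0 k] [IsAlgClosed k] [DecidableEq k]

/-- a point of `Gamma` of `x`-degree `0` is a constant point -/
theorem exists_constPt_of_dG_eq_zero {R : (W⁄(K W k)).Point} (hR : R ∈ Gamma W k)
    (h0 : dG W k R = 0) : ∃ T : (W⁄k).Point, constPt W k T = R := by
  rcases R with _ | ⟨x, y, h⟩
  · exact ⟨0, map_zero _⟩
  · obtain ⟨r, hr⟩ := x_mem_range_of_mem_Gamma W k h hR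
    rw [dG_some W k h hr, rdeg_eq_zero_iff] at h0
    obtain ⟨c, hc⟩ := h0
    rw [cK_eq_algebraMap] at hc
    have hx : x = algebraMap k (K W k) c := by
      rw [← hr, hc, ← IsScalarTower.algebraMap_apply]
    exact FrobGate.exists_map_eq_some_of_x F0 W h hx

end Const

section Main

variable (l : ℕ) [Fact l.Prime] (V : Affine (ZMod l)) [V.IsElliptic] (κ : Type v) [Field κ]
  [Algebra (ZMod l) κ] [DecidableEq κ]

omit [V.IsElliptic] [DecidableEq κ] in
theorem frobeniusAlgHom_eq_frobK :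
    FiniteField.frobeniusAlgHom (ZMod l) (K V κ) = frobK l V κ := by
  ext z
  rw [FiniteField.frobeniusAlgHom_apply, frobK_apply, ZMod.card]

omit [V.IsElliptic] [DecidableEq κ] in
/-- the abstract Frobenius on `E(K V κ)` is `Point.map frobK` -/
theorem frobPt_eq_map_frobK :
    frobPt (ZMod l) (K V κ) (W₀ := V) = Point.map (W' := V) (frobK l V κ) := by
  unfold frobPt
  rw [frobeniusAlgHom_eq_frobK]

variable [IsAlgClosed κ]

/-- **The specialisation gate on `Gamma V κ`.** -/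
theorem spec_gate (a b : ℤ)
    (h0 : dΓ V κ (frobΓ l V κ (frobΓ l V κ (P0Γ V κ)) - a • frobΓ l V κ (P0Γ V κ) +
      b • P0Γ V κ) = 0) (T : (V⁄κ).Point) :
    frobPt (ZMod l) κ (frobPt (ZMod l) κ T) - a • frobPt (ZMod l) κ T + b • T = 0 := by
  set Q : Gamma V κ := frobΓ l V κ (frobΓ l V κ (P0Γ V κ)) - a • frobΓ l V κ (P0Γ V κ) +
      b • P0Γ V κ with hQ
  have h0' : dG V κ Q.1 = 0 := by
    unfold dΓ at h0
    exact_mod_cast h0
  obtain ⟨R₀, hR₀⟩ := exists_constPt_of_dG_eq_zero V κ Q.2 h0'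
  refine FrobGate.relation_of_generic (ZMod l) V (transcendental_tK V κ) (nonsingular_gen V κ)
    R₀ a b ?_ T
  rw [frobPt_eq_map_frobK]
  have hQ1 : Q.1 = Point.map (W' := V) (frobK l V κ) (Point.map (W' := V) (frobK l V κ) (P0 V κ))
      - a • Point.map (W' := V) (frobK l V κ) (P0 V κ) + b • P0 V κ := by
    rw [hQ]
    rfl
  have key : Point.map (W' := V) (frobK l V κ) (Point.map (W' := V) (frobK l V κ) (P0 V κ))
      - a • Point.map (W' := V) (frobK l V κ) (P0 V κ) + b • P0 V κ = constPt V κ R₀ := by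
    rw [hR₀, hQ1]
  exact key

/-- **EC-FROB-0 over an algebraically closed field**, from the three counts and the surjectivity
of `1 - φ`. -/
theorem frob_relation_of_counts
    (h1 : dΓ V κ (P0Γ V κ - frobΓ l V κ (P0Γ V κ)) =
      Nat.card (AddMonoidHom.id (V⁄κ).Point - frobPt (ZMod l) κ (W₀ := V)).ker)
    (h2 : dΓ V κ (P0Γ V κ + frobΓ l V κ (P0Γ V κ)) =
      Nat.card (AddMonoidHom.id (V⁄κ).Point + frobPt (ZMod l) κ (W₀ := V)).ker)
    (h3 : dΓ V κ (P0Γ V κ - frobΓ l V κ (frobΓ l V κ (P0Γ V κ))) =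
      Nat.card (AddMonoidHom.id (V⁄κ).Point -
        (frobPt (ZMod l) κ (W₀ := V)).comp (frobPt (ZMod l) κ (W₀ := V))).ker)
    (hsurj : Function.Surjective (AddMonoidHom.id (V⁄κ).Point - frobPt (ZMod l) κ (W₀ := V)))
    (T : (V⁄κ).Point) :
    frobPt (ZMod l) κ (frobPt (ZMod l) κ T) -
        ((l : ℤ) + 1 - (Nat.card V.Point : ℤ)) • frobPt (ZMod l) κ T + (l : ℤ) • T = 0 := by
  have hcard : (Fintype.card (ZMod l) : ℤ) = (l : ℤ) := by rw [ZMod.card]
  have := FrobFinal.frob_quadratic_of_gates (ZMod l) V κ (dΓ V κ) (dΓ_par V κ) (frobΓ l V κ)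
    (fun R => by rw [hcard]; exact dΓ_frobΓ l V κ R) (P0Γ V κ) (dΓ_P0Γ V κ) h1 h2 h3 hsurj
    (fun a b h0 T => spec_gate l V κ a b h0 T) T
  rw [hcard] at this
  exact this

/-! ### The counts, from helper70's `Count/Global.card_ker_betak` -/

omit [V.IsElliptic] [DecidableEq κ] [IsAlgClosed κ] in
theorem frobAlg_eq : frobAlg l κ = FiniteField.frobeniusAlgHom (ZMod l) κ := by
  ext z
  rw [FiniteField.frobeniusAlgHom_apply, frobAlg_apply, ZMod.card]

omit [V.IsElliptic] [IsAlgClosed κ] in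
theorem phik_one : phik l V κ 1 = frobPt (ZMod l) κ (W₀ := V) := by
  unfold phik frobPt
  rw [pow_one, frobAlg_eq]

omit [V.IsElliptic] [IsAlgClosed κ] in
theorem phik_two :
    phik l V κ 2 = (frobPt (ZMod l) κ (W₀ := V)).comp (frobPt (ZMod l) κ (W₀ := V)) := by
  ext T
  unfold phik frobPt
  rw [AddMonoidHom.comp_apply, Point.map_map, pow_two, frobAlg_eq]
  rfl

omit [V.IsElliptic] [IsAlgClosed κ] in
theorem betak_neg_one_one :
    betak l V κ (-1) 1 = AddMonoidHom.id (V⁄κ).Point - frobPt (ZMod l) κ (W₀ := V) := by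
  unfold betak
  rw [phik_one, neg_one_zsmul, sub_eq_add_neg]

omit [V.IsElliptic] [IsAlgClosed κ] in
theorem betak_one_one :
    betak l V κ 1 1 = AddMonoidHom.id (V⁄κ).Point + frobPt (ZMod l) κ (W₀ := V) := by
  unfold betak
  rw [phik_one, one_zsmul]

omit [V.IsElliptic] [IsAlgClosed κ] in
theorem betak_neg_one_two :
    betak l V κ (-1) 2 = AddMonoidHom.id (V⁄κ).Point -
      (frobPt (ZMod l) κ (W₀ := V)).comp (frobPt (ZMod l) κ (W₀ := V)) := by
  unfold betak
  rw [phik_two, neg_one_zsmul, sub_eq_add_neg]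

/-- `d(β P0) = #ker β` for `β = 1 + ε φʲ`. -/
theorem dG_betaK_P0 (ε : ℤˣ) (j : ℕ) (hj : 0 < j) :
    dG V κ (betaK l V κ (ε : ℤ) j (P0 V κ)) = Nat.card (betak l V κ (ε : ℤ) j).ker := by
  obtain ⟨r, y₃, h₃, e, -, hcard⟩ := card_ker_betak l V κ ε j hj
  rw [e, dG_some V κ h₃ rfl, rdeg_ratFunc, hcard]

/-- `1 + ε φʲ` is surjective on `E(κ)`. -/
theorem betak_surjective (ε : ℤˣ) (j : ℕ) (hj : 0 < j) :
    Function.Surjective (betak l V κ (ε : ℤ) j) := by
  obtain ⟨r, y₃, h₃, e, hdeg⟩ := exists_x_betaK_P0 l V κ ε j hj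
  exact CountSurj.surjective_of_x (V⁄κ) (betak l V κ (ε : ℤ) j) r.num r.denom
    (RatFunc.isCoprime_num_denom r) hdeg
    (fun x y h hv => (spec_betaK_P0 l V κ (ε : ℤ) j r y₃ h₃ e h).2 hv)

/-- **EC-FROB-0 over an algebraically closed field** `κ ⊇ ZMod l`:
`φ² - (l + 1 - #E(F_l)) φ + l = 0` on `E(κ)`. -/
theorem frob_relation_algClosed (T : (V⁄κ).Point) :
    frobPt (ZMod l) κ (frobPt (ZMod l) κ T) -
        ((l : ℤ) + 1 - (Nat.card V.Point : ℤ)) • frobPt (ZMod l) κ T + (l : ℤ) • T = 0 := by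
  have hm1 : ((-1 : ℤˣ) : ℤ) = -1 := rfl
  have h1u : ((1 : ℤˣ) : ℤ) = 1 := rfl
  refine frob_relation_of_counts l V κ ?_ ?_ ?_ ?_ T
  · have h := dG_betaK_P0 l V κ (-1) 1 one_pos
    rw [hm1, betak_neg_one_one] at h
    unfold dΓ
    rw [← h]
    congr 1
  · have h := dG_betaK_P0 l V κ 1 1 one_pos
    rw [h1u, betak_one_one] at h
    unfold dΓ
    rw [← h]
    congr 1
  · have h := dG_betaK_P0 l V κ (-1) 2 two_pos
    rw [hm1, betak_neg_one_two] at h
    unfold dΓ
    rw [← h]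
    congr 1
  · have h := betak_surjective l V κ (-1) 1 one_pos
    rw [hm1, betak_neg_one_one] at h
    exact h

end Main

section Descent

variable (l : ℕ) [Fact l.Prime] (V : Affine (ZMod l))

/-- **EC-FROB-0.**  `l` prime, `V` an elliptic curve over `ZMod l`, `L` ANY field over `ZMod l`
(i.e. of characteristic `l`), `φ = frobPt (ZMod l) L : (x, y) ↦ (x ^ l, y ^ l)` on `E(L)`:
`φ²P - (l + 1 - #E(F_l)) φP + l P = 0` for every `P ∈ E(L)`. -/
theorem frob_relation [V.IsElliptic] (L : Type v) [Field L] [Algebra (ZMod l) L] [DecidableEq L]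
    (P : (V⁄L).Point) :
    frobPt (ZMod l) L (frobPt (ZMod l) L P) -
        ((l : ℤ) + 1 - (Nat.card V.Point : ℤ)) • frobPt (ZMod l) L P + (l : ℤ) • P = 0 := by
  classical
  exact FrobFinal.relation_of_algHom (ZMod l) V
    (IsScalarTower.toAlgHom (ZMod l) L (AlgebraicClosure L)) _ _
    (fun T => frob_relation_algClosed l V (AlgebraicClosure L) T) P

/-- `frob_relation` with the hypothesis `Δ ≠ 0` instead of the instance `IsElliptic`. -/
theorem frob_relation' (hΔ : V.Δ ≠ 0) (L : Type v) [Field L] [Algebra (ZMod l) L] [DecidableEq L]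
    (P : (V⁄L).Point) :
    frobPt (ZMod l) L (frobPt (ZMod l) L P) -
        ((l : ℤ) + 1 - (Nat.card V.Point : ℤ)) • frobPt (ZMod l) L P + (l : ℤ) • P = 0 := by
  have : V.IsElliptic := ⟨IsUnit.mk0 _ hΔ⟩
  exact frob_relation l V L P

end Descent

end Fermat.Agent.GE.FrobMain
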