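import Mathlib.NumberTheory.ModularForms.QExpansion
import Mathlib.NumberTheory.ModularForms.CongruenceSubgroups
import Fermat.Prelude.Def_ModularForm_HeckeOperator
import Fermat.Prelude.Def_FLTPrelim_Modularity
import Fermat.Prelude.Thm_CongruenceSubgroup_one_mem_strictPeriods_Gamma0

/-!
# S58 prep (report 205 (1)): the level-raising operator `V_q` on weight-2 cusp forms

* `restrictLE` : a cusp form of level `Γ` is a cusp form of level `Γ' ≤ Γ`;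
* `toLevelMul` : `CuspForm Γ₀(M) 2 → CuspForm Γ₀(M * q) 2`, same function;
* `Vq`         : `CuspForm Γ₀(M) 2 → CuspForm Γ₀(M * q) 2`, `z ↦ g (q z)`,
  with `qCoeff (Vq g) n = if q ∣ n then qCoeff g (n / q) else 0`.
-/

set_option autoImplicit false

open UpperHalfPlane ModularForm ModularFormClass
open scoped MatrixGroups ModularForm Manifold

namespace Fermat.Agent.GE.StabV

open Matrix Matrix.SpecialLinearGroup ConjAct Pointwise

/-- The image of `Γ₀(N)` in `GL(2, ℝ)`. -/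
abbrev G0 (N : ℕ) : Subgroup (GL (Fin 2) ℝ) :=
  Subgroup.map (Matrix.SpecialLinearGroup.mapGL ℝ) (CongruenceSubgroup.Gamma0 N)

/-- A cusp form for `Γ` is a cusp form for any subgroup `Γ' ≤ Γ`. -/
def restrictLE {Γ Γ' : Subgroup (GL (Fin 2) ℝ)} (h : Γ' ≤ Γ) {k : ℤ} (f : CuspForm Γ k) :
    CuspForm Γ' k where
  toFun := f
  slash_action_eq' γ hγ := f.slash_action_eq' γ (h hγ)
  holo' := f.holo'
  zero_at_cusps' hc := f.zero_at_cusps' (hc.mono h)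

@[simp] theorem coe_restrictLE {Γ Γ' : Subgroup (GL (Fin 2) ℝ)} (h : Γ' ≤ Γ) {k : ℤ}
    (f : CuspForm Γ k) : (restrictLE h f : ℍ → ℂ) = f := rfl

theorem G0_mono {M N : ℕ} (h : M ∣ N) : G0 N ≤ G0 M := by
  rintro _ ⟨γ, hγ, rfl⟩
  refine ⟨γ, ?_, rfl⟩
  rw [SetLike.mem_coe, CongruenceSubgroup.Gamma0_mem] at hγ ⊢
  have h1 : (N : ℤ) ∣ γ 1 0 := (ZMod.intCast_zmod_eq_zero_iff_dvd _ _).mp hγ
  exact (ZMod.intCast_zmod_eq_zero_iff_dvd _ _).mpr ((Int.natCast_dvd_natCast.mpr h).trans h1)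

/-- `diag(q,1) γ = δ diag(q,1)` with `δ ∈ Γ₀(M)` for `γ ∈ Γ₀(M q)`. -/
theorem heckeDiag_mul_mem (M q : ℕ) (hq : q ≠ 0) (γ : SL(2, ℤ))
    (hγ : γ ∈ CongruenceSubgroup.Gamma0 (M * q)) :
    ∃ δ : SL(2, ℤ), δ ∈ CongruenceSubgroup.Gamma0 M ∧
      heckeDiagMatrix q * mapGL ℝ γ = mapGL ℝ δ * heckeDiagMatrix q := by
  rw [CongruenceSubgroup.Gamma0_mem] at hγ
  obtain ⟨c', hc'⟩ : ((M * q : ℕ) : ℤ) ∣ γ 1 0 := (ZMod.intCast_zmod_eq_zero_iff_dvd _ _).mp hγ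
  have hdet : γ 0 0 * γ 1 1 - γ 0 1 * γ 1 0 = 1 := by
    have := γ.det_coe
    rwa [Matrix.det_fin_two] at this
  refine ⟨⟨!![γ 0 0, q * γ 0 1; M * c', γ 1 1], ?_⟩, ?_, ?_⟩
  · rw [Matrix.det_fin_two_of]
    rw [hc'] at hdet
    push_cast at hdet
    linear_combination hdet
  · rw [CongruenceSubgroup.Gamma0_mem]
    simp
  · apply Matrix.GeneralLinearGroup.ext
    intro i j
    simp only [Matrix.GeneralLinearGroup.coe_mul, val_heckeDiagMatrix hq]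
    fin_cases i <;> fin_cases j <;>
      simp [Matrix.mul_apply, Fin.sum_univ_two, mapGL, hc'] <;> ring

theorem G0_le_conj (M q : ℕ) (hq : q ≠ 0) :
    G0 (M * q) ≤ toConjAct (heckeDiagMatrix q)⁻¹ • G0 M := by
  rintro _ ⟨γ, hγ, rfl⟩
  obtain ⟨δ, hδM, hδ⟩ := heckeDiag_mul_mem M q hq γ hγ
  rw [Subgroup.mem_pointwise_smul_iff_inv_smul_mem, ConjAct.smul_def]
  simp only [map_inv, inv_inv, ConjAct.ofConjAct_toConjAct]
  refine ⟨δ, hδM, ?_⟩
  rw [hδ, mul_assoc, mul_inv_cancel, mul_one]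

/-- A cusp form of level `Γ₀(M)` viewed at level `Γ₀(M q)`. -/
def toLevelMul (M q : ℕ) (g : CuspForm (CongruenceSubgroup.Gamma0 M) 2) :
    CuspForm (CongruenceSubgroup.Gamma0 (M * q)) 2 :=
  restrictLE (G0_mono (Dvd.intro q rfl)) g

@[simp] theorem coe_toLevelMul (M q : ℕ) (g : CuspForm (CongruenceSubgroup.Gamma0 M) 2) :
    (toLevelMul M q g : ℍ → ℂ) = g := rfl

theorem qCoeff_toLevelMul (M q : ℕ) (g : CuspForm (CongruenceSubgroup.Gamma0 M) 2) (n : ℕ) :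
    qCoeff (toLevelMul M q g) n = qCoeff g n := rfl

/-- The operator `V_q : g(z) ↦ g(q z)` from level `Γ₀(M)` to level `Γ₀(M q)`. -/
noncomputable def Vq (M q : ℕ) (hq : q ≠ 0) (g : CuspForm (CongruenceSubgroup.Gamma0 M) 2) :
    CuspForm (CongruenceSubgroup.Gamma0 (M * q)) 2 :=
  ((q : ℂ) ^ ((2 : ℤ) - 1))⁻¹ •
    restrictLE (G0_le_conj M q hq) (CuspForm.translate g (heckeDiagMatrix q))

theorem Vq_apply (M q : ℕ) (hq : q ≠ 0) (g : CuspForm (CongruenceSubgroup.Gamma0 M) 2) (τ : ℍ) :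
    Vq M q hq g τ = g (heckeDiagMatrix q • τ) := by
  have hq' : (q : ℂ) ^ ((2 : ℤ) - 1) ≠ 0 := zpow_ne_zero _ (by exact_mod_cast hq)
  change ((q : ℂ) ^ ((2 : ℤ) - 1))⁻¹ • ((g : ℍ → ℂ) ∣[(2 : ℤ)] heckeDiagMatrix q) τ = _
  rw [slash_heckeDiagMatrix_apply 2 hq, smul_eq_mul, ← mul_assoc, inv_mul_cancel₀ hq', one_mul]

open Function in
/-- The `q`-expansion of `V_q g` is that of `g` with `𝕢 ↦ 𝕢 ^ q`. -/
theorem qCoeff_Vq (M q : ℕ) (hq : q ≠ 0) (g : CuspForm (CongruenceSubgroup.Gamma0 M) 2) (n : ℕ) :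
    qCoeff (Vq M q hq g) n = if q ∣ n then qCoeff g (n / q) else 0 := by
  unfold qCoeff
  symm
  refine ModularFormClass.qExpansion_coeff_unique (f := Vq M q hq g)
    (c := fun n => if q ∣ n then (qExpansion 1 (g : ℍ → ℂ)).coeff (n / q) else 0) one_pos
    (CongruenceSubgroup.one_mem_strictPeriods_Gamma0 (M * q)) (fun τ => ?_) n
  rw [Vq_apply]
  have : Fact (IsCusp OnePoint.infty (G0 M)) :=
    ⟨Subgroup.isCusp_of_mem_strictPeriods one_pos
      (CongruenceSubgroup.one_mem_strictPeriods_Gamma0 M)⟩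
  have h1 := ModularForm.hasSum_qExpansion (f := g) one_pos
    (CongruenceSubgroup.one_mem_strictPeriods_Gamma0 M) (heckeDiagMatrix q • τ)
  have hqp : Periodic.qParam 1 ((heckeDiagMatrix q • τ : ℍ) : ℂ) =
      Periodic.qParam 1 (τ : ℂ) ^ q := by
    rw [coe_heckeDiagMatrix_smul hq, Periodic.qParam, Periodic.qParam, ← Complex.exp_nat_mul]
    congr 1
    ring
  have hinj : Injective (fun m : ℕ => q * m) := fun a b h => Nat.eq_of_mul_eq_mul_left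
    (Nat.pos_of_ne_zero hq) h
  rw [← hinj.hasSum_iff]
  · convert h1 using 1
    funext m
    simp only [Function.comp_apply, dvd_mul_right, if_true, Nat.mul_div_cancel_left _
      (Nat.pos_of_ne_zero hq), smul_eq_mul, hqp, pow_mul]
  · intro x hx
    have : ¬ q ∣ x := fun ⟨m, hm⟩ => hx ⟨m, hm.symm⟩
    simp [this]

end Fermat.Agent.GE.StabV
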