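/-
GATE-L-S58 / PREP, TRANSFER (helper53).

Two `GaloisRepAdic O` (`O` a local domain, `𝔪`-adically Hausdorff) whose characteristic polynomials
agree at the Frobenius lifts of all primes outside a finite set `B` have the same TRACE at every
`σ ∈ G_ℚ`; in characteristic `0` they have the same characteristic polynomial at every `σ`.

Proof: reduce both modulo `𝔪 ^ n` (finite level by adic continuity), apply the elementary Frobenius
density `FrobLift.exists_isFrobeniusAt_pow'` to the product, Lucas sequences for the traces of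
powers (`trace_pow_eq_lucasV`), Hausdorffness; the determinant from `2 det = tr² - tr(σ²)`.

Consumers: S58 (`ρ_g` versus `T_λ W ⊗ O''`), and the transfer of clauses of the type
"charpoly at inertia / at Frobenius lifts of a bad prime" between two lattices (S35/S36).
-/
import Fermat.Agent.GJ.Tate.S31Dens
import Fermat.Agent.GJ.Tate.TwoDim
import Fermat.Prelude.Def_GaloisRep_LocalConditions

set_option autoImplicit false

open Polynomial IsLocalRing Module

namespace Fermat.Agent.GE.Transfer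

open Fermat.Agent.GJ Fermat.Agent.GJ.Tate Fermat.Agent.GJ.Tate.Carayol

/-- `ℚ̄`. -/
local notation "Qb" => AlgebraicClosure ℚ
/-- `G_ℚ`. -/
local notation "GQ" => (AlgebraicClosure ℚ ≃ₐ[ℚ] AlgebraicClosure ℚ)

variable {O : Type} [CommRing O] [IsDomain O]

section TwoDimFacts

variable {V : Type*} [AddCommGroup V] [Module O V] [Module.Free O V] [Module.Finite O V]

/-- trace and determinant are read off the characteristic polynomial in rank two -/
theorem trace_det_eq_of_charpoly_eq {V' : Type*} [AddCommGroup V'] [Module O V']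
    [Module.Free O V'] [Module.Finite O V'] (h : finrank O V = 2) (h' : finrank O V' = 2)
    (f : Module.End O V) (f' : Module.End O V') (hc : f.charpoly = f'.charpoly) :
    LinearMap.trace O V f = LinearMap.trace O V' f' ∧ LinearMap.det f = LinearMap.det f' := by
  rw [TwoDim.charpoly_eq_of_finrank_two h f, TwoDim.charpoly_eq_of_finrank_two h' f'] at hc
  have h1 := congrArg (fun P : O[X] => P.coeff 1) hc
  have h0 := congrArg (fun P : O[X] => P.coeff 0) hc
  simp only [coeff_add, coeff_sub, coeff_X_pow, coeff_C_mul, coeff_X_one,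
    coeff_X_zero, coeff_C] at h1 h0
  norm_num at h1 h0
  exact ⟨h1, h0⟩

/-- `2 det f = (tr f)² - tr (f²)` in rank two -/
theorem two_mul_det (h : finrank O V = 2) (f : Module.End O V) :
    2 * LinearMap.det f = LinearMap.trace O V f ^ 2 - LinearMap.trace O V (f * f) := by
  have h1 := congrArg (LinearMap.trace O V) (TwoDim.sq_sub_trace_add_det h f)
  rw [map_add, map_sub, map_smul, map_smul, map_zero, LinearMap.trace_one, h, smul_eq_mul,
    smul_eq_mul] at h1
  have h2 : LinearMap.det f * ((2 : ℕ) : O) = 2 * LinearMap.det f := by push_cast; ring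
  rw [h2] at h1
  linear_combination h1

end TwoDimFacts

variable [IsLocalRing O] (ρ₁ ρ₂ : GaloisRepAdic O) (B : Finset ℕ)

/-- **TRANSFER, traces.** -/
theorem trace_eq_of_frobenius [IsHausdorff (maximalIdeal O) O]
    (h : ∀ ℓ : ℕ, ℓ.Prime → ℓ ∉ B → ∀ A : ValuationSubring Qb, A.LiesOverPrime ℓ →
      ∀ τ : GQ, A.IsFrobeniusAt τ ℓ →
        LinearMap.charpoly (ρ₁.ρ τ) = LinearMap.charpoly (ρ₂.ρ τ)) (σ : GQ) :
    LinearMap.trace O ρ₁.V (ρ₁.ρ σ) = LinearMap.trace O ρ₂.V (ρ₂.ρ σ) := by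
  rw [← sub_eq_zero]
  have hmem : ∀ n : ℕ, LinearMap.trace O ρ₁.V (ρ₁.ρ σ) - LinearMap.trace O ρ₂.V (ρ₂.ρ σ) ∈
      maximalIdeal O ^ n := by
    intro n
    obtain ⟨ℓ, A, τ, j, hℓ, hℓB, hA, hτ, hpow⟩ :=
      FrobLift.exists_isFrobeniusAt_pow' ((redRho ρ₁ n).prod (redRho ρ₂ n))
        (factorsThroughFiniteLevel_prod (redRho_factors ρ₁ n) (redRho_factors ρ₂ n)) B σ
    rw [MonoidHom.prod_apply, MonoidHom.prod_apply, Prod.pow_mk, Prod.mk.injEq] at hpow
    obtain ⟨h1, h2⟩ := hpow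
    obtain ⟨ht, hd⟩ := trace_det_eq_of_charpoly_eq ρ₁.finrank_eq ρ₂.finrank_eq _ _
      (h ℓ hℓ hℓB A hA τ hτ)
    have key : ∀ (ρ : GaloisRepAdic O)
        (hp : redRho ρ n σ = redRho ρ n τ ^ j),
        LinearMap.trace O ρ.V (ρ.ρ σ) -
          lucasV (LinearMap.trace O ρ.V (ρ.ρ τ)) (LinearMap.det (ρ.ρ τ)) j ∈
            maximalIdeal O ^ n := by
      intro ρ hp
      rw [redRho_apply, redRho_apply] at hp
      have e1 : redMat (maximalIdeal O ^ n) ρ.V (ρ.ρ τ) ^ j =
          redMat (maximalIdeal O ^ n) ρ.V ((ρ.ρ τ) ^ j) := (map_pow _ _ _).symm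
      have t1 := congrArg Matrix.trace (hp.trans e1)
      rw [trace_redMat, trace_redMat,
        trace_pow_eq_lucasV ρ.finrank_eq (ρ.ρ τ) _ _
          (TwoDim.charpoly_eq_of_finrank_two ρ.finrank_eq (ρ.ρ τ)) j] at t1
      exact Ideal.Quotient.eq.mp t1
    have k1 := key ρ₁ h1
    have k2 := key ρ₂ h2
    rw [ht, hd] at k1
    have := Ideal.sub_mem _ k1 k2
    rwa [sub_sub_sub_cancel_right] at this
  have hH : IsHausdorff (maximalIdeal O) O := inferInstance
  apply hH.haus'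
  intro n
  rw [SModEq.zero, smul_eq_mul, Ideal.mul_top]
  exact hmem n

/-- **TRANSFER, characteristic polynomials** (characteristic `0`). -/
theorem charpoly_eq_of_frobenius [IsHausdorff (maximalIdeal O) O] [CharZero O]
    (h : ∀ ℓ : ℕ, ℓ.Prime → ℓ ∉ B → ∀ A : ValuationSubring Qb, A.LiesOverPrime ℓ →
      ∀ τ : GQ, A.IsFrobeniusAt τ ℓ →
        LinearMap.charpoly (ρ₁.ρ τ) = LinearMap.charpoly (ρ₂.ρ τ)) (σ : GQ) :
    LinearMap.charpoly (ρ₁.ρ σ) = LinearMap.charpoly (ρ₂.ρ σ) := by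
  have ht := trace_eq_of_frobenius ρ₁ ρ₂ B h σ
  have ht2 := trace_eq_of_frobenius ρ₁ ρ₂ B h (σ * σ)
  rw [map_mul ρ₁.ρ, map_mul ρ₂.ρ] at ht2
  have hd : LinearMap.det (ρ₁.ρ σ) = LinearMap.det (ρ₂.ρ σ) := by
    have e1 := two_mul_det ρ₁.finrank_eq (ρ₁.ρ σ)
    have e2 := two_mul_det ρ₂.finrank_eq (ρ₂.ρ σ)
    rw [ht, ht2, ← e2] at e1
    exact mul_left_cancel₀ (two_ne_zero) e1
  rw [TwoDim.charpoly_eq_of_finrank_two ρ₁.finrank_eq, TwoDim.charpoly_eq_of_finrank_two
    ρ₂.finrank_eq, ht, hd]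

/-- unipotent inertia transfers -/
theorem isUnipotentOnInertiaAt_of_frobenius [IsHausdorff (maximalIdeal O) O] [CharZero O]
    (h : ∀ ℓ : ℕ, ℓ.Prime → ℓ ∉ B → ∀ A : ValuationSubring Qb, A.LiesOverPrime ℓ →
      ∀ τ : GQ, A.IsFrobeniusAt τ ℓ →
        LinearMap.charpoly (ρ₁.ρ τ) = LinearMap.charpoly (ρ₂.ρ τ)) (q : ℕ)
    (h₂ : ρ₂.IsUnipotentOnInertiaAt q) : ρ₁.IsUnipotentOnInertiaAt q := by
  intro P hP σ hσ
  rw [charpoly_eq_of_frobenius ρ₁ ρ₂ B h σ]
  exact h₂ P hP σ hσ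

end Fermat.Agent.GE.Transfer
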