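import Fermat.Agent.GE.StabAlg
import Fermat.Agent.GE.StabV

/-!
# S58 prep (report 205 (1)): `q`-stabilisation of a normalized eigenform

For a normalized eigenform `g` of level `Γ₀(M)` and a prime `q ∤ M` there is a normalized
eigenform `g''` of level `Γ₀(M * q)` with `a_ℓ(g'') = a_ℓ(g)` for all primes `ℓ ≠ q`
(`g'' = g - β V_q g`, `β` a root of `X² - a_q X + q`).  Consequently "raising the level is free":
an eigensystem occurring at level `M` occurs (away from `q`) at level `M * q`.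
-/

set_option autoImplicit false

open UpperHalfPlane ModularForm ModularFormClass
open scoped MatrixGroups ModularForm

namespace Fermat.Agent.GE.Stab

open Fermat.Agent.GE.StabAlg Fermat.Agent.GE.StabV

theorem eigenSeq_of_isNormalizedEigenform {N : ℕ}
    {f : CuspForm (CongruenceSubgroup.Gamma0 N) 2} (hf : f.IsNormalizedEigenform) :
    EigenSeq N (qCoeff f) :=
  ⟨hf.qCoeff_one, hf.qCoeff_mul_of_coprime, hf.qCoeff_prime_pow_of_not_dvd,
    hf.qCoeff_prime_pow_of_dvd⟩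

theorem isNormalizedEigenform_of_eigenSeq {N : ℕ}
    {f : CuspForm (CongruenceSubgroup.Gamma0 N) 2} (hf : EigenSeq N (qCoeff f)) :
    f.IsNormalizedEigenform :=
  ⟨hf.one, hf.mul_of_coprime, hf.prime_pow_of_not_dvd, hf.prime_pow_of_dvd⟩

/-- The `q`-stabilisation `g - β V_q g` as a cusp form of level `Γ₀(M q)`. -/
noncomputable def stabForm (M q : ℕ) (hq : q ≠ 0) (β : ℂ)
    (g : CuspForm (CongruenceSubgroup.Gamma0 M) 2) :
    CuspForm (CongruenceSubgroup.Gamma0 (M * q)) 2 :=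
  toLevelMul M q g - β • Vq M q hq g

theorem qCoeff_stabForm (M q : ℕ) (hq : q ≠ 0) (β : ℂ)
    (g : CuspForm (CongruenceSubgroup.Gamma0 M) 2) (n : ℕ) :
    qCoeff (stabForm M q hq β g) n = stab (qCoeff g) q β n := by
  have hΓ := CongruenceSubgroup.one_mem_strictPeriods_Gamma0 (M * q)
  have h1 : (stabForm M q hq β g : ℍ → ℂ) =
      (toLevelMul M q g : ℍ → ℂ) - ((β • Vq M q hq g : CuspForm _ 2) : ℍ → ℂ) := rfl
  have h2 : ((β • Vq M q hq g : CuspForm (CongruenceSubgroup.Gamma0 (M * q)) 2) : ℍ → ℂ) =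
      β • (Vq M q hq g : ℍ → ℂ) := rfl
  have e1 : qExpansion 1 (stabForm M q hq β g : ℍ → ℂ) =
      qExpansion 1 (toLevelMul M q g : ℍ → ℂ) - β • qExpansion 1 (Vq M q hq g : ℍ → ℂ) := by
    rw [h1, ModularForm.qExpansion_sub one_pos hΓ (toLevelMul M q g) (β • Vq M q hq g), h2,
      ModularForm.qExpansion_smul one_pos hΓ β (Vq M q hq g)]
  have e2 := qCoeff_Vq M q hq g n
  unfold qCoeff at e2 ⊢
  rw [e1, map_sub, PowerSeries.coeff_smul, e2, smul_eq_mul]
  rfl

/-- **`q`-stabilisation.** -/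
theorem exists_stabilisation {M : ℕ} {g : CuspForm (CongruenceSubgroup.Gamma0 M) 2}
    (hg : g.IsNormalizedEigenform) {q : ℕ} (hq : q.Prime) (hqM : ¬ q ∣ M) :
    ∃ g'' : CuspForm (CongruenceSubgroup.Gamma0 (M * q)) 2, g''.IsNormalizedEigenform ∧
      ∀ ℓ : ℕ, ℓ.Prime → ℓ ≠ q → qCoeff g'' ℓ = qCoeff g ℓ := by
  obtain ⟨β, hβ⟩ := exists_root_quadratic (qCoeff g q) (q : ℂ)
  refine ⟨stabForm M q hq.ne_zero β g, ?_, fun ℓ hℓ hne => ?_⟩
  · apply isNormalizedEigenform_of_eigenSeq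
    have h := eigenSeq_stab (eigenSeq_of_isNormalizedEigenform hg) hq hqM hβ
    have hfun : qCoeff (stabForm M q hq.ne_zero β g) = stab (qCoeff g) q β :=
      funext (qCoeff_stabForm M q hq.ne_zero β g)
    rw [hfun]
    exact h
  · rw [qCoeff_stabForm, stab_prime_of_ne _ β hq hℓ hne]

/-- If `q ∣ M` already, nothing has to be done; packaged so that callers can raise the level by
an arbitrary prime. -/
theorem exists_eigenform_level_mul_prime {M : ℕ} {g : CuspForm (CongruenceSubgroup.Gamma0 M) 2}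
    (hg : g.IsNormalizedEigenform) {q : ℕ} (hq : q.Prime) :
    ∃ g'' : CuspForm (CongruenceSubgroup.Gamma0 (M * q)) 2, g''.IsNormalizedEigenform ∧
      ∀ ℓ : ℕ, ℓ.Prime → ℓ ≠ q → qCoeff g'' ℓ = qCoeff g ℓ := by
  by_cases hqM : q ∣ M
  · -- same function at the smaller group; the clauses at `p ∣ M q` are those at `p ∣ M`
    refine ⟨toLevelMul M q g, ⟨hg.qCoeff_one, hg.qCoeff_mul_of_coprime, ?_, ?_⟩,
      fun ℓ _ _ => rfl⟩
    · intro p r hp hpMq
      exact hg.qCoeff_prime_pow_of_not_dvd p r hp fun h => hpMq (h.mul_right q)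
    · intro p r hp hpMq
      refine hg.qCoeff_prime_pow_of_dvd p r hp ?_
      rcases (Nat.Prime.dvd_mul hp).mp hpMq with h | h
      · exact h
      · exact ((Nat.prime_dvd_prime_iff_eq hp hq).mp h) ▸ hqM
  · exact exists_stabilisation hg hq hqM

/-- Transport of a normalized eigenform along an equality of levels. -/
theorem exists_eigenform_of_level_eq {M M' : ℕ} (h : M = M')
    {g : CuspForm (CongruenceSubgroup.Gamma0 M) 2} (hg : g.IsNormalizedEigenform) :
    ∃ g' : CuspForm (CongruenceSubgroup.Gamma0 M') 2, g'.IsNormalizedEigenform ∧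
      ∀ n : ℕ, qCoeff g' n = qCoeff g n := by
  subst h
  exact ⟨g, hg, fun _ => rfl⟩

/-- **Raising the level is free.** A normalized eigenform of level `M` gives, for every `d ≠ 0`,
a normalized eigenform of level `M * d` with the same eigenvalues at all primes `ℓ ∤ d`. -/
theorem exists_eigenform_level_mul (d : ℕ) (hd : d ≠ 0) :
    ∀ {M : ℕ} {g : CuspForm (CongruenceSubgroup.Gamma0 M) 2}, g.IsNormalizedEigenform →
    ∃ g' : CuspForm (CongruenceSubgroup.Gamma0 (M * d)) 2, g'.IsNormalizedEigenform ∧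
      ∀ ℓ : ℕ, ℓ.Prime → ¬ ℓ ∣ d → qCoeff g' ℓ = qCoeff g ℓ := by
  induction d using Nat.recOnMul with
  | zero => exact absurd rfl hd
  | one =>
    intro M g hg
    obtain ⟨g', hg', h⟩ := exists_eigenform_of_level_eq (mul_one M).symm hg
    exact ⟨g', hg', fun ℓ _ _ => h ℓ⟩
  | prime p hp =>
    intro M g hg
    obtain ⟨g', hg', h⟩ := exists_eigenform_level_mul_prime hg hp
    exact ⟨g', hg', fun ℓ hℓ hℓp => h ℓ hℓ fun e => hℓp (e ▸ dvd_rfl)⟩
  | mul a b iha ihb =>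
    intro M g hg
    have ha : a ≠ 0 := fun h => hd (by rw [h, zero_mul])
    have hb : b ≠ 0 := fun h => hd (by rw [h, mul_zero])
    obtain ⟨g₁, hg₁, h₁⟩ := iha ha hg
    obtain ⟨g₂, hg₂, h₂⟩ := ihb hb hg₁
    obtain ⟨g₃, hg₃, h₃⟩ := exists_eigenform_of_level_eq (mul_assoc M a b) hg₂
    refine ⟨g₃, hg₃, fun ℓ hℓ hℓab => ?_⟩
    rw [h₃, h₂ ℓ hℓ fun h => hℓab (h.mul_left a), h₁ ℓ hℓ fun h => hℓab (h.mul_right b)]

/-- Divisibility form: from level `M` to any nonzero multiple `N'` of `M`, keeping the eigenvalues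
at the primes not dividing `N' / M`. -/
theorem exists_eigenform_of_dvd {M N' : ℕ} (hMN : M ∣ N') (hN' : N' ≠ 0)
    {g : CuspForm (CongruenceSubgroup.Gamma0 M) 2} (hg : g.IsNormalizedEigenform) :
    ∃ g' : CuspForm (CongruenceSubgroup.Gamma0 N') 2, g'.IsNormalizedEigenform ∧
      ∀ ℓ : ℕ, ℓ.Prime → ¬ ℓ ∣ N' / M → qCoeff g' ℓ = qCoeff g ℓ := by
  obtain ⟨d, rfl⟩ := hMN
  have hM : M ≠ 0 := fun h => hN' (by rw [h, zero_mul])
  have hd : d ≠ 0 := fun h => hN' (by rw [h, mul_zero])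
  obtain ⟨g', hg', h⟩ := exists_eigenform_level_mul d hd hg
  refine ⟨g', hg', fun ℓ hℓ hℓd => h ℓ hℓ ?_⟩
  rwa [Nat.mul_div_cancel_left d (Nat.pos_of_ne_zero hM)] at hℓd

end Fermat.Agent.GE.Stab
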