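/-
GATE-L-S58 / PREP (helper41): DVR-PLACE (report 205 (2), PLUMBING node).

The frozen statements S35 / S36 take as INPUT a complete discrete valuation ring `O'` of
characteristic zero with finite residue field, with `(lam : O') ∈ maximalIdeal O'`, and a ring
homomorphism `iota : chig.range →+* O'`.  S58 has to PRODUCE such a pair for the eigenform `g`
of minimal level.  This file constructs it, with `iota` INJECTIVE:

* `exists_completeDVR_place` : abstract form, for any domain `R0` of characteristic zero which is
  module-finite over `ℤ` (an order in a number field);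
* `exists_place_of_chig` : the consumer form for `R0 := chig.range`,
  `chig : heckeAlgebra M 2 S →+* ℂ` (module-finiteness from the PASS statement S22).

Construction: `A := ℚ_[lam] ⊗[ℤ] R0` is a nonzero finite `ℚ_[lam]`-algebra, `K'' := A ⧸ m` for a
maximal ideal `m` is a finite field extension of `ℚ_[lam]`, and `O'` is the integral closure of
`ℤ_[lam]` in `K''` (helper93's `exists_completeDVR_ext`).  `R0` is integral over `ℤ`, so its image
lies in `O'`; the kernel of `R0 → K''` is a prime lying over `(0) ⊂ ℤ`, hence zero.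
-/
import Mathlib
import Fermat.Agent.GJ.Ext.CompleteDVRExt
import Fermat.Agent.S22

set_option autoImplicit false
set_option linter.style.haveILetI false
set_option linter.unusedSectionVars false

namespace Fermat.Agent.GE.DvrPlace

open IsLocalRing TensorProduct

/-- In a complete DVR extension `O` of `ℤ_[lam]` along a local homomorphism, `lam` is a
non-unit. -/
theorem natCast_mem_maximalIdeal_of_isLocalHom (lam : ℕ) [Fact lam.Prime]
    (O : Type) [CommRing O] [IsLocalRing O] [Algebra ℤ_[lam] O]
    [IsLocalHom (algebraMap ℤ_[lam] O)] : (lam : O) ∈ maximalIdeal O := by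
  rw [mem_maximalIdeal, mem_nonunits_iff]
  intro hu
  have h1 : (lam : O) = algebraMap ℤ_[lam] O (lam : ℤ_[lam]) := (map_natCast _ _).symm
  rw [h1] at hu
  have hu' : IsUnit (lam : ℤ_[lam]) := IsLocalHom.map_nonunit _ hu
  have hn : (lam : ℤ_[lam]) ∈ nonunits ℤ_[lam] := by
    rw [PadicInt.mem_nonunits, PadicInt.norm_p]
    have hp : (1 : ℝ) < lam := by exact_mod_cast (Fact.out : lam.Prime).one_lt
    exact inv_lt_one_of_one_lt₀ hp
  exact hn hu'

section Abstract

variable (R0 : Type) [CommRing R0] [IsDomain R0] [CharZero R0] [Module.Finite ℤ R0]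
variable (lam : ℕ) [Fact lam.Prime]

/-- the finite `ℚ_[lam]`-algebra `ℚ_[lam] ⊗[ℤ] R0`. -/
abbrev TAlg : Type := ℚ_[lam] ⊗[ℤ] R0

theorem finite_TAlg : Module.Finite ℚ_[lam] (TAlg R0 lam) :=
  Module.Finite.base_change ℤ ℚ_[lam] R0

theorem nontrivial_TAlg : Nontrivial (TAlg R0 lam) := by
  haveI : Module.IsTorsionFree ℤ R0 := inferInstance
  haveI : Module.Free ℤ R0 := Module.free_of_finite_type_torsion_free'
  have h1 : 0 < Module.finrank ℤ R0 := Module.finrank_pos
  have h2 : Module.finrank ℚ_[lam] (TAlg R0 lam) = Module.finrank ℤ R0 :=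
    Module.finrank_baseChange
  have h3 : 0 < Module.finrank ℚ_[lam] (TAlg R0 lam) := h2 ▸ h1
  exact Module.nontrivial_of_finrank_pos (R := ℚ_[lam]) h3

end Abstract

/-- **DVR-PLACE, abstract form.** An order `R0` in a number field embeds into a complete discrete
valuation ring of characteristic zero with finite residue field of residue characteristic `lam`. -/
theorem exists_completeDVR_place (R0 : Type) [CommRing R0] [IsDomain R0] [CharZero R0]
    [Module.Finite ℤ R0] (lam : ℕ) [Fact lam.Prime] :
    ∃ (O : Type) (_ : CommRing O) (_ : IsDomain O) (_ : IsDiscreteValuationRing O)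
      (_ : IsAdicComplete (IsLocalRing.maximalIdeal O) O)
      (_ : Finite (IsLocalRing.ResidueField O)) (_ : CharZero O),
      (lam : O) ∈ IsLocalRing.maximalIdeal O ∧ ∃ iota : R0 →+* O, Function.Injective iota := by
  classical
  haveI := nontrivial_TAlg R0 lam
  obtain ⟨m, hm⟩ := Ideal.exists_maximal (TAlg R0 lam)
  letI : Field (TAlg R0 lam ⧸ m) := Ideal.Quotient.field m
  -- the field `K''` and its algebra structures
  letI algQ : Algebra ℚ_[lam] (TAlg R0 lam ⧸ m) := inferInstance
  letI algZ : Algebra ℤ_[lam] (TAlg R0 lam ⧸ m) := inferInstance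
  haveI tower : IsScalarTower ℤ_[lam] ℚ_[lam] (TAlg R0 lam ⧸ m) := inferInstance
  haveI := finite_TAlg R0 lam
  haveI : Module.Finite ℚ_[lam] (TAlg R0 lam ⧸ m) :=
    Module.Finite.of_surjective (Ideal.Quotient.mkₐ ℚ_[lam] m).toLinearMap
      (Ideal.Quotient.mkₐ_surjective ℚ_[lam] m)
  haveI : FiniteDimensional ℚ_[lam] (TAlg R0 lam ⧸ m) := inferInstance
  obtain ⟨O, iCR, iDom, iDVR, iComp, iRes, iChar, iAlg, iFin, iLoc, iAlgK, iTow, iFrac, hinj⟩ :=
    Fermat.Agent.GJ.Ext.exists_completeDVR_ext ℤ_[lam] ℚ_[lam] (TAlg R0 lam ⧸ m)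
  refine ⟨O, iCR, iDom, iDVR, iComp, iRes, iChar,
    natCast_mem_maximalIdeal_of_isLocalHom lam O, ?_⟩
  -- the map `R0 → K''`
  let f : R0 →+* (TAlg R0 lam ⧸ m) :=
    (Ideal.Quotient.mk m).comp
      (Algebra.TensorProduct.includeRight (R := ℤ) (A := ℚ_[lam]) (B := R0)).toRingHom
  haveI : CharZero (TAlg R0 lam ⧸ m) :=
    charZero_of_injective_algebraMap (algebraMap ℚ_[lam] (TAlg R0 lam ⧸ m)).injective
  -- `f` is injective
  have hfinj : Function.Injective f := by
    rw [injective_iff_map_eq_zero]
    haveI : Algebra.IsIntegral ℤ R0 := Algebra.IsIntegral.of_finite ℤ R0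
    have hker : RingHom.ker f = ⊥ := by
      apply Ideal.eq_bot_of_comap_eq_bot (R := ℤ)
      rw [eq_bot_iff]
      intro n hn
      rw [Ideal.mem_comap, RingHom.mem_ker, eq_intCast, map_intCast] at hn
      rw [Ideal.mem_bot]
      exact_mod_cast hn
    intro r hr
    have : r ∈ RingHom.ker f := hr
    rwa [hker, Ideal.mem_bot] at this
  -- every value of `f` is integral over `O`
  have hint : ∀ r : R0, ∃ y : O, algebraMap O (TAlg R0 lam ⧸ m) y = f r := by
    intro r
    have h1 : IsIntegral ℤ r := Algebra.IsIntegral.isIntegral r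
    have h2 : IsIntegral ℤ (f r) := h1.map f.toIntAlgHom
    have h3 : IsIntegral ℤ_[lam] (f r) := h2.tower_top
    have h4 : IsIntegral O (f r) := h3.tower_top
    exact IsIntegrallyClosed.isIntegral_iff.mp h4
  have hOinj : Function.Injective (algebraMap O (TAlg R0 lam ⧸ m)) := IsFractionRing.injective O _
  choose g hg using hint
  refine ⟨{ toFun := g
            map_one' := hOinj (by rw [hg, map_one, map_one])
            map_mul' := fun a b => hOinj (by rw [hg, map_mul, map_mul, hg, hg])
            map_zero' := hOinj (by rw [hg, map_zero, map_zero])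
            map_add' := fun a b => hOinj (by rw [hg, map_add, map_add, hg, hg]) }, ?_⟩
  intro a b hab
  apply hfinj
  have : g a = g b := hab
  rw [← hg a, ← hg b, this]

/-- **DVR-PLACE, consumer form**: the pair `(O', iota)` which the frozen statements S35 / S36 take
as input, for the image of a character `chig` of the Hecke algebra, with `iota` injective. -/
theorem exists_place_of_chig {M : ℕ} [NeZero M] (S : Set ℕ)
    (chig : CuspForm.heckeAlgebra M 2 S →+* ℂ) (lam : ℕ) [Fact lam.Prime] :
    ∃ (O : Type) (_ : CommRing O) (_ : IsDomain O) (_ : IsDiscreteValuationRing O)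
      (_ : IsAdicComplete (IsLocalRing.maximalIdeal O) O)
      (_ : Finite (IsLocalRing.ResidueField O)) (_ : CharZero O),
      (lam : O) ∈ IsLocalRing.maximalIdeal O ∧
        ∃ iota : chig.range →+* O, Function.Injective iota := by
  haveI : Module.Finite ℤ (CuspForm.heckeAlgebra M 2 S) := Fermat.Agent.S22.result M 2 S
  haveI : Module.Finite ℤ chig.range :=
    Module.Finite.of_surjective chig.rangeRestrict.toIntAlgHom.toLinearMap
      chig.rangeRestrict_surjective
  haveI : CharZero chig.range := ⟨fun a b h => by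
    have h' := congrArg chig.range.subtype h
    simpa using h'⟩
  exact exists_completeDVR_place chig.range lam

end Fermat.Agent.GE.DvrPlace
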