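import Mathlib
import Fermat.Agent.GE.FrobMain
import Fermat.Agent.GE.E6.FinalQ
import Fermat.Agent.GE.E6.OfZMod
import Fermat.Agent.GE.E6.FrobCoord
import Fermat.Agent.GE.Top.ECAssembly
import Fermat.Agent.GE.Unip.Main

/-!
# The elliptic-curve package of S58, unconditional (TWIN of `GE/Top/ECFinal.lean`, which is canonical)

* `frobQuad_of_good` : helper55's `FrobQuad W l L` at a good prime `l`, from EC-FROB-0
  (`FrobMain.frob_relation'`);
* `frobRel`, `goodInertia`, `unipInertia` : the three inputs of helper53's `ECAssembly`;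
* `nonempty_ecLevels` : the EC-ASSEMBLY target of `GE/Top/S58Top.s58_of_gates`.
-/

set_option autoImplicit false

namespace Fermat.Agent.GE.ECFinalTwin

open WeierstrassCurve WeierstrassCurve.Affine
open Fermat.Agent.GE.E6 Fermat.Agent.GE.ECAssembly

/-- EC-FROB-0 in helper55's shape, at a prime of good reduction. -/
theorem frobQuad_of_good (W : WeierstrassCurve ℤ) (l : ℕ) [Fact l.Prime]
    (hgood : W.IsGoodPrimeFor l) (L : Type*) [Field L] [DecidableEq L] [Algebra (ZMod l) L]
    [ExpChar L l] : FrobQuad W l L := by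
  have hΔ : ((W.reductionMod l).toAffine).Δ ≠ 0 := by
    unfold WeierstrassCurve.reductionMod
    rw [WeierstrassCurve.map_Δ]
    intro h
    apply hgood
    exact (ZMod.intCast_zmod_eq_zero_iff_dvd _ _).mp h
  refine frobQuad_of_zmod W l L (FiniteField.frobeniusAlgHom (ZMod l) L)
    (fun x => by rw [FiniteField.frobeniusAlgHom_apply, ZMod.card]) (fun P => ?_)
  have := FrobMain.frob_relation' l (W.reductionMod l).toAffine hΔ L P
  rw [apOfModel_eq]
  exact this

/-- **(F′)** -/
theorem frobRel (W : WeierstrassCurve ℤ) (lam : ℕ) [hlam : Fact lam.Prime] : FrobRel W lam := by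
  intro n ℓ hℓ hne hgood A hA τ hτ P hP
  have := Fact.mk hℓ
  have : CharP (IsLocalRing.ResidueField A) ℓ := charP_residueField_of_liesOverPrime hℓ hA
  let _ : Algebra (ZMod ℓ) (IsLocalRing.ResidueField A) := ZMod.algebra _ ℓ
  have : ExpChar (IsLocalRing.ResidueField A) ℓ := ExpChar.prime hℓ
  classical
  have hlm : ¬ ℓ ∣ lam ^ n := fun h =>
    hne ((Nat.prime_dvd_prime_iff_eq hℓ hlam.out).mp (hℓ.dvd_of_dvd_pow h))
  exact frobenius_quadratic_torsion_rat W ℓ hgood (lam ^ n) hlm A hA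
    (frobQuad_of_good W ℓ hgood _) τ hτ P hP

/-- **(G′)** -/
theorem goodInertia (W : WeierstrassCurve ℤ) (lam : ℕ) [hlam : Fact lam.Prime] :
    GoodInertia W lam := by
  intro n q hq hne hgood A hA σ hσ P hP
  have hqm : ¬ q ∣ lam ^ n := fun h =>
    hne ((Nat.prime_dvd_prime_iff_eq hq hlam.out).mp (hq.dvd_of_dvd_pow h))
  exact Fermat.Agent.GE.Unip.ec_good hq hA hgood hσ hqm P hP

/-- **(M′)** -/
theorem unipInertia (W : WeierstrassCurve ℤ) (hss : W.IsSemistableModel) (hΔ : W.Δ ≠ 0)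
    (lam : ℕ) [hlam : Fact lam.Prime] : UnipInertia W lam := by
  intro n q hq hne A hA σ hσ P hP
  have hqm : ¬ q ∣ lam ^ n := fun h =>
    hne ((Nat.prime_dvd_prime_iff_eq hq hlam.out).mp (hq.dvd_of_dvd_pow h))
  exact Fermat.Agent.GE.Unip.ec_unip hss hΔ hq hA hσ hqm P hP

/-- **The EC package of S58** (the third gate of `S58Top.s58_of_gates`). -/
theorem nonempty_ecLevels (W : WeierstrassCurve ℤ) (hΔ : W.Δ ≠ 0) (hss : W.IsSemistableModel)
    (lam : ℕ) [Fact lam.Prime] (_hlam2 : lam ≠ 2) :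
    Nonempty (Fermat.Agent.GE.Top.ECLevels W lam) :=
  ECAssembly.nonempty_ecLevels W hΔ lam (frobRel W lam) (goodInertia W lam)
    (unipInertia W hss hΔ lam)

end Fermat.Agent.GE.ECFinalTwin
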