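/-
GATE-L / S58 prep (EC-FROB): degrees in function fields, Mathlib + GE/RatHeight only.

* `finrank_adjoin_map` : for a `κ`-algebra homomorphism of fields `σ : K → K'` and `f ∈ K`,
  `[K' : κ(σ f)] = [K : κ(f)] * [K' : σ K]`.
* `liftRat x hx : RatFunc κ →ₐ[κ] K` (`X ↦ x`, `x` transcendental), `fieldRange_liftRat`.
* `rdeg_eq_finrank` : helper10's degree `rdeg κ r` of a rational function is `[κ(X) : κ(r)]`.
* `finrank_adjoin_liftRat` : `[K : κ(r(x))] = deg r * [K : κ(x)]`.
* `rdeg_liftRat` : **degree of a composition** `deg (r ∘ s) = deg r * deg s`.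
* `card_le_finrank_adjoin` : **Artin's bound**: pairwise distinct `κ`-endomorphisms of `K` fixing
  `f` are at most `[K : κ(f)]` (when this degree is finite).
-/
import Mathlib
import Fermat.Agent.GE.RatHeight

open IntermediateField Module Polynomial

namespace Fermat.Agent.GE.FieldDeg


open Fermat.Agent.GE.RatHeight

variable {κ K K' : Type*} [Field κ] [Field K] [Field K'] [Algebra κ K] [Algebra κ K']

theorem finrank_adjoin_map (σ : K →ₐ[κ] K') (f : K) :
    finrank κ⟮σ f⟯ K' = finrank κ⟮f⟯ K * finrank σ.fieldRange K' := by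
  have h : κ⟮σ f⟯ ≤ σ.fieldRange := by
    rw [adjoin_simple_le_iff]
    exact ⟨f, rfl⟩
  let _ : Algebra κ⟮σ f⟯ σ.fieldRange := (IntermediateField.inclusion h).toRingHom.toAlgebra
  have : IsScalarTower κ⟮σ f⟯ σ.fieldRange K' := IsScalarTower.of_algebraMap_eq fun _ => rfl
  rw [← Module.finrank_mul_finrank κ⟮σ f⟯ σ.fieldRange K']
  congr 1
  symm
  have hmap : κ⟮f⟯.map σ = κ⟮σ f⟯ := by
    rw [adjoin_map, Set.image_singleton]
  let i : κ⟮f⟯ ≃+* κ⟮σ f⟯ := ((equivMap κ⟮f⟯ σ).trans (equivOfEq hmap)).toRingEquiv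
  let j : K ≃+* σ.fieldRange := (AlgHom.equivFieldRange σ).toRingEquiv
  refine Algebra.finrank_eq_of_equiv_equiv i j ?_
  ext x
  rfl

/-- The `κ`-algebra embedding `κ(X) → K`, `X ↦ x`, for `x` transcendental over `κ`. -/
noncomputable def liftRat (x : K) (hx : Transcendental κ x) : RatFunc κ →ₐ[κ] K :=
  (κ⟮x⟯.val).comp (RatFunc.algEquivOfTranscendental x hx).toAlgHom

@[simp]
theorem liftRat_X (x : K) (hx : Transcendental κ x) : liftRat x hx (RatFunc.X) = x := by
  simp [liftRat]

theorem liftRat_apply (x : K) (hx : Transcendental κ x) (u : RatFunc κ) :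
    liftRat x hx u = aeval x u.num / aeval x u.denom := by
  simp [liftRat, RatFunc.algEquivOfTranscendental_apply]

theorem liftRat_algebraMap (x : K) (hx : Transcendental κ x) (p : κ[X]) :
    liftRat x hx (algebraMap κ[X] (RatFunc κ) p) = aeval x p := by
  simp [liftRat]

theorem fieldRange_liftRat (x : K) (hx : Transcendental κ x) :
    (liftRat x hx).fieldRange = κ⟮x⟯ := by
  apply le_antisymm
  · rintro _ ⟨u, rfl⟩
    exact ((RatFunc.algEquivOfTranscendental x hx) u).2
  · rw [adjoin_simple_le_iff]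
    exact ⟨RatFunc.X, liftRat_X x hx⟩

theorem rdeg_eq_finrank (r : RatFunc κ) : rdeg κ r = finrank κ⟮r⟯ (RatFunc κ) := by
  rw [RatFunc.finrank_eq_max_natDegree]
  conv_lhs => rw [← RatFunc.num_div_denom r]
  exact rdeg_div (RatFunc.isCoprime_num_denom r) (RatFunc.denom_ne_zero r)

/-- The degree of a rational function of `x`. -/
theorem finrank_adjoin_liftRat (x : K) (hx : Transcendental κ x) (r : RatFunc κ) :
    finrank κ⟮liftRat x hx r⟯ K = rdeg κ r * finrank κ⟮x⟯ K := by
  rw [finrank_adjoin_map, fieldRange_liftRat, rdeg_eq_finrank]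

/-- **Degree of a composition** of rational functions. -/
theorem rdeg_liftRat (s : RatFunc κ) (hs : Transcendental κ s) (r : RatFunc κ) :
    rdeg κ (liftRat s hs r) = rdeg κ r * rdeg κ s := by
  rw [rdeg_eq_finrank, finrank_adjoin_liftRat, ← rdeg_eq_finrank s]

/-! ### Artin's bound -/


/-- The field of elements fixed by an endomorphism. -/
def fixedFieldOf (σ : K →ₐ[κ] K) : IntermediateField κ K :=
  (AlgHom.equalizer σ (AlgHom.id κ K)).toIntermediateField (fun x hx => by
    simp only [AlgHom.mem_equalizer, AlgHom.coe_id, id_eq] at hx ⊢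
    rw [map_inv₀, hx])

theorem mem_fixedFieldOf (σ : K →ₐ[κ] K) (a : K) : a ∈ fixedFieldOf σ ↔ σ a = a := by
  change a ∈ AlgHom.equalizer σ (AlgHom.id κ K) ↔ _
  simp [AlgHom.mem_equalizer]

/-- A `κ`-endomorphism fixing `f` is a `κ(f)`-endomorphism. -/
def toAdjoinAlgHom (f : K) (σ : K →ₐ[κ] K) (h : σ f = f) : K →ₐ[κ⟮f⟯] K :=
  { (σ : K →+* K) with
    commutes' := fun a => by
      have hle : κ⟮f⟯ ≤ fixedFieldOf σ := by
        rw [adjoin_simple_le_iff, mem_fixedFieldOf]
        exact h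
      exact (mem_fixedFieldOf σ a).mp (hle a.2) }

theorem toAdjoinAlgHom_apply (f : K) (σ : K →ₐ[κ] K) (h : σ f = f) (a : K) :
    toAdjoinAlgHom f σ h a = σ a := rfl

/-- **Artin's bound**: pairwise distinct `κ`-endomorphisms of `K` fixing `f`, with `K` finite
over `κ(f)`: there are at most `[K : κ(f)]` of them. -/
theorem card_le_finrank_adjoin {T : Type*} [Finite T] (g : T → K →ₐ[κ] K)
    (hg : Function.Injective g) (f : K) (hf : ∀ t, g t f = f) (hfin : finrank κ⟮f⟯ K ≠ 0) :
    Nat.card T ≤ finrank κ⟮f⟯ K := by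
  have : FiniteDimensional κ⟮f⟯ K := Module.finite_of_finrank_pos (Nat.pos_of_ne_zero hfin)
  have := Fintype.ofFinite T
  rw [Nat.card_eq_fintype_card]
  refine le_trans ?_ (AlgHom.card_le (F := κ⟮f⟯) (K := K))
  refine Fintype.card_le_of_injective (fun t => toAdjoinAlgHom f (g t) (hf t)) ?_
  intro t t' htt
  apply hg
  ext a
  have := congr($htt a)
  simpa [toAdjoinAlgHom_apply] using this

end Fermat.Agent.GE.FieldDeg
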