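/-
GATE-L / S58 prep (EC-FROB, node (GEN)): the generic point of a Weierstrass curve and the
specialization homomorphisms of its function field.

`W` is a Weierstrass curve over a field `k`, `κ` is a field extension of `k` ("constants").
`FF W κ` is the function field of `W` over `κ`; it is an `κ`-algebra and a `k`-algebra, so that
Mathlib's `Point.map` applies to `κ`-algebra homomorphisms (specializations, translations) AND to
`k`-algebra homomorphisms (Frobenius when `k` is finite).

Mathlib only.
-/
import Mathlib

namespace Fermat.Agent.GE.Generic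

open WeierstrassCurve WeierstrassCurve.Affine Polynomial

open scoped Polynomial.Bivariate

universe u

variable {k : Type u} [Field k] (W : WeierstrassCurve.Affine k) (κ : Type u) [Field κ] [Algebra k κ]

/-- The curve over the field of constants. -/
abbrev Wc : WeierstrassCurve.Affine κ := W⁄κ

/-- The coordinate ring over the constants `κ`. -/
abbrev CR : Type u := (Wc W κ).CoordinateRing

/-- The function field of `W` over the constants `κ`. -/
def FF : Type u := (Wc W κ).FunctionField

noncomputable instance : Field (FF W κ) := inferInstanceAs (Field (Wc W κ).FunctionField)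

noncomputable instance : Algebra (CR W κ) (FF W κ) :=
  inferInstanceAs (Algebra (Wc W κ).CoordinateRing (Wc W κ).FunctionField)

instance : IsFractionRing (CR W κ) (FF W κ) :=
  inferInstanceAs (IsFractionRing (Wc W κ).CoordinateRing (Wc W κ).FunctionField)

noncomputable instance : Algebra κ (FF W κ) :=
  ((algebraMap (CR W κ) (FF W κ)).comp (algebraMap κ (CR W κ))).toAlgebra

instance : IsScalarTower κ (CR W κ) (FF W κ) :=
  IsScalarTower.of_algebraMap_eq fun _ => rfl

noncomputable instance : Algebra k (FF W κ) :=
  ((algebraMap κ (FF W κ)).comp (algebraMap k κ)).toAlgebra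

instance : IsScalarTower k κ (FF W κ) :=
  IsScalarTower.of_algebraMap_eq fun _ => rfl

/-- The `x`-coordinate of the generic point. -/
noncomputable def xg : FF W κ := algebraMap (CR W κ) (FF W κ) (CoordinateRing.mk (Wc W κ) (C X))

/-- The `y`-coordinate of the generic point. -/
noncomputable def yg : FF W κ := algebraMap (CR W κ) (FF W κ) (CoordinateRing.mk (Wc W κ) Y)

/-- The canonical map `κ[X][Y] → FF` is evaluation at the generic point. -/
theorem toFF_eq (p : κ[X][Y]) :
    algebraMap (CR W κ) (FF W κ) (CoordinateRing.mk (Wc W κ) p) =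
      (p.map (mapRingHom (algebraMap κ (FF W κ)))).evalEval (xg W κ) (yg W κ) := by
  rw [← eval₂_eval₂RingHom_apply]
  have h : (algebraMap (CR W κ) (FF W κ)).comp (CoordinateRing.mk (Wc W κ)) =
      eval₂RingHom (eval₂RingHom (algebraMap κ (FF W κ)) (xg W κ)) (yg W κ) := by
    ext a
    · simp only [RingHom.coe_comp, Function.comp_apply, coe_eval₂RingHom, eval₂_C]
      rfl
    · simp only [RingHom.coe_comp, Function.comp_apply, coe_eval₂RingHom, eval₂_C, eval₂_X]
      rfl
    · simp only [RingHom.coe_comp, Function.comp_apply, coe_eval₂RingHom, eval₂_X]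
      rfl
  exact congr($h p)

/-- The generic point satisfies the Weierstrass equation over the function field. -/
theorem equation_gen : (W⁄(FF W κ)).toAffine.Equation (xg W κ) (yg W κ) := by
  have h1 : (W⁄(FF W κ)).toAffine.polynomial =
      (Wc W κ).polynomial.map (mapRingHom (algebraMap κ (FF W κ))) :=
    Affine.baseChange_polynomial W (Algebra.ofId κ (FF W κ))
  rw [Affine.Equation, h1, ← toFF_eq, AdjoinRoot.mk_self, map_zero]

/-- `mk (C p) = 0` in the coordinate ring only for `p = 0`. -/
theorem mk_C_eq_zero_iff (p : κ[X]) :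
    CoordinateRing.mk (Wc W κ) (C p) = 0 ↔ p = 0 := by
  constructor
  · intro h
    by_contra hp
    rw [AdjoinRoot.mk_eq_zero] at h
    have hC : (C p : κ[X][Y]) ≠ 0 := by rwa [Ne, C_eq_zero]
    have hdeg := Polynomial.degree_le_of_dvd h hC
    rw [Affine.degree_polynomial, degree_C hp] at hdeg
    exact absurd hdeg (by decide)
  · rintro rfl
    rw [C_0, map_zero]

/-- The `x`-coordinate of the generic point is transcendental over the constants. -/
theorem transcendental_xg : Transcendental κ (xg W κ) := by
  rw [Transcendental, IsAlgebraic]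
  push Not
  intro p hp0 hp
  have h1 : aeval (xg W κ) p = algebraMap (CR W κ) (FF W κ) (CoordinateRing.mk (Wc W κ) (C p)) := by
    rw [toFF_eq, map_C, evalEval_C, coe_mapRingHom, eval_map, ← aeval_def]
  rw [h1, map_eq_zero_iff _ (IsFractionRing.injective (CR W κ) (FF W κ)), mk_C_eq_zero_iff] at hp
  exact hp0 hp

variable [W.IsElliptic]

instance instIsEllipticBaseChange (A : Type*) [CommRing A] [Algebra k A] :
    (W⁄A).toAffine.IsElliptic :=
  inferInstanceAs (WeierstrassCurve.IsElliptic (WeierstrassCurve.map W (algebraMap k A)))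

/-- The generic point is nonsingular. -/
theorem nonsingular_gen : (W⁄(FF W κ)).toAffine.Nonsingular (xg W κ) (yg W κ) :=
  (Affine.equation_iff_nonsingular).mp (equation_gen W κ)

/-- The generic point of `W`, as a point over the function field. -/
noncomputable def Pgen : (W⁄(FF W κ)).toAffine.Point :=
  Point.some _ _ (nonsingular_gen W κ)

/-! ### Specialization -/

section Spec

omit [W.IsElliptic]

variable {L : Type u} [Field L] [Algebra k L] [Algebra κ L] [IsScalarTower k κ L]

/-- Evaluation of a bivariate polynomial over the constants at a point of `L²`. -/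
theorem eval₂_aeval_eq (x₀ y₀ : L) (p : κ[X][Y]) :
    p.eval₂ ((aeval x₀ : κ[X] →ₐ[κ] L) : κ[X] →+* L) y₀ =
      (p.map (mapRingHom (algebraMap κ L))).evalEval x₀ y₀ := by
  rw [← eval₂_eval₂RingHom_apply]
  rfl

theorem eval₂_polynomial_eq_zero {x₀ y₀ : L} (h : (W⁄L).toAffine.Equation x₀ y₀) :
    (Wc W κ).polynomial.eval₂ ((aeval x₀ : κ[X] →ₐ[κ] L) : κ[X] →+* L) y₀ = 0 := by
  rw [eval₂_aeval_eq]
  have h1 : (W⁄L).toAffine.polynomial =
      (Wc W κ).polynomial.map (mapRingHom (algebraMap κ L)) :=
    Affine.baseChange_polynomial W (Algebra.ofId κ L)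
  rw [← h1]
  exact h

/-- The `κ`-algebra homomorphism from the coordinate ring given by a point of `W` over `L`. -/
noncomputable def specCR {x₀ y₀ : L} (h : (W⁄L).toAffine.Equation x₀ y₀) : CR W κ →ₐ[κ] L :=
  AdjoinRoot.liftAlgHom (Wc W κ).polynomial (aeval x₀ : κ[X] →ₐ[κ] L) y₀
    (eval₂_polynomial_eq_zero W κ h)

theorem specCR_mk {x₀ y₀ : L} (h : (W⁄L).toAffine.Equation x₀ y₀) (p : κ[X][Y]) :
    specCR W κ h (CoordinateRing.mk (Wc W κ) p) =
      (p.map (mapRingHom (algebraMap κ L))).evalEval x₀ y₀ := by
  rw [specCR, AdjoinRoot.liftAlgHom_mk, eval₂_aeval_eq]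

theorem specCR_mk_C {x₀ y₀ : L} (h : (W⁄L).toAffine.Equation x₀ y₀) (p : κ[X]) :
    specCR W κ h (CoordinateRing.mk (Wc W κ) (C p)) = aeval x₀ p := by
  rw [specCR_mk, map_C, evalEval_C, coe_mapRingHom, eval_map, ← aeval_def]

/-- The specialization homomorphism is injective when `x₀` is transcendental over the constants. -/
theorem specCR_injective {x₀ y₀ : L} (h : (W⁄L).toAffine.Equation x₀ y₀)
    (htr : Transcendental κ x₀) : Function.Injective (specCR W κ h) := by
  rw [injective_iff_map_eq_zero]
  intro z hz
  obtain ⟨p, q, rfl⟩ := CoordinateRing.exists_smul_basis_eq (W' := Wc W κ) z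
  have hN := CoordinateRing.coe_norm_smul_basis (W' := Wc W κ) p q
  -- the norm is killed by the specialization
  have h1 : specCR W κ h (AdjoinRoot.of (Wc W κ).polynomial
      (Algebra.norm κ[X] (p • (1 : CR W κ) + q • CoordinateRing.mk (Wc W κ) Y))) = 0 := by
    have h2 : CoordinateRing.mk (Wc W κ) (C p + C q * Y) =
        p • (1 : CR W κ) + q • CoordinateRing.mk (Wc W κ) Y := by
      rw [map_add, map_mul, CoordinateRing.smul, CoordinateRing.smul, mul_one]
    rw [hN, map_mul (CoordinateRing.mk (Wc W κ)), h2, map_mul (specCR W κ h), hz, zero_mul]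
  have h3 : AdjoinRoot.of (Wc W κ).polynomial
      (Algebra.norm κ[X] (p • (1 : CR W κ) + q • CoordinateRing.mk (Wc W κ) Y)) =
      CoordinateRing.mk (Wc W κ) (C (Algebra.norm κ[X]
        (p • (1 : CR W κ) + q • CoordinateRing.mk (Wc W κ) Y))) := rfl
  rw [h3, specCR_mk_C] at h1
  have h4 : Algebra.norm κ[X] (p • (1 : CR W κ) + q • CoordinateRing.mk (Wc W κ) Y) = 0 := by
    by_contra hne
    exact htr ⟨_, hne, h1⟩
  have hfin : Module.Finite κ[X] (CR W κ) :=
    Module.Finite.of_basis (CoordinateRing.basis (Wc W κ))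
  exact Algebra.norm_eq_zero_iff.mp h4

/-- **Specialization.** A point `(x₀, y₀)` of `W` over a field `L ⊇ κ` with `x₀` transcendental
over `κ` induces a `κ`-algebra homomorphism of the function field into `L`, sending the generic
point to `(x₀, y₀)`. -/
noncomputable def spec {x₀ y₀ : L} (h : (W⁄L).toAffine.Equation x₀ y₀)
    (htr : Transcendental κ x₀) : FF W κ →ₐ[κ] L :=
  IsFractionRing.liftAlgHom (K := FF W κ) (specCR_injective W κ h htr)

theorem spec_xg {x₀ y₀ : L} (h : (W⁄L).toAffine.Equation x₀ y₀) (htr : Transcendental κ x₀) :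
    spec W κ h htr (xg W κ) = x₀ := by
  rw [spec, IsFractionRing.liftAlgHom_apply, xg, IsFractionRing.lift_algebraMap]
  change specCR W κ h _ = _
  rw [specCR_mk_C, aeval_X]

theorem spec_yg {x₀ y₀ : L} (h : (W⁄L).toAffine.Equation x₀ y₀) (htr : Transcendental κ x₀) :
    spec W κ h htr (yg W κ) = y₀ := by
  rw [spec, IsFractionRing.liftAlgHom_apply, yg, IsFractionRing.lift_algebraMap]
  change specCR W κ h _ = _
  rw [specCR_mk, Polynomial.map_X, evalEval_X]

end Spec

section SpecPoint

open scoped Classical

variable {L : Type u} [Field L] [Algebra k L] [Algebra κ L] [IsScalarTower k κ L]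

/-- The specialization homomorphism sends the generic point to the given point. -/
theorem map_spec_Pgen {x₀ y₀ : L} (h : (W⁄L).toAffine.Nonsingular x₀ y₀)
    (htr : Transcendental κ x₀) :
    Point.map (W' := W) (spec W κ h.1 htr) (Pgen W κ) = Point.some x₀ y₀ h := by
  unfold Pgen
  rw [Point.map_some]
  congr 1
  · exact spec_xg W κ h.1 htr
  · exact spec_yg W κ h.1 htr

end SpecPoint

end Fermat.Agent.GE.Generic
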