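/-
GATE-L / S58 prep (EC-FROB): the anti-invariant points `GAMMA` of an elliptic curve over its own
function field, in the model of `GE/Generic.lean` (Mathlib's function field `FF W κ`).

* `algHom_ext_gen`, `algHom_ext_Pgen` : `κ`-homomorphisms out of `FF` are determined by the image of
  the generic point.
* `jg : RatFunc κ →ₐ[κ] FF W κ` (`X ↦ xg`), `finrank_xg : [FF : κ(xg)] = 2`,
  `finrank_adjoin_jg : [FF : κ(r(xg))] = 2 deg r`.
* `iotag` : the involution `yg ↦ -yg - a₁ xg - a₃`; its fixed field is `κ(xg)` (`iotag_eq_self_iff`).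
* `GAMMA` : the subgroup `{R | ι R = -R}` of `E(FF)`; contains `Pgen`; its points have
  `x`-coordinates in `κ(xg)` (`xRat_of_mem_GAMMA`); the degree `dG` and helper10's exact
  parallelogram law on `GAMMA` (`dG_add_add_dG_sub`), `dG_Pgen = 1`.
* `Const` : the constant points; `κ`-endomorphisms fix them; over algebraically closed `κ` a point
  of `GAMMA` of degree `0` is constant, and every non-constant point is `σ(Pgen)` for a unique
  `κ`-endomorphism `σ` of `FF` (`exists_sig`).
* `dG_map` : **multiplicativity** `d(σ A) = d(A) d(σ Pgen)` (degree of a composition).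
-/
import Mathlib
import Fermat.Agent.GE.Generic
import Fermat.Agent.GE.FieldDeg
import Fermat.Agent.GE.Parallelogram
import Fermat.Agent.GE.CountAbs

namespace Fermat.Agent.GE.GenericGamma

open WeierstrassCurve WeierstrassCurve.Affine Polynomial IntermediateField Module
open Fermat.Agent.GE.Generic Fermat.Agent.GE.FieldDeg Fermat.Agent.GE.Parallelogram
open Fermat.Agent.GE.RatHeight

open scoped Polynomial.Bivariate

universe u

variable {k : Type u} [Field k] (W : WeierstrassCurve.Affine k) (κ : Type u) [Field κ] [Algebra k κ]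

section Ext

variable {L : Type*} [Field L] [Algebra κ L]

/-- A `κ`-algebra homomorphism out of the function field is determined by its values at the
coordinates of the generic point. -/
theorem algHom_ext_gen {σ τ : FF W κ →ₐ[κ] L} (hx : σ (xg W κ) = τ (xg W κ))
    (hy : σ (yg W κ) = τ (yg W κ)) : σ = τ := by
  have h1 : (σ : FF W κ →+* L).comp (algebraMap (CR W κ) (FF W κ)) =
      (τ : FF W κ →+* L).comp (algebraMap (CR W κ) (FF W κ)) := by
    apply AdjoinRoot.ringHom_ext
    · ext a
      · simp only [RingHom.coe_comp, Function.comp_apply, RingHom.coe_coe]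
        have ha : algebraMap (CR W κ) (FF W κ) (AdjoinRoot.of (Wc W κ).polynomial (C a)) =
            algebraMap κ (FF W κ) a := rfl
        rw [ha, AlgHom.commutes, AlgHom.commutes]
      · simp only [RingHom.coe_comp, Function.comp_apply, RingHom.coe_coe]
        exact hx
    · simp only [RingHom.coe_comp, Function.comp_apply, RingHom.coe_coe]
      exact hy
  have h2 : (σ : FF W κ →+* L) = (τ : FF W κ →+* L) :=
    IsLocalization.ringHom_ext (nonZeroDivisors (CR W κ)) h1
  exact AlgHom.coe_ringHom_injective h2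

end Ext

/-- The embedding `κ(X) → FF`, `X ↦ xg`. -/
noncomputable def jg : RatFunc κ →ₐ[κ] FF W κ := liftRat (xg W κ) (transcendental_xg W κ)

@[simp] theorem jg_X : jg W κ RatFunc.X = xg W κ := liftRat_X _ _

theorem jg_algebraMap (p : κ[X]) : jg W κ (algebraMap κ[X] (RatFunc κ) p) = aeval (xg W κ) p :=
  liftRat_algebraMap _ _ p

theorem algebraMap_mk_C (p : κ[X]) :
    algebraMap (CR W κ) (FF W κ) (CoordinateRing.mk (Wc W κ) (C p)) = aeval (xg W κ) p := by
  rw [toFF_eq, map_C, evalEval_C, coe_mapRingHom, eval_map, ← aeval_def]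

theorem finrank_jg : 
    letI := (jg W κ).toRingHom.toAlgebra
    finrank (RatFunc κ) (FF W κ) = 2 := by
  let _ := (jg W κ).toRingHom.toAlgebra
  let _ : Algebra κ[X] (FF W κ) :=
    ((algebraMap (CR W κ) (FF W κ)).comp (algebraMap κ[X] (CR W κ))).toAlgebra
  have : IsScalarTower κ[X] (CR W κ) (FF W κ) := IsScalarTower.of_algebraMap_eq fun _ => rfl
  have : IsScalarTower κ[X] (RatFunc κ) (FF W κ) := IsScalarTower.of_algebraMap_eq fun p => by
    change algebraMap (CR W κ) (FF W κ) (CoordinateRing.mk (Wc W κ) (C p)) =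
      jg W κ (algebraMap κ[X] (RatFunc κ) p)
    rw [jg_algebraMap, algebraMap_mk_C]
  rw [IsFractionRing.finrank_eq κ[X] (RatFunc κ) (CR W κ) (FF W κ),
    Module.finrank_eq_card_basis (CoordinateRing.basis (Wc W κ))]
  rfl

/-- The function field has degree `2` over `κ(xg)`. -/
theorem finrank_xg : finrank κ⟮xg W κ⟯ (FF W κ) = 2 := by
  rw [← finrank_jg W κ]
  symm
  let _ := (jg W κ).toRingHom.toAlgebra
  refine Algebra.finrank_eq_of_equiv_equiv
    (RatFunc.algEquivOfTranscendental (xg W κ) (transcendental_xg W κ)).toRingEquiv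
    (RingEquiv.refl (FF W κ)) ?_
  ext x
  rfl

/-- The degree of `FF` over `κ(r(xg))` is twice the degree of `r`. -/
theorem finrank_adjoin_jg (r : RatFunc κ) :
    finrank κ⟮jg W κ r⟯ (FF W κ) = 2 * RatHeight.rdeg κ r := by
  rw [jg, finrank_adjoin_liftRat, finrank_xg, mul_comm]

theorem equation_neg_gen :
    (W⁄(FF W κ)).toAffine.Equation (xg W κ) ((W⁄(FF W κ)).toAffine.negY (xg W κ) (yg W κ)) :=
  (Affine.equation_neg ..).mpr (equation_gen W κ)

/-- The involution `ι` of the function field: `xg ↦ xg`, `yg ↦ -yg - a₁ xg - a₃`. -/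
noncomputable def iotag : FF W κ →ₐ[κ] FF W κ :=
  spec W κ (equation_neg_gen W κ) (transcendental_xg W κ)

@[simp] theorem iotag_xg : iotag W κ (xg W κ) = xg W κ := spec_xg ..

@[simp] theorem iotag_yg :
    iotag W κ (yg W κ) = (W⁄(FF W κ)).toAffine.negY (xg W κ) (yg W κ) := spec_yg ..

theorem iotag_negY (x y : FF W κ) :
    iotag W κ ((W⁄(FF W κ)).toAffine.negY x y) =
      (W⁄(FF W κ)).toAffine.negY (iotag W κ x) (iotag W κ y) :=
  (Affine.baseChange_negY (W' := W) (iotag W κ) x y).symm

/-- If the generic point were `2`-torsion, the discriminant would vanish. -/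
theorem negY_gen_ne [W.IsElliptic] :
    (W⁄(FF W κ)).toAffine.negY (xg W κ) (yg W κ) ≠ yg W κ := by
  intro h
  -- the relation `2 yg + a₁ xg + a₃ = 0` comes from the coordinate ring
  set W' := Wc W κ with hW'
  have h0 : algebraMap (CR W κ) (FF W κ)
      ((C W'.a₁ * X + C W'.a₃ : κ[X]) • (1 : CR W κ) + (2 : κ[X]) • CoordinateRing.mk W' Y) = 0 := by
    have e1 : (C W'.a₁ * X + C W'.a₃ : κ[X]) • (1 : CR W κ) + (2 : κ[X]) • CoordinateRing.mk W' Y
        = CoordinateRing.mk W' (C (C W'.a₁ * X + C W'.a₃) + C 2 * Y) := by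
      rw [map_add, map_mul, CoordinateRing.smul, CoordinateRing.smul, mul_one]
    rw [e1, toFF_eq]
    simp only [Polynomial.map_add, Polynomial.map_mul, Polynomial.map_C, Polynomial.map_X,
      coe_mapRingHom, Polynomial.map_ofNat, evalEval_add, evalEval_mul, evalEval_C, evalEval_X,
      eval_add, eval_mul, eval_C, eval_X]
    have : (W⁄(FF W κ)).toAffine.negY (xg W κ) (yg W κ) =
        -yg W κ - algebraMap κ (FF W κ) W'.a₁ * xg W κ - algebraMap κ (FF W κ) W'.a₃ := by
      rw [Affine.negY]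
      simp only [hW', WeierstrassCurve.baseChange, WeierstrassCurve.map_a₁, WeierstrassCurve.map_a₃]
      rw [← IsScalarTower.algebraMap_apply, ← IsScalarTower.algebraMap_apply]
    rw [this] at h
    simp only [eval_ofNat]
    linear_combination -h
  rw [map_eq_zero_iff _ (IsFractionRing.injective (CR W κ) (FF W κ))] at h0
  obtain ⟨hp, hq⟩ := CoordinateRing.smul_basis_eq_zero (W' := W') h0
  have h2 : (2 : κ) = 0 := by
    have := congr(Polynomial.coeff $hq 0)
    simpa using this
  have ha1 : W'.a₁ = 0 := by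
    have := congr(Polynomial.coeff $hp 1)
    simpa using this
  have ha3 : W'.a₃ = 0 := by
    have := congr(Polynomial.coeff $hp 0)
    simpa using this
  have hΔ : W'.Δ = 0 := by
    simp only [WeierstrassCurve.Δ, WeierstrassCurve.b₂, WeierstrassCurve.b₄, WeierstrassCurve.b₆,
      WeierstrassCurve.b₈, ha1, ha3]
    linear_combination (-8 * W'.a₂ ^ 2 * (4 * W'.a₂ * W'.a₆ - W'.a₄ ^ 2) - 32 * W'.a₄ ^ 3
      - 216 * W'.a₆ ^ 2 + 144 * W'.a₂ * W'.a₄ * W'.a₆) * h2
  have hu : IsUnit W'.Δ := (instIsEllipticBaseChange W κ).isUnit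
  rw [hΔ] at hu
  exact not_isUnit_zero hu

/-- A `κ`-algebra homomorphism out of `κ(X)` is determined by its value at `X`. -/
theorem ratFunc_algHom_ext {L : Type*} [Field L] [Algebra κ L] {σ τ : RatFunc κ →ₐ[κ] L}
    (h : σ RatFunc.X = τ RatFunc.X) : σ = τ := by
  have h1 : (σ : RatFunc κ →+* L) = (τ : RatFunc κ →+* L) := by
    apply IsLocalization.ringHom_ext (nonZeroDivisors κ[X])
    ext a
    · simp only [RingHom.coe_comp, RingHom.coe_coe, Function.comp_apply]
      rw [RatFunc.algebraMap_C, ← RatFunc.algebraMap_eq_C, AlgHom.commutes, AlgHom.commutes]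
    · simpa using h
  exact AlgHom.coe_ringHom_injective h1

theorem iotag_iotag (z : FF W κ) : iotag W κ (iotag W κ z) = z := by
  have h : (iotag W κ).comp (iotag W κ) = AlgHom.id κ (FF W κ) := by
    apply algHom_ext_gen
    · simp
    · simp only [AlgHom.coe_comp, Function.comp_apply, iotag_yg, iotag_negY, iotag_xg,
        Affine.negY_negY, AlgHom.coe_id, id_eq]
  exact congr($h z)

theorem fieldRange_jg : (jg W κ).fieldRange = κ⟮xg W κ⟯ := fieldRange_liftRat _ _

/-- The fixed field of `ι` is `κ(xg)`. -/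
theorem iotag_eq_self_iff [W.IsElliptic] (z : FF W κ) :
    iotag W κ z = z ↔ ∃ r : RatFunc κ, jg W κ r = z := by
  constructor
  · intro hz
    have hsimple : IsSimpleOrder (IntermediateField κ⟮xg W κ⟯ (FF W κ)) :=
      isSimpleOrder_of_finrank_prime _ _ (by rw [finrank_xg]; exact Nat.prime_two)
    let ι' : FF W κ →ₐ[κ⟮xg W κ⟯] FF W κ := toAdjoinAlgHom (xg W κ) (iotag W κ) (iotag_xg W κ)
    rcases hsimple.eq_bot_or_eq_top (fixedFieldOf ι') with hbot | htop
    · have hmem : z ∈ fixedFieldOf ι' := (mem_fixedFieldOf ι' z).mpr hz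
      rw [hbot, IntermediateField.mem_bot] at hmem
      obtain ⟨⟨w, hw⟩, rfl⟩ := hmem
      rw [← fieldRange_jg] at hw
      exact hw
    · exfalso
      have hmem : yg W κ ∈ fixedFieldOf ι' := by rw [htop]; trivial
      rw [mem_fixedFieldOf] at hmem
      have : iotag W κ (yg W κ) = yg W κ := hmem
      rw [iotag_yg] at this
      exact negY_gen_ne W κ this
  · rintro ⟨r, rfl⟩
    have h : (iotag W κ).comp (jg W κ) = jg W κ := by
      apply ratFunc_algHom_ext
      simp
    exact congr($h r)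

/-- An element algebraic over an algebraically closed field lies in it. -/
theorem exists_algebraMap_eq_of_isAlgebraic [IsAlgClosed κ] {K : Type*} [Field K] [Algebra κ K]
    {x : K} (hx : IsAlgebraic κ x) : ∃ c, algebraMap κ K c = x := by
  have : Algebra.IsAlgebraic κ κ⟮x⟯ := IntermediateField.isAlgebraic_adjoin_simple hx.isIntegral
  have h := IntermediateField.eq_bot_of_isAlgClosed_of_isAlgebraic κ⟮x⟯
  have hx' : x ∈ κ⟮x⟯ := mem_adjoin_simple_self κ x
  rw [h, IntermediateField.mem_bot] at hx'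
  exact hx'

/-- A rational function of degree `0` is constant. -/
theorem jg_eq_algebraMap_of_rdeg_eq_zero {r : RatFunc κ} (hr : rdeg κ r = 0) :
    ∃ c : κ, algebraMap κ (FF W κ) c = jg W κ r := by
  have h1 : rdeg κ r = max r.num.natDegree r.denom.natDegree := by
    conv_lhs => rw [← RatFunc.num_div_denom r]
    exact rdeg_div (RatFunc.isCoprime_num_denom r) (RatFunc.denom_ne_zero r)
  rw [h1] at hr
  have hn : r.num.natDegree = 0 := by omega
  have hd : r.denom.natDegree = 0 := by omega
  obtain ⟨a, ha⟩ : ∃ a, r.num = C a := ⟨_, eq_C_of_natDegree_eq_zero hn⟩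
  obtain ⟨b, hb⟩ : ∃ b, r.denom = C b := ⟨_, eq_C_of_natDegree_eq_zero hd⟩
  refine ⟨a / b, ?_⟩
  conv_rhs => rw [← RatFunc.num_div_denom r]
  rw [map_div₀, map_div₀, jg_algebraMap, jg_algebraMap, ha, hb, aeval_C, aeval_C]

section Points

open scoped Classical

variable [W.IsElliptic]

/-- The group of points over the function field. -/
abbrev EK : Type u := (W⁄(FF W κ)).toAffine.Point

/-- The involution `ι` on points. -/
noncomputable def iotaPt : EK W κ →+ EK W κ := Point.map (W' := W) (iotag W κ)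

theorem iotaPt_Pgen : iotaPt W κ (Pgen W κ) = -Pgen W κ := by
  rw [iotaPt, iotag, map_spec_Pgen W κ ((Affine.nonsingular_neg ..).mpr (nonsingular_gen W κ))]
  rfl

/-- The anti-invariant points. -/
noncomputable def GAMMA : AddSubgroup (EK W κ) := (iotaPt W κ + AddMonoidHom.id _).ker

theorem mem_GAMMA {R : EK W κ} : R ∈ GAMMA W κ ↔ iotaPt W κ R = -R := by
  rw [GAMMA, AddMonoidHom.mem_ker, AddMonoidHom.add_apply, AddMonoidHom.id_apply,
    add_eq_zero_iff_eq_neg]

theorem Pgen_mem_GAMMA : Pgen W κ ∈ GAMMA W κ := (mem_GAMMA W κ).mpr (iotaPt_Pgen W κ)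

/-- The ring homomorphism `κ(X) → FF` underlying `jg`. -/
noncomputable abbrev jr : RatFunc κ →+* FF W κ := (jg W κ : RatFunc κ →+* FF W κ)

theorem xRat_of_mem_GAMMA {R : EK W κ} (hR : R ∈ GAMMA W κ) : XRat (jr W κ) R := by
  rcases R with _ | ⟨x, y, h⟩
  · exact xRat_zero _
  · rw [xRat_some_iff]
    rw [mem_GAMMA, iotaPt, Point.map_some, Point.neg_some, Point.some.injEq] at hR
    exact (iotag_eq_self_iff W κ x).mp hR.1

/-- The `x`-degree of a point (meaningful on `GAMMA`). -/
noncomputable def dG (R : EK W κ) : ℕ := xdeg κ (jr W κ) R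

theorem baseChange_eq_map :
    (W⁄(FF W κ)) = (Wc W κ).map ((jr W κ).comp (cK κ (RatFunc κ))) := by
  have h : (jr W κ).comp (cK κ (RatFunc κ)) = algebraMap κ (FF W κ) := by
    ext a
    simp only [cK, RingHom.coe_comp, RingHom.coe_coe, Function.comp_apply]
    rw [RatFunc.algebraMap_C, ← RatFunc.algebraMap_eq_C, AlgHom.commutes]
  rw [h]
  change WeierstrassCurve.map W (algebraMap k (FF W κ)) =
    WeierstrassCurve.map (WeierstrassCurve.map W (algebraMap k κ)) (algebraMap κ (FF W κ))
  rw [WeierstrassCurve.map_map, ← IsScalarTower.algebraMap_eq]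

/-- The parallelogram law on `GAMMA`. -/
theorem dG_add_add_dG_sub {P Q : EK W κ} (hP : P ∈ GAMMA W κ) (hQ : Q ∈ GAMMA W κ) :
    dG W κ (P + Q) + dG W κ (P - Q) = 2 * dG W κ P + 2 * dG W κ Q :=
  xdeg_add_add_xdeg_sub (Wc W κ) (jr W κ) (baseChange_eq_map W κ)
    (xRat_of_mem_GAMMA W κ hP) (xRat_of_mem_GAMMA W κ hQ)
    (xRat_of_mem_GAMMA W κ ((GAMMA W κ).add_mem hP hQ))
    (xRat_of_mem_GAMMA W κ ((GAMMA W κ).sub_mem hP hQ))

theorem dG_zero : dG W κ 0 = 0 := xdeg_zero _

theorem dG_neg (R : EK W κ) : dG W κ (-R) = dG W κ R := xdeg_neg _ R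

theorem dG_some {x y : FF W κ} (h : (W⁄(FF W κ)).toAffine.Nonsingular x y) {r : RatFunc κ}
    (hr : jg W κ r = x) : dG W κ (Point.some x y h) = rdeg κ r :=
  xdeg_some _ h hr

theorem dG_Pgen : dG W κ (Pgen W κ) = 1 := by
  rw [Pgen, dG_some W κ _ (jg_X W κ), ← RatFunc.algebraMap_X, rdeg_algebraMap, natDegree_X]

/-- A `κ`-endomorphism of the function field is determined by the image of the generic point. -/
theorem algHom_ext_Pgen {σ τ : FF W κ →ₐ[κ] FF W κ}
    (h : Point.map (W' := W) σ (Pgen W κ) = Point.map (W' := W) τ (Pgen W κ)) : σ = τ := by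
  rw [Pgen, Point.map_some, Point.map_some] at h
  have h' := Point.some.inj h
  exact algHom_ext_gen W κ h'.1 h'.2

theorem x_map_Pgen (σ : FF W κ →ₐ[κ] FF W κ) :
    Point.map (W' := W) σ (Pgen W κ) = Point.some (σ (xg W κ)) (σ (yg W κ))
      ((Affine.baseChange_nonsingular W σ.injective ..).mpr (nonsingular_gen W κ)) := rfl

/-- An endomorphism sending the generic point into `GAMMA` commutes with `ι`. -/
theorem comp_iotag_of_mem_GAMMA (σ : FF W κ →ₐ[κ] FF W κ)
    (hS : Point.map (W' := W) σ (Pgen W κ) ∈ GAMMA W κ) :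
    σ.comp (iotag W κ) = (iotag W κ).comp σ := by
  apply algHom_ext_Pgen
  rw [← Point.map_map, ← Point.map_map]
  have h1 : Point.map (W' := W) (iotag W κ) (Pgen W κ) = -Pgen W κ := iotaPt_Pgen W κ
  have h2 := (mem_GAMMA W κ).mp hS
  rw [iotaPt] at h2
  rw [h1, map_neg, h2]

theorem map_mem_GAMMA (σ : FF W κ →ₐ[κ] FF W κ)
    (hS : Point.map (W' := W) σ (Pgen W κ) ∈ GAMMA W κ) {A : EK W κ} (hA : A ∈ GAMMA W κ) :
    Point.map (W' := W) σ A ∈ GAMMA W κ := by
  rw [mem_GAMMA, iotaPt, Point.map_map, ← comp_iotag_of_mem_GAMMA W κ σ hS, ← Point.map_map]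
  have h2 := (mem_GAMMA W κ).mp hA
  rw [iotaPt] at h2
  rw [h2, map_neg]

/-- **Multiplicativity of the degree** under composition. -/
theorem dG_map (σ : FF W κ →ₐ[κ] FF W κ)
    (hS : Point.map (W' := W) σ (Pgen W κ) ∈ GAMMA W κ) {A : EK W κ} (hA : A ∈ GAMMA W κ) :
    dG W κ (Point.map (W' := W) σ A) =
      dG W κ A * dG W κ (Point.map (W' := W) σ (Pgen W κ)) := by
  -- the `x`-coordinate of `S = σ(Pgen)` is a rational function `s` of `xg`
  have hSx := xRat_of_mem_GAMMA W κ hS
  rw [x_map_Pgen, xRat_some_iff] at hSx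
  obtain ⟨s, hs⟩ := hSx
  have hs' : jg W κ s = σ (xg W κ) := hs
  have hstr : Transcendental κ s := by
    intro halg
    have h1 : IsAlgebraic κ (σ (xg W κ)) := by
      rw [← hs']
      exact halg.algHom (jg W κ)
    exact transcendental_xg W κ ((isAlgebraic_algHom_iff σ σ.injective).mp h1)
  have hcomp : σ.comp (jg W κ) = (jg W κ).comp (liftRat s hstr) := by
    apply ratFunc_algHom_ext
    simp only [AlgHom.coe_comp, Function.comp_apply, jg_X, liftRat_X]
    exact hs'.symm
  rw [x_map_Pgen, dG_some W κ _ hs']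
  rcases A with _ | ⟨x, y, h⟩
  · have : Point.map (W' := W) σ (0 : EK W κ) = 0 := map_zero _
    rw [← Point.zero_def, this, dG_zero, zero_mul]
  · have hAx := xRat_of_mem_GAMMA W κ hA
    rw [xRat_some_iff] at hAx
    obtain ⟨a, ha⟩ := hAx
    have ha' : jg W κ a = x := ha
    rw [Point.map_some, dG_some W κ h ha', ← rdeg_liftRat s hstr a]
    apply dG_some
    rw [← ha']
    exact (congr($hcomp a)).symm

/-- The group of points over the constants. -/
abbrev Eκ : Type u := (W⁄κ).toAffine.Point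

/-- Constant points. -/
noncomputable def cst : Eκ W κ →+ EK W κ := Point.map (W' := W) (Algebra.ofId κ (FF W κ))

theorem cst_some {c y₀ : κ} (h : (W⁄κ).toAffine.Nonsingular c y₀)
    (h' : (W⁄(FF W κ)).toAffine.Nonsingular (algebraMap κ (FF W κ) c)
      (algebraMap κ (FF W κ) y₀)) :
    cst W κ (Point.some c y₀ h) = Point.some (algebraMap κ (FF W κ) c) (algebraMap κ (FF W κ) y₀) h' :=
  rfl

theorem cst_injective : Function.Injective (cst W κ) := Point.map_injective _

/-- The subgroup of constant points. -/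
noncomputable def Const : AddSubgroup (EK W κ) := (cst W κ).range

/-- `κ`-endomorphisms of the function field fix the constant points. -/
theorem map_cst (σ : FF W κ →ₐ[κ] FF W κ) (T : Eκ W κ) :
    Point.map (W' := W) σ (cst W κ T) = cst W κ T :=
  Point.map_baseChange (W' := W) σ T

theorem map_of_mem_Const (σ : FF W κ →ₐ[κ] FF W κ) {R : EK W κ} (hR : R ∈ Const W κ) :
    Point.map (W' := W) σ R = R := by
  obtain ⟨T, rfl⟩ := hR
  exact map_cst W κ σ T

/-- The bridge between the `x`-degree and the field degree. -/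
theorem finrank_adjoin_x {x y : FF W κ} (h : (W⁄(FF W κ)).toAffine.Nonsingular x y)
    (hR : Point.some x y h ∈ GAMMA W κ) :
    finrank κ⟮x⟯ (FF W κ) = 2 * dG W κ (Point.some x y h) := by
  have hx := xRat_of_mem_GAMMA W κ hR
  rw [xRat_some_iff] at hx
  obtain ⟨r, hr⟩ := hx
  have hr' : jg W κ r = x := hr
  rw [dG_some W κ h hr', ← hr', finrank_adjoin_jg]

/-- Points of `GAMMA ∩ Const` are `2`-torsion. -/
theorem neg_eq_self_of_mem_GAMMA_of_mem_Const {R : EK W κ} (hR : R ∈ GAMMA W κ)
    (hc : R ∈ Const W κ) : -R = R := by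
  rw [mem_GAMMA, iotaPt, map_of_mem_Const W κ _ hc] at hR
  exact hR.symm

/-- Constant points have degree `0`. -/
theorem dG_of_mem_Const {R : EK W κ} (hc : R ∈ Const W κ) : dG W κ R = 0 := by
  obtain ⟨T, rfl⟩ := hc
  rcases T with _ | ⟨c, y₀, h₀⟩
  · have : cst W κ 0 = 0 := map_zero _
    rw [← Point.zero_def, this, dG_zero]
  · have h1 : (W⁄(FF W κ)).toAffine.Nonsingular (algebraMap κ (FF W κ) c)
        (algebraMap κ (FF W κ) y₀) :=
      (Affine.baseChange_nonsingular W (Algebra.ofId κ (FF W κ)).injective ..).mpr h₀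
    rw [cst_some W κ h₀ h1, dG_some W κ h1 (r := RatFunc.C c)
      (by rw [← RatFunc.algebraMap_eq_C, AlgHom.commutes])]
    have : (RatFunc.C c : RatFunc κ) = algebraMap κ[X] (RatFunc κ) (C c) :=
      (RatFunc.algebraMap_C c).symm
    rw [this, rdeg_algebraMap, natDegree_C]

variable [IsAlgClosed κ]

/-- A point with constant `x`-coordinate is constant. -/
theorem mem_Const_of_x {x y : FF W κ} (h : (W⁄(FF W κ)).toAffine.Nonsingular x y) (c : κ)
    (hx : algebraMap κ (FF W κ) c = x) : Point.some x y h ∈ Const W κ := by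
  obtain ⟨y₀, h₀⟩ := CountAbs.exists_point_of_x (W⁄κ).toAffine c
  have h1 : (W⁄(FF W κ)).toAffine.Nonsingular (algebraMap κ (FF W κ) c) (algebraMap κ (FF W κ) y₀) :=
    (Affine.baseChange_nonsingular W (Algebra.ofId κ (FF W κ)).injective ..).mpr h₀
  rcases Affine.Y_eq_of_X_eq h.1 h1.1 hx.symm with hy | hy
  · refine ⟨Point.some c y₀ h₀, ?_⟩
    rw [cst_some W κ h₀ h1]
    congr 1
    · exact hy.symm
  · refine ⟨-Point.some c y₀ h₀, ?_⟩
    rw [map_neg, cst_some W κ h₀ h1]
    refine (Point.neg_some h1).trans ?_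
    congr 1
    · exact hy.symm

/-- A non-constant affine point has transcendental `x`-coordinate. -/
theorem transcendental_of_not_mem_Const {x y : FF W κ}
    (h : (W⁄(FF W κ)).toAffine.Nonsingular x y) (hR : Point.some x y h ∉ Const W κ) :
    Transcendental κ x := by
  intro halg
  obtain ⟨c, hc⟩ := exists_algebraMap_eq_of_isAlgebraic κ halg
  exact hR (mem_Const_of_x W κ h c hc)

theorem zero_mem_Const : (0 : EK W κ) ∈ Const W κ := (Const W κ).zero_mem

theorem Pgen_not_mem_Const : Pgen W κ ∉ Const W κ := by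
  rintro ⟨T, hT⟩
  rcases T with _ | ⟨c, y₀, h₀⟩
  · have : cst W κ 0 = 0 := map_zero _
    rw [← Point.zero_def, this] at hT
    exact Point.some_ne_zero _ hT.symm
  · have h1 : (W⁄(FF W κ)).toAffine.Nonsingular (algebraMap κ (FF W κ) c)
        (algebraMap κ (FF W κ) y₀) :=
      (Affine.baseChange_nonsingular W (Algebra.ofId κ (FF W κ)).injective ..).mpr h₀
    rw [cst_some W κ h₀ h1, Pgen] at hT
    have hT' := Point.some.inj hT
    apply transcendental_xg W κ
    rw [← hT'.1]
    exact isAlgebraic_algebraMap c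

/-- A point of `GAMMA` of degree `0` is constant. -/
theorem mem_Const_of_dG_eq_zero {R : EK W κ} (hR : R ∈ GAMMA W κ) (hd : dG W κ R = 0) :
    R ∈ Const W κ := by
  rcases R with _ | ⟨x, y, h⟩
  · exact (Const W κ).zero_mem
  · have hx := xRat_of_mem_GAMMA W κ hR
    rw [xRat_some_iff] at hx
    obtain ⟨r, hr⟩ := hx
    have hr' : jg W κ r = x := hr
    rw [dG_some W κ h hr'] at hd
    obtain ⟨c, hc⟩ := jg_eq_algebraMap_of_rdeg_eq_zero W κ hd
    exact mem_Const_of_x W κ h c (hc.trans hr')

/-- Every non-constant point is the image of the generic point under a (unique)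
`κ`-endomorphism of the function field. -/
theorem exists_sig {R : EK W κ} (hR : R ∉ Const W κ) :
    ∃ σ : FF W κ →ₐ[κ] FF W κ, Point.map (W' := W) σ (Pgen W κ) = R := by
  rcases R with _ | ⟨x, y, h⟩
  · exact absurd (Const W κ).zero_mem hR
  · exact ⟨spec W κ h.1 (transcendental_of_not_mem_Const W κ h hR), map_spec_Pgen W κ h _⟩

end Points

end Fermat.Agent.GE.GenericGamma
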