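/-
GATE-L / S58 prep: **EC-FROB-0** by the "ALT-COUNT" route (no places, no reduction map, no local
analysis): for an elliptic curve `W` over a finite field `k` with `q` elements and any field
`L ⊇ k`, the `q`-Frobenius `φ` on `W(L)` satisfies `φ² - (q + 1 - #W(k)) φ + q = 0`
(all characteristics, including `2` and `3`).

Route (on top of `GE/Generic.lean`, `GE/GenericGamma.lean`, `GE/FieldDeg.lean`, helper10's exact
parallelogram law and helper27's `QuadFormFrob`): `κ` an algebraically closed field containing `k`,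
`K = FF W κ` the function field, `P = Pgen` the generic point, `d` the `x`-degree on `GAMMA`.

* (C) `d((1 ∓ φ) P) = #ker(1 ∓ φ on E(κ))`: the `2 #ker` endomorphisms `σ` of `K` with
  `σ(P) = ±P + T`, `T ∈ ker`, all fix `x((1 ∓ φ) P)`, so `#ker ≤ d` by Artin's bound
  (`card_ker_le`); the two lower bounds add up to `2q + 2` by an elementary count of the points of
  `E(κ)` above `k`-rational `x` (`card_ker_sub_add_card_ker_add_phiκ`), and so do the two degrees
  by the parallelogram law: both inequalities are equalities (`dG_sub_eq`).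
* (M) `d((1 - φ²) P) = d((1 - φ) P) d((1 + φ) P)` by multiplicativity of the degree under the
  endomorphism `σ` of `K` with `σ(P) = (1 + φ) P` (`dG_sub_sq`).
* helper27's `d_frob_quadratic_eq_zero` gives `d(ψ P) = 0` for `ψ = φ² - aφ + q`, so `ψ P` is a
  constant point (`relation_Pgen_mem_Const`); applying the endomorphism `σ` with `σ(P) = P + T`
  (which fixes constant points) gives `ψ T = 0` for every `T ∈ E(κ)` (`frob_quadratic_algClosed`).
* `frob_quadratic` : the relation over any field `L ⊇ k` (embed `L` in its algebraic closure).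
-/
import Mathlib
import Fermat.Agent.GE.GenericGamma
import Fermat.Agent.GE.RatFuncDeg
import Fermat.Agent.GE.FrobFinal
import Fermat.Agent.GE.QuadFormFrob

namespace Fermat.Agent.GE.GenericFrob

open WeierstrassCurve WeierstrassCurve.Affine Polynomial IntermediateField Module
open Fermat.Agent.GE.Generic Fermat.Agent.GE.FieldDeg Fermat.Agent.GE.Parallelogram
open Fermat.Agent.GE.RatHeight Fermat.Agent.GE.GenericGamma Fermat.Agent.GE.FrobSpec

open scoped Polynomial.Bivariate

universe u

open scoped Classical in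
/-- **Counting lemma.** Let `φ` be an endomorphism of an abelian group `V`, and let `T₀ : I → V` be
a system of representatives of the `±`-orbits of the set `{T | φ T = T ∨ φ T = -T}`. Then
`#ker(1 - φ) + #ker(1 + φ) = 2 #I`. -/
theorem card_ker_sub_add_card_ker_add {V : Type*} [AddCommGroup V] {I : Type*} [Fintype I]
    (φ : V →+ V) (T₀ : I → V)
    (hφ : ∀ i, φ (T₀ i) = T₀ i ∨ φ (T₀ i) = -T₀ i)
    (hcov : ∀ T, (φ T = T ∨ φ T = -T) → ∃ i, T = T₀ i ∨ T = -T₀ i)
    (hinj : ∀ i j, (T₀ i = T₀ j ∨ T₀ i = -T₀ j) → i = j) :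
    Nat.card (AddMonoidHom.id V - φ).ker + Nat.card (AddMonoidHom.id V + φ).ker =
      2 * Fintype.card I := by
  set X : Finset V := Finset.univ.biUnion (fun i => ({T₀ i, -T₀ i} : Finset V)) with hX
  have memX : ∀ T, T ∈ X ↔ (φ T = T ∨ φ T = -T) := by
    intro T
    rw [hX, Finset.mem_biUnion]
    constructor
    · rintro ⟨i, -, hi⟩
      rw [Finset.mem_insert, Finset.mem_singleton] at hi
      rcases hi with rfl | rfl
      · exact hφ i
      · rw [map_neg, neg_neg]
        rcases hφ i with h | h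
        · left; rw [h]
        · right; rw [h, neg_neg]
    · intro h
      obtain ⟨i, hi⟩ := hcov T h
      refine ⟨i, Finset.mem_univ _, ?_⟩
      rw [Finset.mem_insert, Finset.mem_singleton]
      exact hi
  -- the two kernels as finsets
  have hm : Nat.card (AddMonoidHom.id V - φ).ker = (X.filter (fun T => φ T = T)).card := by
    refine Nat.subtype_card (p := fun T => T ∈ (AddMonoidHom.id V - φ).ker) _ ?_
    intro T
    rw [Finset.mem_filter, memX, AddMonoidHom.mem_ker, AddMonoidHom.sub_apply,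
      AddMonoidHom.id_apply, sub_eq_zero]
    constructor
    · rintro ⟨-, h⟩; exact h.symm
    · intro h; exact ⟨Or.inl h.symm, h.symm⟩
  have hp : Nat.card (AddMonoidHom.id V + φ).ker = (X.filter (fun T => φ T = -T)).card := by
    refine Nat.subtype_card (p := fun T => T ∈ (AddMonoidHom.id V + φ).ker) _ ?_
    intro T
    rw [Finset.mem_filter, memX, AddMonoidHom.mem_ker, AddMonoidHom.add_apply,
      AddMonoidHom.id_apply, add_comm, add_eq_zero_iff_eq_neg]
    constructor
    · rintro ⟨-, h⟩; exact h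
    · intro h; exact ⟨Or.inr h, h⟩
  rw [hm, hp, ← Finset.card_union_add_card_inter]
  have hU : X.filter (fun T => φ T = T) ∪ X.filter (fun T => φ T = -T) = X := by
    ext T
    rw [Finset.mem_union, Finset.mem_filter, Finset.mem_filter, memX]
    tauto
  have hI : X.filter (fun T => φ T = T) ∩ X.filter (fun T => φ T = -T) =
      X.filter (fun T => T = -T) := by
    ext T
    rw [Finset.mem_inter, Finset.mem_filter, Finset.mem_filter, Finset.mem_filter, memX]
    constructor
    · rintro ⟨⟨h1, h2⟩, -, h3⟩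
      exact ⟨h1, h2.symm.trans h3⟩
    · rintro ⟨h1, h2⟩
      have h3 : φ T = T := by
        rcases h1 with h | h
        · exact h
        · rw [h, ← h2]
      exact ⟨⟨Or.inl h3, h3⟩, Or.inl h3, h3.trans h2⟩
  rw [hU, hI]
  -- count over the orbits
  have hdisj : (↑(Finset.univ : Finset I) : Set I).PairwiseDisjoint
      (fun i => ({T₀ i, -T₀ i} : Finset V)) := by
    intro i _ j _ hij
    rw [Function.onFun, Finset.disjoint_left]
    intro T hi hj
    rw [Finset.mem_insert, Finset.mem_singleton] at hi hj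
    apply hij
    apply hinj
    rcases hi with rfl | rfl <;> rcases hj with h | h
    · exact Or.inl h
    · exact Or.inr h
    · right; rw [← h, neg_neg]
    · left; exact neg_injective h
  have hcX : X.card = ∑ i, ({T₀ i, -T₀ i} : Finset V).card := Finset.card_biUnion hdisj
  have hcX2 : (X.filter (fun T => T = -T)).card =
      ∑ i, (({T₀ i, -T₀ i} : Finset V).filter (fun T => T = -T)).card := by
    rw [hX, Finset.filter_biUnion]
    apply Finset.card_biUnion
    intro i hi j hj hij
    exact Finset.disjoint_filter_filter (hdisj hi hj hij)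
  rw [hcX, hcX2, ← Finset.sum_add_distrib]
  have hterm : ∀ i, ({T₀ i, -T₀ i} : Finset V).card +
      (({T₀ i, -T₀ i} : Finset V).filter (fun T => T = -T)).card = 2 := by
    intro i
    by_cases h : T₀ i = -T₀ i
    · have : ({T₀ i, -T₀ i} : Finset V) = {T₀ i} := by
        rw [← h]; exact Finset.pair_eq_singleton _
      rw [this, Finset.filter_singleton, if_pos h, Finset.card_singleton]
    · have h' : ¬ (-T₀ i = - -T₀ i) := by
        rw [neg_neg]; exact fun h'' => h h''.symm
      rw [Finset.card_pair h, Finset.filter_insert, if_neg h, Finset.filter_singleton, if_neg h',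
        Finset.card_empty]
  rw [Finset.sum_congr rfl (fun i _ => hterm i), Finset.sum_const, Finset.card_univ, smul_eq_mul,
    mul_comm]

/-- Artin's bound, without assuming finiteness of the index set. -/
theorem finite_and_card_le_finrank_adjoin {κ : Type*} [Field κ] {K : Type*} [Field K]
    [Algebra κ K] {T : Type*} (g : T → K →ₐ[κ] K) (hg : Function.Injective g) (f : K) (hf : ∀ t, g t f = f)
    (hfin : finrank κ⟮f⟯ K ≠ 0) : Finite T ∧ Nat.card T ≤ finrank κ⟮f⟯ K := by
  have : FiniteDimensional κ⟮f⟯ K := Module.finite_of_finrank_pos (Nat.pos_of_ne_zero hfin)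
  have hT : Finite T := by
    refine Finite.of_injective (fun t => toAdjoinAlgHom f (g t) (hf t)) ?_
    intro t t' htt
    apply hg
    ext a
    have := congr($htt a)
    simpa [toAdjoinAlgHom_apply] using this
  exact ⟨hT, card_le_finrank_adjoin g hg f hf hfin⟩

section Frob

variable {k : Type u} [Field k] [Fintype k] (W : WeierstrassCurve.Affine k) [W.IsElliptic]
variable (κ : Type u) [Field κ] [Algebra k κ]

open scoped Classical

/-- Frobenius on the points over the function field. -/
noncomputable abbrev phiK : EK W κ →+ EK W κ := frobPt k (FF W κ) (W₀ := W)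

/-- Frobenius on the points over the constants. -/
noncomputable abbrev phiκ : Eκ W κ →+ Eκ W κ := frobPt k κ (W₀ := W)

omit [Fintype k] [W.IsElliptic] in
theorem map_restrictScalars {L L' : Type u} [Field L] [Field L'] [Algebra k L] [Algebra κ L]
    [IsScalarTower k κ L] [Algebra k L'] [Algebra κ L'] [IsScalarTower k κ L']
    (σ : L →ₐ[κ] L') (P : (W⁄L).toAffine.Point) :
    Point.map (W' := W) (σ.restrictScalars k) P = Point.map (W' := W) σ P := by
  cases P <;> rfl

/-- Frobenius commutes with the maps induced by `κ`-endomorphisms of the function field. -/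
theorem map_phiK (σ : FF W κ →ₐ[κ] FF W κ) (R : EK W κ) :
    Point.map (W' := W) σ (phiK W κ R) = phiK W κ (Point.map (W' := W) σ R) := by
  rw [← map_restrictScalars W κ σ, ← map_restrictScalars W κ σ]
  exact (frobPt_map k (σ.restrictScalars k) R).symm

/-- Frobenius commutes with the inclusion of the constant points. -/
theorem phiK_cst (T : Eκ W κ) : phiK W κ (cst W κ T) = cst W κ (phiκ W κ T) := by
  rw [cst, ← map_restrictScalars W κ (Algebra.ofId κ (FF W κ))]
  exact frobPt_map k ((Algebra.ofId κ (FF W κ)).restrictScalars k) T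

theorem phiK_mem_Const {R : EK W κ} (hR : R ∈ Const W κ) : phiK W κ R ∈ Const W κ := by
  obtain ⟨T, rfl⟩ := hR
  exact ⟨phiκ W κ T, (phiK_cst W κ T).symm⟩

theorem phiK_mem_GAMMA {R : EK W κ} (hR : R ∈ GAMMA W κ) : phiK W κ R ∈ GAMMA W κ := by
  rw [mem_GAMMA] at hR ⊢
  rw [iotaPt] at hR ⊢
  rw [map_phiK, hR, map_neg]

theorem dG_phiK {R : EK W κ} (hR : R ∈ GAMMA W κ) :
    dG W κ (phiK W κ R) = Fintype.card k * dG W κ R := by
  rcases R with _ | ⟨x, y, h⟩
  · have : phiK W κ (0 : EK W κ) = 0 := map_zero _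
    rw [← Point.zero_def, this, dG_zero, mul_zero]
  · have hx := xRat_of_mem_GAMMA W κ hR
    rw [xRat_some_iff] at hx
    obtain ⟨r, hr⟩ := hx
    have hr' : jg W κ r = x := hr
    obtain ⟨h', e⟩ := frobPt_some k (W₀ := W) h
    rw [e, dG_some W κ h hr', dG_some W κ h' (r := r ^ Fintype.card k) (by rw [map_pow, hr']),
      RatFuncDeg.rdeg_pow]

variable [IsAlgClosed κ]

/-- `2 Pgen` is not constant. -/
theorem two_Pgen_not_mem_Const : Pgen W κ + Pgen W κ ∉ Const W κ := by
  intro h
  have h0 := dG_of_mem_Const W κ h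
  have hpar := dG_add_add_dG_sub W κ (Pgen_mem_GAMMA W κ) (Pgen_mem_GAMMA W κ)
  rw [sub_self, dG_zero, dG_Pgen, h0] at hpar
  omega

/-- **Artin lower bound** for the degree of `θ(Pgen)`, `θ` an endomorphism of `E` defined over the
constants and commuting with all `κ`-endomorphisms of the function field:
`#ker θ ≤ d(θ Pgen)` as soon as `θ Pgen` is not constant. -/
theorem card_ker_le (θK : EK W κ →+ EK W κ) (θκ : Eκ W κ →+ Eκ W κ)
    (hcst : ∀ T, θK (cst W κ T) = cst W κ (θκ T))
    (hcomm : ∀ (σ : FF W κ →ₐ[κ] FF W κ) (R : EK W κ),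
      Point.map (W' := W) σ (θK R) = θK (Point.map (W' := W) σ R))
    (hG : θK (Pgen W κ) ∈ GAMMA W κ) (hnc : θK (Pgen W κ) ∉ Const W κ) :
    Finite θκ.ker ∧ Nat.card θκ.ker ≤ dG W κ (θK (Pgen W κ)) := by
  -- the points `± Pgen + T`
  let pt : Bool × θκ.ker → EK W κ := fun bT =>
    (if bT.1 then Pgen W κ else -Pgen W κ) + cst W κ bT.2.1
  have hpt_nc : ∀ bT, pt bT ∉ Const W κ := by
    rintro ⟨b, T⟩ h
    have h1 : (if b then Pgen W κ else -Pgen W κ) ∈ Const W κ := by
      have := (Const W κ).sub_mem h (⟨T.1, rfl⟩ : cst W κ T.1 ∈ Const W κ)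
      simpa [pt] using this
    cases b
    · simp only [Bool.false_eq_true, if_false] at h1
      exact Pgen_not_mem_Const W κ (by simpa using (Const W κ).neg_mem h1)
    · simp only [if_true] at h1
      exact Pgen_not_mem_Const W κ h1
  choose g hg using fun bT => exists_sig W κ (hpt_nc bT)
  have hpt_inj : Function.Injective pt := by
    rintro ⟨b, T⟩ ⟨b', T'⟩ h
    simp only [pt] at h
    have hb : b = b' := by
      by_contra hbb
      apply two_Pgen_not_mem_Const W κ
      cases b <;> cases b' <;> simp only [Bool.false_eq_true, if_false, if_true] at h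
      · exact absurd rfl hbb
      · -- -P + T = P + T'
        have : Pgen W κ + Pgen W κ = cst W κ (T.1 - T'.1) := by
          rw [map_sub]
          have h' := h
          rw [neg_add_eq_iff_eq_add] at h'
          rw [h']
          abel
        rw [this]; exact ⟨_, rfl⟩
      · have : Pgen W κ + Pgen W κ = cst W κ (T'.1 - T.1) := by
          rw [map_sub]
          have h' := h.symm
          rw [neg_add_eq_iff_eq_add] at h'
          rw [h']
          abel
        rw [this]; exact ⟨_, rfl⟩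
      · exact absurd rfl hbb
    subst hb
    have hT : cst W κ T.1 = cst W κ T'.1 := add_left_cancel h
    have := cst_injective W κ hT
    rw [Subtype.ext this]
  have hg_inj : Function.Injective g := by
    intro bT bT' h
    apply hpt_inj
    rw [← hg bT, ← hg bT', h]
  -- `θ Pgen` is an affine point
  obtain ⟨x, y, h, hA⟩ : ∃ x y, ∃ h : (W⁄(FF W κ)).toAffine.Nonsingular x y,
      θK (Pgen W κ) = Point.some x y h := by
    rcases hθ : θK (Pgen W κ) with _ | ⟨x, y, h⟩
    · exfalso
      apply hnc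
      rw [hθ]
      exact (Const W κ).zero_mem
    · exact ⟨x, y, h, rfl⟩
  -- every `g bT` fixes its `x`-coordinate
  have hfix : ∀ bT, g bT x = x := by
    rintro ⟨b, T⟩
    have h1 : Point.map (W' := W) (g (b, T)) (θK (Pgen W κ)) =
        θK ((if b then Pgen W κ else -Pgen W κ) + cst W κ T.1) := by
      rw [hcomm, hg]
    have hT : θκ T.1 = 0 := T.2
    rw [map_add, hcst, hT, map_zero, add_zero] at h1
    have h2 : Point.map (W' := W) (g (b, T)) (θK (Pgen W κ)) = θK (Pgen W κ) ∨
        Point.map (W' := W) (g (b, T)) (θK (Pgen W κ)) = -θK (Pgen W κ) := by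
      cases b
      · right; rw [h1]; simp
      · left; rw [h1]; simp
    rw [hA, Point.map_some] at h2
    rcases h2 with h2 | h2
    · exact (Point.some.inj h2).1
    · rw [Point.neg_some] at h2
      exact (Point.some.inj h2).1
  have hA' : Point.some x y h ∈ GAMMA W κ := hA ▸ hG
  have hbridge := finrank_adjoin_x W κ h hA'
  have hd0 : dG W κ (Point.some x y h) ≠ 0 := by
    intro h0
    exact hnc (hA ▸ mem_Const_of_dG_eq_zero W κ hA' h0)
  have hfin : finrank κ⟮x⟯ (FF W κ) ≠ 0 := by rw [hbridge]; omega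
  obtain ⟨hF, hle⟩ := finite_and_card_le_finrank_adjoin g hg_inj x hfix hfin
  have hFk : Finite θκ.ker := by
    have : Nonempty Bool := ⟨true⟩
    exact Finite.of_injective (fun T : θκ.ker => ((true, T) : Bool × θκ.ker))
      (fun T T' h => (Prod.mk.inj h).2)
  refine ⟨hFk, ?_⟩
  rw [Nat.card_prod, Nat.card_eq_fintype_card (α := Bool), Fintype.card_bool, hbridge] at hle
  rw [hA]
  omega

/-- a chosen point above each `x`-coordinate in `k` -/
noncomputable def repPt : Option k → Eκ W κ
  | none => 0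
  | some c => Point.some (algebraMap k κ c)
      (CountAbs.exists_point_of_x (W⁄κ).toAffine (algebraMap k κ c)).choose
      (CountAbs.exists_point_of_x (W⁄κ).toAffine (algebraMap k κ c)).choose_spec

/-- **The count** `#ker(1 - φ) + #ker(1 + φ) = 2 (q + 1)` on `E(κ)`. -/
theorem card_ker_sub_add_card_ker_add_phiκ :
    Nat.card (AddMonoidHom.id (Eκ W κ) - phiκ W κ).ker +
      Nat.card (AddMonoidHom.id (Eκ W κ) + phiκ W κ).ker = 2 * (Fintype.card k + 1) := by
  rw [← Fintype.card_option]
  refine card_ker_sub_add_card_ker_add (phiκ W κ) (repPt W κ) ?_ ?_ ?_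
  · rintro (_ | c)
    · left; exact map_zero _
    · obtain ⟨h', e⟩ := frobPt_some k (W₀ := W)
        (CountAbs.exists_point_of_x (W⁄κ).toAffine (algebraMap k κ c)).choose_spec
      simp only [repPt]
      rw [e]
      apply Point.X_eq_iff.mp
      rw [← map_pow, FiniteField.pow_card]
  · intro T hT
    rcases T with _ | ⟨x, y, h⟩
    · exact ⟨none, Or.inl rfl⟩
    · obtain ⟨h', e⟩ := frobPt_some k (W₀ := W) h
      rw [e] at hT
      have hx : x ^ Fintype.card k = x := Point.X_eq_iff.mpr hT
      obtain ⟨c, hc⟩ := FrobFinal.exists_algebraMap_eq_of_pow_card_eq k κ hx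
      refine ⟨some c, ?_⟩
      simp only [repPt]
      apply Point.X_eq_iff.mp
      exact hc.symm
  · rintro (_ | c) (_ | c') h
    · rfl
    · exfalso
      simp only [repPt] at h
      rcases h with h | h
      · exact Point.some_ne_zero _ h.symm
      · rw [Point.neg_some] at h
        exact Point.some_ne_zero _ h.symm
    · exfalso
      simp only [repPt, neg_zero] at h
      rcases h with h | h <;> exact Point.some_ne_zero _ h
    · simp only [repPt] at h
      have hx := Point.X_eq_iff.mpr h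
      rw [(algebraMap k κ).injective hx]

theorem sub_mem_GAMMA : Pgen W κ - phiK W κ (Pgen W κ) ∈ GAMMA W κ :=
  (GAMMA W κ).sub_mem (Pgen_mem_GAMMA W κ) (phiK_mem_GAMMA W κ (Pgen_mem_GAMMA W κ))

theorem add_mem_GAMMA : Pgen W κ + phiK W κ (Pgen W κ) ∈ GAMMA W κ :=
  (GAMMA W κ).add_mem (Pgen_mem_GAMMA W κ) (phiK_mem_GAMMA W κ (Pgen_mem_GAMMA W κ))

theorem dG_phiK_Pgen : dG W κ (phiK W κ (Pgen W κ)) = Fintype.card k := by
  rw [dG_phiK W κ (Pgen_mem_GAMMA W κ), dG_Pgen, mul_one]

/-- `(1 - φ) Pgen` is not constant. -/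
theorem sub_not_mem_Const : Pgen W κ - phiK W κ (Pgen W κ) ∉ Const W κ := by
  intro h
  have hA := sub_mem_GAMMA W κ
  have hneg := neg_eq_self_of_mem_GAMMA_of_mem_Const W κ hA h
  have h0 := dG_of_mem_Const W κ h
  have hpar := dG_add_add_dG_sub W κ (Pgen_mem_GAMMA W κ) hA
  have e1 : Pgen W κ - (Pgen W κ - phiK W κ (Pgen W κ)) = phiK W κ (Pgen W κ) := sub_sub_cancel _ _
  have e2 : Pgen W κ + (Pgen W κ - phiK W κ (Pgen W κ)) = phiK W κ (Pgen W κ) := by
    conv_lhs => rw [← hneg]
    rw [← sub_eq_add_neg, e1]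
  rw [e1, e2, dG_phiK_Pgen, dG_Pgen, h0] at hpar
  have := Fintype.one_lt_card (α := k)
  omega

/-- `(1 + φ) Pgen` is not constant. -/
theorem add_not_mem_Const : Pgen W κ + phiK W κ (Pgen W κ) ∉ Const W κ := by
  intro h
  have hB := add_mem_GAMMA W κ
  have hneg := neg_eq_self_of_mem_GAMMA_of_mem_Const W κ hB h
  have h0 := dG_of_mem_Const W κ h
  have hpar := dG_add_add_dG_sub W κ (Pgen_mem_GAMMA W κ) hB
  have e1 : Pgen W κ - (Pgen W κ + phiK W κ (Pgen W κ)) = -phiK W κ (Pgen W κ) := by abel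
  have e2 : Pgen W κ + (Pgen W κ + phiK W κ (Pgen W κ)) = -phiK W κ (Pgen W κ) := by
    conv_lhs => rw [← hneg]
    rw [← sub_eq_add_neg, e1]
  rw [e1, e2, dG_neg, dG_phiK_Pgen, dG_Pgen, h0] at hpar
  have := Fintype.one_lt_card (α := k)
  omega

theorem card_ker_sub_le :
    Nat.card (AddMonoidHom.id (Eκ W κ) - phiκ W κ).ker ≤
      dG W κ (Pgen W κ - phiK W κ (Pgen W κ)) := by
  refine (card_ker_le W κ (AddMonoidHom.id _ - phiK W κ) (AddMonoidHom.id _ - phiκ W κ)
    ?_ ?_ (sub_mem_GAMMA W κ) (sub_not_mem_Const W κ)).2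
  · intro T
    simp only [AddMonoidHom.sub_apply, AddMonoidHom.id_apply, map_sub, phiK_cst]
  · intro σ R
    simp only [AddMonoidHom.sub_apply, AddMonoidHom.id_apply, map_sub, map_phiK]

theorem card_ker_add_le :
    Nat.card (AddMonoidHom.id (Eκ W κ) + phiκ W κ).ker ≤
      dG W κ (Pgen W κ + phiK W κ (Pgen W κ)) := by
  refine (card_ker_le W κ (AddMonoidHom.id _ + phiK W κ) (AddMonoidHom.id _ + phiκ W κ)
    ?_ ?_ (add_mem_GAMMA W κ) (add_not_mem_Const W κ)).2
  · intro T
    simp only [AddMonoidHom.add_apply, AddMonoidHom.id_apply, map_add, phiK_cst]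
  · intro σ R
    simp only [AddMonoidHom.add_apply, AddMonoidHom.id_apply, map_add, map_phiK]

/-- **(C) for `1 - φ`**: `d((1 - φ) Pgen) = #ker(1 - φ)`. -/
theorem dG_sub_eq :
    dG W κ (Pgen W κ - phiK W κ (Pgen W κ)) =
      Nat.card (AddMonoidHom.id (Eκ W κ) - phiκ W κ).ker := by
  have hpar := dG_add_add_dG_sub W κ (Pgen_mem_GAMMA W κ)
    (phiK_mem_GAMMA W κ (Pgen_mem_GAMMA W κ))
  rw [dG_phiK_Pgen, dG_Pgen] at hpar
  have h1 := card_ker_sub_le W κ
  have h2 := card_ker_add_le W κ
  have h3 := card_ker_sub_add_card_ker_add_phiκ W κ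
  omega

/-- **(M)**: `d((1 - φ²) Pgen) = d((1 - φ) Pgen) d((1 + φ) Pgen)`. -/
theorem dG_sub_sq :
    dG W κ (Pgen W κ - phiK W κ (phiK W κ (Pgen W κ))) =
      dG W κ (Pgen W κ - phiK W κ (Pgen W κ)) * dG W κ (Pgen W κ + phiK W κ (Pgen W κ)) := by
  obtain ⟨σ, hσ⟩ := exists_sig W κ (add_not_mem_Const W κ)
  have hS : Point.map (W' := W) σ (Pgen W κ) ∈ GAMMA W κ := hσ ▸ add_mem_GAMMA W κ
  have h := dG_map W κ σ hS (sub_mem_GAMMA W κ)
  rw [map_sub, map_phiK, hσ] at h
  rw [← h]
  congr 1
  rw [map_add]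
  abel

/-- Frobenius on `GAMMA`. -/
noncomputable def phiΓ : GAMMA W κ →+ GAMMA W κ :=
  ((phiK W κ).comp (GAMMA W κ).subtype).codRestrict (GAMMA W κ)
    (fun R => phiK_mem_GAMMA W κ R.2)

@[simp] theorem coe_phiΓ (R : GAMMA W κ) : ((phiΓ W κ R : GAMMA W κ) : EK W κ) = phiK W κ R.1 := rfl

/-- the degree on `GAMMA`, integer valued -/
noncomputable def dΓ (R : GAMMA W κ) : ℤ := (dG W κ R.1 : ℤ)

/-- The generic point satisfies the Frobenius relation up to a constant point. -/
theorem relation_Pgen_mem_Const :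
    phiK W κ (phiK W κ (Pgen W κ)) -
        ((Fintype.card k : ℤ) + 1 - (Nat.card W.Point : ℤ)) • phiK W κ (Pgen W κ) +
      (Fintype.card k : ℤ) • Pgen W κ ∈ Const W κ := by
  have hpar : ∀ a b : GAMMA W κ, dΓ W κ (a + b) + dΓ W κ (a - b) = 2 * dΓ W κ a + 2 * dΓ W κ b := by
    intro a b
    have := dG_add_add_dG_sub W κ a.2 b.2
    simp only [dΓ, AddSubgroup.coe_add, AddSubgroup.coe_sub]
    exact_mod_cast this
  have hφ : ∀ R : GAMMA W κ, dΓ W κ (phiΓ W κ R) = (Fintype.card k : ℤ) * dΓ W κ R := by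
    intro R
    simp only [dΓ, coe_phiΓ]
    exact_mod_cast dG_phiK W κ R.2
  let PΓ : GAMMA W κ := ⟨Pgen W κ, Pgen_mem_GAMMA W κ⟩
  have hP0 : dΓ W κ PΓ = 1 := by
    simp only [dΓ, PΓ]
    exact_mod_cast dG_Pgen W κ
  have hN := FrobFinal.card_ker_one_sub_frobPt k W κ
  have h1 : dΓ W κ (PΓ - phiΓ W κ PΓ) = (Nat.card W.Point : ℤ) := by
    simp only [dΓ, AddSubgroup.coe_sub, coe_phiΓ, PΓ]
    rw [dG_sub_eq, hN]
  have h2 : dΓ W κ (PΓ - phiΓ W κ (phiΓ W κ PΓ)) =
      (Nat.card W.Point : ℤ) * dΓ W κ (PΓ + phiΓ W κ PΓ) := by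
    simp only [dΓ, AddSubgroup.coe_sub, AddSubgroup.coe_add, coe_phiΓ, PΓ]
    rw [dG_sub_sq, dG_sub_eq, hN]
    push_cast
    rfl
  have h := QuadFormFrob.d_frob_quadratic_eq_zero hpar (phiΓ W κ) (Fintype.card k : ℤ) hφ PΓ hP0
    (Nat.card W.Point : ℤ) h1 h2
  have hmem := mem_Const_of_dG_eq_zero W κ
    (phiΓ W κ (phiΓ W κ PΓ) - ((Fintype.card k : ℤ) + 1 - (Nat.card W.Point : ℤ)) • phiΓ W κ PΓ +
      (Fintype.card k : ℤ) • PΓ).2 (Int.natCast_eq_zero.mp h)
  simpa only [AddSubgroup.coe_add, AddSubgroup.coe_sub, AddSubgroup.coe_zsmul, coe_phiΓ, PΓ]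
    using hmem

/-- **EC-FROB-0 over an algebraically closed field.** -/
theorem frob_quadratic_algClosed (T : Eκ W κ) :
    phiκ W κ (phiκ W κ T) -
        ((Fintype.card k : ℤ) + 1 - (Nat.card W.Point : ℤ)) • phiκ W κ T +
      (Fintype.card k : ℤ) • T = 0 := by
  set a : ℤ := (Fintype.card k : ℤ) + 1 - (Nat.card W.Point : ℤ) with ha
  have hΨ := relation_Pgen_mem_Const W κ
  rw [← ha] at hΨ
  -- the translation by `T`
  have hnc : Pgen W κ + cst W κ T ∉ Const W κ := by
    intro h
    apply Pgen_not_mem_Const W κ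
    have := (Const W κ).sub_mem h (⟨T, rfl⟩ : cst W κ T ∈ Const W κ)
    simpa using this
  obtain ⟨σ, hσ⟩ := exists_sig W κ hnc
  have hfix := map_of_mem_Const W κ σ hΨ
  rw [map_add, map_sub, map_zsmul, map_zsmul] at hfix
  simp only [map_phiK] at hfix
  rw [hσ] at hfix
  simp only [map_add, phiK_cst] at hfix
  apply cst_injective W κ
  rw [map_zero, map_add, map_sub, map_zsmul, map_zsmul]
  have e : ∀ (P1 P2 P3 Q1 Q2 Q3 : EK W κ) (a q : ℤ),
      (P1 + Q1) - a • (P2 + Q2) + q • (P3 + Q3) = P1 - a • P2 + q • P3 →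
        Q1 - a • Q2 + q • Q3 = 0 := by
    intro P1 P2 P3 Q1 Q2 Q3 a q h
    have h' : (P1 - a • P2 + q • P3) + (Q1 - a • Q2 + q • Q3) = P1 - a • P2 + q • P3 := by
      refine Eq.trans ?_ h
      rw [smul_add, smul_add]; abel
    exact add_left_cancel (h'.trans (add_zero _).symm)
  exact e _ _ _ _ _ _ _ _ hfix

end Frob

section Final

variable {k : Type u} [Field k] [Fintype k] (W : WeierstrassCurve.Affine k) [W.IsElliptic]

/-- **EC-FROB-0.** For an elliptic curve `W` over a finite field `k` with `q` elements and any field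
`L ⊇ k`, the `q`-Frobenius `φ` on `W(L)` satisfies `φ² - (q + 1 - #W(k)) φ + q = 0`. -/
theorem frob_quadratic (L : Type u) [Field L] [Algebra k L] [DecidableEq L]
    (P : (W⁄L).toAffine.Point) :
    frobPt k L (frobPt k L P) -
        ((Fintype.card k : ℤ) + 1 - (Nat.card W.Point : ℤ)) • frobPt k L P +
      (Fintype.card k : ℤ) • P = 0 := by
  classical
  exact FrobFinal.relation_of_algHom k W (IsScalarTower.toAlgHom k L (AlgebraicClosure L)) _ _
    (frob_quadratic_algClosed W (AlgebraicClosure L)) P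

end Final

end Fermat.Agent.GE.GenericFrob
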