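import Fermat.Prelude.Def_CuspForm_Newforms

/-!
# S58 prep (report 205 (0)): a newform "for free" by minimal level

For a normalized eigenform `f` of level `N ≠ 0`, a divisor `M ∣ N` that is minimal with
`GoodEigensystemOccursAt f M` carries a witness `g` which is a newform in the prelude's sense
(`CuspForm.IsNewform`) and has the same good eigenvalues as `f` (primes `ℓ ∤ N`).
No Atkin–Lehner theory is used.
-/

set_option autoImplicit false

open ModularFormClass

namespace Fermat.Agent.GE.MinLevel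

open CuspForm

/-- Transitivity of `GoodEigensystemOccursAt` along divisibility of levels: if `g` (level `M ∣ N`)
matches `f` (level `N`) at primes not dividing `N`, and the eigensystem of `g` occurs at `M'`,
then the eigensystem of `f` occurs at `M'`. -/
theorem goodEigensystemOccursAt_trans {N M : ℕ} (hMN : M ∣ N)
    {f : CuspForm (CongruenceSubgroup.Gamma0 N) 2} {g : CuspForm (CongruenceSubgroup.Gamma0 M) 2}
    (hgf : ∀ ℓ : ℕ, ℓ.Prime → ¬ ℓ ∣ N → qCoeff g ℓ = qCoeff f ℓ) {M' : ℕ}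
    (h : GoodEigensystemOccursAt g M') : GoodEigensystemOccursAt f M' := by
  obtain ⟨h', hh', hh'g⟩ := h
  refine ⟨h', hh', fun ℓ hℓ hℓN => ?_⟩
  have hℓM : ¬ ℓ ∣ M := fun hd => hℓN (hd.trans hMN)
  rw [hh'g ℓ hℓ hℓM, hgf ℓ hℓ hℓN]

/-- **Newform for free.** A normalized eigenform of level `N ≠ 0` has an associated newform (in
the prelude's sense) of some level `M ∣ N` with the same eigenvalues at all primes `ℓ ∤ N`. -/
theorem exists_newform_of_eigenform {N : ℕ} (hN : N ≠ 0)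
    {f : CuspForm (CongruenceSubgroup.Gamma0 N) 2} (hf : f.IsNormalizedEigenform) :
    ∃ M : ℕ, M ∣ N ∧ ∃ g : CuspForm (CongruenceSubgroup.Gamma0 M) 2, g.IsNewform ∧
      ∀ ℓ : ℕ, ℓ.Prime → ¬ ℓ ∣ N → qCoeff g ℓ = qCoeff f ℓ := by
  classical
  -- the set of divisors of `N` at which the eigensystem occurs is nonempty (contains `N`)
  have hex : ∃ M : ℕ, M ∣ N ∧ GoodEigensystemOccursAt f M :=
    ⟨N, dvd_rfl, GoodEigensystemOccursAt.refl hf⟩
  -- take the least such `M`
  let M := Nat.find hex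
  have hM : M ∣ N ∧ GoodEigensystemOccursAt f M := Nat.find_spec hex
  have hmin : ∀ M' : ℕ, M' < M → ¬ (M' ∣ N ∧ GoodEigensystemOccursAt f M') :=
    fun M' h => Nat.find_min hex h
  obtain ⟨hMN, g, hg, hgf⟩ := hM
  have hM0 : M ≠ 0 := fun h0 => hN (by rw [h0] at hMN; exact zero_dvd_iff.mp hMN)
  refine ⟨M, hMN, g, ⟨hg, fun M' hM'M hne hocc => ?_⟩, hgf⟩
  have hlt : M' < M :=
    lt_of_le_of_ne (Nat.le_of_dvd (Nat.pos_of_ne_zero hM0) hM'M) hne
  exact hmin M' hlt ⟨hM'M.trans hMN, goodEigensystemOccursAt_trans hMN hgf hocc⟩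

/-- Variant recording also that the level `M` is positive. -/
theorem exists_newform_of_eigenform' {N : ℕ} (hN : N ≠ 0)
    {f : CuspForm (CongruenceSubgroup.Gamma0 N) 2} (hf : f.IsNormalizedEigenform) :
    ∃ M : ℕ, 0 < M ∧ M ∣ N ∧ ∃ g : CuspForm (CongruenceSubgroup.Gamma0 M) 2, g.IsNewform ∧
      ∀ ℓ : ℕ, ℓ.Prime → ¬ ℓ ∣ N → qCoeff g ℓ = qCoeff f ℓ := by
  obtain ⟨M, hMN, g, hg, hgf⟩ := exists_newform_of_eigenform hN hf
  refine ⟨M, Nat.pos_of_ne_zero fun h0 => hN ?_, hMN, g, hg, hgf⟩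
  rw [h0] at hMN
  exact zero_dvd_iff.mp hMN

end Fermat.Agent.GE.MinLevel
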