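import Mathlib

/-!
# S58 prep (report 205 (1)): coefficient algebra of the `q`-stabilisation

Let `a : ℕ → ℂ` satisfy the four clauses of the prelude's `IsNormalizedEigenform` at level `M`,
let `q ∤ M` be a prime and `β` a root of `X² - a_q X + q`.  Then
`a'' n := a n - β * (if q ∣ n then a (n / q) else 0)` satisfies the four clauses at level `M * q`
and `a'' ℓ = a ℓ` for every prime `ℓ ≠ q`.  (Mathlib only.)
-/

set_option autoImplicit false

namespace Fermat.Agent.GE.StabAlg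

/-- The four coefficient clauses of a normalized eigenform of level `M` (abstract sequence). -/
structure EigenSeq (M : ℕ) (a : ℕ → ℂ) : Prop where
  one : a 1 = 1
  mul_of_coprime : ∀ m n : ℕ, m.Coprime n → a (m * n) = a m * a n
  prime_pow_of_not_dvd : ∀ p r : ℕ, p.Prime → ¬ p ∣ M →
    a (p ^ (r + 2)) = a p * a (p ^ (r + 1)) - p * a (p ^ r)
  prime_pow_of_dvd : ∀ p r : ℕ, p.Prime → p ∣ M →
    a (p ^ (r + 2)) = a p * a (p ^ (r + 1))

/-- The `q`-stabilised sequence `a_n - β a_{n/q}`. -/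
noncomputable def stab (a : ℕ → ℂ) (q : ℕ) (β : ℂ) : ℕ → ℂ :=
  fun n => a n - β * (if q ∣ n then a (n / q) else 0)

theorem stab_of_not_dvd (a : ℕ → ℂ) {q : ℕ} (β : ℂ) {n : ℕ} (h : ¬ q ∣ n) :
    stab a q β n = a n := by
  simp [stab, h]

theorem stab_of_dvd (a : ℕ → ℂ) {q : ℕ} (β : ℂ) {n : ℕ} (h : q ∣ n) :
    stab a q β n = a n - β * a (n / q) := by
  simp [stab, h]

theorem stab_prime_of_ne (a : ℕ → ℂ) {q ℓ : ℕ} (β : ℂ) (hq : q.Prime) (hℓ : ℓ.Prime)
    (hne : ℓ ≠ q) : stab a q β ℓ = a ℓ :=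
  stab_of_not_dvd a β fun h => hne ((Nat.prime_dvd_prime_iff_eq hq hℓ).mp h).symm

theorem stab_prime_pow_of_ne (a : ℕ → ℂ) {q p : ℕ} (β : ℂ) (hq : q.Prime) (hp : p.Prime)
    (hne : p ≠ q) (k : ℕ) : stab a q β (p ^ k) = a (p ^ k) :=
  stab_of_not_dvd a β fun h =>
    hne ((Nat.prime_dvd_prime_iff_eq hq hp).mp (hq.dvd_of_dvd_pow h)).symm

variable {M : ℕ} {a : ℕ → ℂ}

theorem stab_one (ha : EigenSeq M a) {q : ℕ} (hq : q.Prime) (β : ℂ) : stab a q β 1 = 1 := by
  rw [stab_of_not_dvd a β (fun h => hq.one_lt.ne' (Nat.dvd_one.mp h)), ha.one]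

theorem stab_mul_of_coprime (ha : EigenSeq M a) {q : ℕ} (hq : q.Prime) (β : ℂ) (m n : ℕ)
    (hmn : m.Coprime n) : stab a q β (m * n) = stab a q β m * stab a q β n := by
  by_cases hm : q ∣ m
  · -- then `q ∤ n`
    have hn : ¬ q ∣ n := fun hn => hq.one_lt.ne' (Nat.dvd_one.mp (hmn ▸ Nat.dvd_gcd hm hn))
    obtain ⟨m', rfl⟩ := hm
    have hcop : m'.Coprime n := Nat.Coprime.coprime_mul_left hmn
    have hdvd : q ∣ q * m' * n := Dvd.dvd.mul_right (dvd_mul_right q m') n
    have hdiv : q * m' * n / q = m' * n := by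
      rw [mul_assoc]; exact Nat.mul_div_cancel_left _ hq.pos
    rw [stab_of_dvd a β hdvd, stab_of_dvd a β (dvd_mul_right q m'), stab_of_not_dvd a β hn,
      hdiv, Nat.mul_div_cancel_left _ hq.pos, ha.mul_of_coprime _ _ hmn,
      ha.mul_of_coprime _ _ hcop]
    ring
  · by_cases hn : q ∣ n
    · obtain ⟨n', rfl⟩ := hn
      have hcop : m.Coprime n' := Nat.Coprime.coprime_mul_left_right hmn
      have hdvd : q ∣ m * (q * n') := Dvd.dvd.mul_left (dvd_mul_right q n') m
      have hdiv : m * (q * n') / q = m * n' := by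
        rw [mul_left_comm]; exact Nat.mul_div_cancel_left _ hq.pos
      rw [stab_of_dvd a β hdvd, stab_of_dvd a β (dvd_mul_right q n'), stab_of_not_dvd a β hm,
        hdiv, Nat.mul_div_cancel_left _ hq.pos, ha.mul_of_coprime _ _ hmn,
        ha.mul_of_coprime _ _ hcop]
      ring
    · have hmn' : ¬ q ∣ m * n := fun h => (hq.dvd_mul.mp h).elim hm hn
      rw [stab_of_not_dvd a β hmn', stab_of_not_dvd a β hm, stab_of_not_dvd a β hn,
        ha.mul_of_coprime _ _ hmn]

theorem stab_self_pow (ha : EigenSeq M a) {q : ℕ} (hq : q.Prime) (hqM : ¬ q ∣ M) {β : ℂ}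
    (hβ : β ^ 2 - a q * β + q = 0) (r : ℕ) :
    stab a q β (q ^ (r + 2)) = stab a q β q * stab a q β (q ^ (r + 1)) := by
  have h2 : q ^ (r + 2) / q = q ^ (r + 1) := by
    rw [pow_succ, Nat.mul_div_cancel _ hq.pos]
  have h1 : q ^ (r + 1) / q = q ^ r := by
    rw [pow_succ, Nat.mul_div_cancel _ hq.pos]
  rw [stab_of_dvd a β (dvd_pow_self q (by omega)), stab_of_dvd a β (dvd_pow_self q (by omega)),
    stab_of_dvd a β (dvd_refl q), h2, h1, Nat.div_self hq.pos, ha.one,
    ha.prime_pow_of_not_dvd q r hq hqM]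
  linear_combination (-(a (q ^ r))) * hβ

/-- The `q`-stabilisation of an eigen-sequence of level `M` (`q ∤ M`) is an eigen-sequence of
level `M * q`. -/
theorem eigenSeq_stab (ha : EigenSeq M a) {q : ℕ} (hq : q.Prime) (hqM : ¬ q ∣ M) {β : ℂ}
    (hβ : β ^ 2 - a q * β + q = 0) : EigenSeq (M * q) (stab a q β) where
  one := stab_one ha hq β
  mul_of_coprime := stab_mul_of_coprime ha hq β
  prime_pow_of_not_dvd p r hp hpMq := by
    have hpM : ¬ p ∣ M := fun h => hpMq (h.mul_right q)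
    have hpq : p ≠ q := fun h => hpMq (h ▸ dvd_mul_left p M)
    rw [stab_prime_pow_of_ne a β hq hp hpq, stab_prime_pow_of_ne a β hq hp hpq,
      stab_prime_pow_of_ne a β hq hp hpq, stab_prime_of_ne a β hq hp hpq,
      ha.prime_pow_of_not_dvd p r hp hpM]
  prime_pow_of_dvd p r hp hpMq := by
    by_cases hpq : p = q
    · subst hpq
      exact stab_self_pow ha hp hqM hβ r
    · have hpM : p ∣ M := by
        rcases (Nat.Prime.dvd_mul hp).mp hpMq with h | h
        · exact h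
        · exact absurd ((Nat.prime_dvd_prime_iff_eq hp hq).mp h) hpq
      rw [stab_prime_pow_of_ne a β hq hp hpq, stab_prime_pow_of_ne a β hq hp hpq,
        stab_prime_of_ne a β hq hp hpq, ha.prime_pow_of_dvd p r hp hpM]

/-- A root of `X² - c X + d` exists in `ℂ`. -/
theorem exists_root_quadratic (c d : ℂ) : ∃ β : ℂ, β ^ 2 - c * β + d = 0 := by
  obtain ⟨s, hs⟩ := IsAlgClosed.exists_pow_nat_eq (c ^ 2 - 4 * d) (n := 2) (by norm_num)
  refine ⟨(c + s) / 2, ?_⟩
  linear_combination (1 / 4 : ℂ) * hs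

end Fermat.Agent.GE.StabAlg
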