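/-
GATE-L-S58, TRANSFER-REL (helper53; node of helper91's EC GRAPH v2).

Relation-form transfer.  `ρ : GaloisRepAdic O` with `charpoly ρ(τ) = X² - a_ℓ X + ℓ` at the
Frobenius lifts `τ` of the primes `ℓ ∉ B`; `V` an abelian group with a finite-level action `r` of
`G_ℚ` such that `τ² - a_ℓ τ + ℓ = 0` on `V` for the same `τ`.  Then for every `σ ∈ G_ℚ` and all
`n, k` there are `t : ℤ`, `d : ℕ` with

  `tr ρ(σ) ≡ t`, `det ρ(σ) ≡ d  (mod 𝔪 ^ k)`,  `σ² - t σ + d = 0` on `V`,  `σ ζ = ζ ^ d` on `μ_{λⁿ}`.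

Proof: the elementary Frobenius density `FrobLift.exists_isFrobeniusAt_pow'` applied to the product
`(ρ mod 𝔪 ^ k) × r × cycMod λ n` gives a Frobenius lift `τ` at some `ℓ ∉ B ∪ {λ}` and `j` with
`σ = τ ^ j` there; `t := V_j(a_ℓ, ℓ)` (Lucas), `d := ℓ ^ j`.
-/
import Fermat.Agent.GE.Transfer

set_option autoImplicit false

open Polynomial IsLocalRing Module

namespace Fermat.Agent.GE.TransferRel

open Fermat.Agent.GJ Fermat.Agent.GJ.Tate Fermat.Agent.GJ.Tate.Carayol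

/-- `ℚ̄`. -/
local notation "Qb" => AlgebraicClosure ℚ
/-- `G_ℚ`. -/
local notation "GQ" => (AlgebraicClosure ℚ ≃ₐ[ℚ] AlgebraicClosure ℚ)

section Reduction

variable {T : Type*} [CommRing T] (I : Ideal T) {V : Type*} [AddCommGroup V]
    [Module T V] [Module.Free T V] [Module.Finite T V]

/-- the determinant commutes with reduction modulo an ideal -/
theorem det_redMat (f : Module.End T V) :
    Matrix.det (redMat I V f) = Ideal.Quotient.mk I (LinearMap.det f) := by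
  classical
  have h1 : redMat I V f =
      (Ideal.Quotient.mk I).mapMatrix (LinearMap.toMatrix (Free.chooseBasis T V)
        (Free.chooseBasis T V) f) := rfl
  rw [h1, ← RingHom.map_det, LinearMap.det_toMatrix]

end Reduction

section Quadratic

/-- Lucas: if `x` is invertible and `x² - a x + ℓ = 0` then `(x^j)² - V_j(a, ℓ) x^j + ℓ^j = 0`. -/
theorem pow_quadratic {E : Type*} [Ring E] (x y a : E) (ℓ : ℕ)
    (hxy : x * y = 1) (hyx : y * x = 1) (h : x * x - a * x + (ℓ : E) = 0) (j : ℕ) :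
    x ^ j * x ^ j - lucasV a (ℓ : E) j * x ^ j + ((ℓ ^ j : ℕ) : E) = 0 := by
  rw [lucasV_eq_pow_add_of_quadratic x y a ℓ hxy hyx h j, add_mul, mul_assoc]
  have h1 : y ^ j * x ^ j = 1 := by
    induction j with
    | zero => simp
    | succ j ih =>
      rw [pow_succ, pow_succ', mul_assoc, ← mul_assoc y x, hyx, one_mul, ih]
  rw [h1, mul_one, Nat.cast_pow]
  abel

/-- evaluation of a quadratic expression in `AddMonoid.End V` -/
theorem quad_apply {V : Type*} [AddCommGroup V] (x : AddMonoid.End V) (a : ℤ) (m : ℕ) (v : V) :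
    (x * x - ((a : ℤ) : AddMonoid.End V) * x + ((m : ℕ) : AddMonoid.End V)) v =
      x (x v) - a • x v + (m : ℤ) • v := by
  change x (x v) - ((a : ℤ) : AddMonoid.End V) (x v) + ((m : ℕ) : AddMonoid.End V) v = _
  rw [AddMonoid.End.intCast_apply, AddMonoid.End.natCast_apply, natCast_zsmul]

end Quadratic

section General

variable {O : Type} [CommRing O] [IsDomain O] [IsLocalRing O]

/-- **TRANSFER-REL.** -/
theorem exists_rel (ρ : GaloisRepAdic O) (lam : ℕ) [Fact lam.Prime] (a : ℕ → ℤ) (B : Finset ℕ)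
    (hρ : ∀ ℓ : ℕ, ℓ.Prime → ℓ ∉ B → ∀ A : ValuationSubring Qb, A.LiesOverPrime ℓ →
      ∀ τ : GQ, A.IsFrobeniusAt τ ℓ →
        LinearMap.charpoly (ρ.ρ τ) = X ^ 2 - C (((a ℓ : ℤ) : O)) * X + C ((ℓ : O)))
    {V : Type} [AddCommGroup V] (r : GQ →* AddMonoid.End V)
    (hr : GaloisFactorsThroughFiniteLevel r)
    (hV : ∀ ℓ : ℕ, ℓ.Prime → ℓ ∉ B → ∀ A : ValuationSubring Qb, A.LiesOverPrime ℓ →
      ∀ τ : GQ, A.IsFrobeniusAt τ ℓ →
        ∀ v : V, r τ (r τ v) - a ℓ • r τ v + (ℓ : ℤ) • v = 0)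
    (n k : ℕ) (σ : GQ) :
    ∃ (t : ℤ) (d : ℕ),
      LinearMap.trace O ρ.V (ρ.ρ σ) - (t : O) ∈ maximalIdeal O ^ k ∧
      LinearMap.det (ρ.ρ σ) - (d : O) ∈ maximalIdeal O ^ k ∧
      (∀ v : V, r σ (r σ v) - t • r σ v + (d : ℤ) • v = 0) ∧
      (∀ ζ : Qb, ζ ^ (lam ^ n) = 1 → σ ζ = ζ ^ d) := by
  classical
  obtain ⟨ℓ, A, τ, j, hℓ, hℓB, hA, hτ, hpow⟩ :=
    FrobLift.exists_isFrobeniusAt_pow' ((redRho ρ k).prod (r.prod (cycMod lam n)))
      (factorsThroughFiniteLevel_prod (redRho_factors ρ k)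
        (factorsThroughFiniteLevel_prod hr (cycMod_level lam n))) (insert lam B) σ
  rw [MonoidHom.prod_apply, MonoidHom.prod_apply, MonoidHom.prod_apply, MonoidHom.prod_apply,
    Prod.pow_mk, Prod.pow_mk, Prod.mk.injEq, Prod.mk.injEq] at hpow
  obtain ⟨h1, h2, h3⟩ := hpow
  have hℓB' : ℓ ∉ B := fun h => hℓB (Finset.mem_insert_of_mem h)
  have hℓlam : ℓ ≠ lam := fun h => hℓB (h ▸ Finset.mem_insert_self _ _)
  have hch := hρ ℓ hℓ hℓB' A hA τ hτ
  obtain ⟨htr, hdet⟩ : LinearMap.trace O ρ.V (ρ.ρ τ) = ((a ℓ : ℤ) : O) ∧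
      LinearMap.det (ρ.ρ τ) = (ℓ : O) := by
    have hc := hch
    rw [TwoDim.charpoly_eq_of_finrank_two ρ.finrank_eq (ρ.ρ τ)] at hc
    have c1 := congrArg (fun P : O[X] => P.coeff 1) hc
    have c0 := congrArg (fun P : O[X] => P.coeff 0) hc
    simp only [coeff_add, coeff_sub, coeff_X_pow, coeff_C_mul, coeff_X_one,
      coeff_X_zero, coeff_C] at c1 c0
    norm_num at c1 c0
    exact ⟨c1, c0⟩
  refine ⟨lucasV (a ℓ) ((ℓ : ℕ) : ℤ) j, ℓ ^ j, ?_, ?_, ?_, ?_⟩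
  · -- the trace
    rw [redRho_apply, redRho_apply] at h1
    have e1 : redMat (maximalIdeal O ^ k) ρ.V (ρ.ρ τ) ^ j =
        redMat (maximalIdeal O ^ k) ρ.V ((ρ.ρ τ) ^ j) := (map_pow _ _ _).symm
    have t1 := congrArg Matrix.trace (h1.trans e1)
    rw [trace_redMat, trace_redMat,
      trace_pow_eq_lucasV ρ.finrank_eq (ρ.ρ τ) _ _ hch j] at t1
    have e2 : ((lucasV (a ℓ) ((ℓ : ℕ) : ℤ) j : ℤ) : O) = lucasV (((a ℓ : ℤ) : O)) (ℓ : O) j := by
      have := map_lucasV (Int.castRingHom O) (a ℓ) ((ℓ : ℕ) : ℤ) j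
      simpa using this
    rw [e2]
    exact Ideal.Quotient.eq.mp t1
  · -- the determinant
    rw [redRho_apply, redRho_apply] at h1
    have e1 : redMat (maximalIdeal O ^ k) ρ.V (ρ.ρ τ) ^ j =
        redMat (maximalIdeal O ^ k) ρ.V ((ρ.ρ τ) ^ j) := (map_pow _ _ _).symm
    have d1 := congrArg Matrix.det (h1.trans e1)
    rw [det_redMat, det_redMat, map_pow, hdet] at d1
    rw [Nat.cast_pow]
    exact Ideal.Quotient.eq.mp d1
  · -- the relation on `V`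
    have hxy : r τ * r τ⁻¹ = 1 := by rw [← map_mul, mul_inv_cancel, map_one]
    have hyx : r τ⁻¹ * r τ = 1 := by rw [← map_mul, inv_mul_cancel, map_one]
    have hq : r τ * r τ - ((a ℓ : ℤ) : AddMonoid.End V) * r τ + ((ℓ : ℕ) : AddMonoid.End V) = 0 := by
      ext v
      rw [quad_apply]
      exact hV ℓ hℓ hℓB' A hA τ hτ v
    have key := pow_quadratic (r τ) (r τ⁻¹) ((a ℓ : ℤ) : AddMonoid.End V) ℓ hxy hyx hq j
    rw [← h2] at key
    have e2 : lucasV ((a ℓ : ℤ) : AddMonoid.End V) ((ℓ : ℕ) : AddMonoid.End V) j =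
        ((lucasV (a ℓ) ((ℓ : ℕ) : ℤ) j : ℤ) : AddMonoid.End V) := by
      have := map_lucasV (Int.castRingHom (AddMonoid.End V)) (a ℓ) ((ℓ : ℕ) : ℤ) j
      simpa using this.symm
    rw [e2] at key
    intro v
    have := DFunLike.congr_fun key v
    rw [quad_apply] at this
    exact this
  · -- the cyclotomic character
    intro ζ hζ
    have hval : ((cycMod lam n σ : (ZMod (lam ^ n))ˣ) : ZMod (lam ^ n)) =
        ((ℓ ^ j : ℕ) : ZMod (lam ^ n)) := by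
      rw [h3, Units.val_pow_eq_pow_val, cycMod_frob lam n A ℓ hℓ hA hℓlam τ hτ, Nat.cast_pow]
    have hspec := cyclotomicCharacter.spec lam (σ : Qb ≃+* Qb) ζ hζ
    have h4 : (PadicInt.toZModPow n)
        ((cyclotomicCharacter Qb lam (σ : Qb ≃+* Qb) : ℤ_[lam]ˣ) : ℤ_[lam]) =
        ((ℓ ^ j : ℕ) : ZMod (lam ^ n)) := by
      rw [← cycMod_apply]; exact hval
    rw [h4, ZMod.val_natCast] at hspec
    have h5 : ζ ^ (ℓ ^ j % lam ^ n) = ζ ^ (ℓ ^ j) := by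
      conv_rhs => rw [← Nat.mod_add_div (ℓ ^ j) (lam ^ n)]
      rw [pow_add, pow_mul, hζ, one_pow, mul_one]
    rw [← h5]
    exact hspec

end General

section DVR

variable {O : Type} [CommRing O] [IsDomain O] [IsDiscreteValuationRing O]

/-- in a DVR every nonzero principal ideal contains a power of the maximal ideal -/
theorem exists_pow_le_span {x : O} (hx : x ≠ 0) :
    ∃ k : ℕ, maximalIdeal O ^ k ≤ Ideal.span {x} := by
  obtain ⟨ϖ, hϖ⟩ := IsDiscreteValuationRing.exists_irreducible O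
  have hI : Ideal.span {x} ≠ ⊥ := by
    rw [Ne, Ideal.span_singleton_eq_bot]
    exact hx
  obtain ⟨k, hk⟩ := IsDiscreteValuationRing.ideal_eq_span_pow_irreducible hI hϖ
  refine ⟨k, ?_⟩
  rw [hk, hϖ.maximalIdeal_eq, Ideal.span_singleton_pow]

/-- **TRANSFER-REL over a DVR of characteristic `0`**: congruences modulo `λ ^ n`. -/
theorem exists_rel_span [CharZero O]
    (ρ : GaloisRepAdic O) (lam : ℕ) [Fact lam.Prime] (a : ℕ → ℤ) (B : Finset ℕ)
    (hρ : ∀ ℓ : ℕ, ℓ.Prime → ℓ ∉ B → ∀ A : ValuationSubring Qb, A.LiesOverPrime ℓ →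
      ∀ τ : GQ, A.IsFrobeniusAt τ ℓ →
        LinearMap.charpoly (ρ.ρ τ) = X ^ 2 - C (((a ℓ : ℤ) : O)) * X + C ((ℓ : O)))
    {V : Type} [AddCommGroup V] (r : GQ →* AddMonoid.End V)
    (hr : GaloisFactorsThroughFiniteLevel r)
    (hV : ∀ ℓ : ℕ, ℓ.Prime → ℓ ∉ B → ∀ A : ValuationSubring Qb, A.LiesOverPrime ℓ →
      ∀ τ : GQ, A.IsFrobeniusAt τ ℓ →
        ∀ v : V, r τ (r τ v) - a ℓ • r τ v + (ℓ : ℤ) • v = 0)
    (n : ℕ) (σ : GQ) :
    ∃ (t : ℤ) (d : ℕ),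
      LinearMap.trace O ρ.V (ρ.ρ σ) - (t : O) ∈ Ideal.span {((lam : O)) ^ n} ∧
      LinearMap.det (ρ.ρ σ) - (d : O) ∈ Ideal.span {((lam : O)) ^ n} ∧
      (∀ v : V, r σ (r σ v) - t • r σ v + (d : ℤ) • v = 0) ∧
      (∀ ζ : Qb, ζ ^ (lam ^ n) = 1 → σ ζ = ζ ^ d) := by
  have hlam : ((lam : O)) ^ n ≠ 0 :=
    pow_ne_zero n (Nat.cast_ne_zero.mpr (Fact.out : lam.Prime).ne_zero)
  obtain ⟨k, hk⟩ := exists_pow_le_span hlam
  obtain ⟨t, d, h1, h2, h3, h4⟩ := exists_rel ρ lam a B hρ r hr hV n k σ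
  exact ⟨t, d, hk h1, hk h2, h3, h4⟩

end DVR

end Fermat.Agent.GE.TransferRel
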